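import Fermat.Agent.S28.DegDefs

/-!
# S28, package D-COSET: arithmetic of the coset representatives
-/

set_option autoImplicit false

noncomputable section

namespace Fermat.Agent.S28

open ModularCurve HahnSeries
open scoped MatrixGroups

namespace Coset

lemma det_eq (γ : SL(2, ℤ)) : γ 0 0 * γ 1 1 - γ 0 1 * γ 1 0 = 1 := by
  have := γ.det_coe
  rw [Matrix.det_fin_two] at this
  exact this

lemma coprime_col (γ : SL(2, ℤ)) : Nat.Coprime (γ 0 0).natAbs (γ 1 0).natAbs := by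
  have h : IsCoprime (γ 0 0) (γ 1 0) := ⟨γ 1 1, -γ 0 1, by linear_combination det_eq γ⟩
  exact Int.isCoprime_iff_gcd_eq_one.1 h

end Coset

open Coset

theorem aOf_eq (γ : SL(2, ℤ)) (d : ℕ) : aOf γ d = Nat.gcd d (γ 1 0).natAbs := by
  rw [aOf, Int.gcd, Int.natAbs_mul, Int.natAbs_natCast]
  exact Nat.Coprime.gcd_mul_right_cancel d (coprime_col γ)

theorem aOf_eq_of_dvd {N : ℕ} (γ : SL(2, ℤ)) {d : ℕ} (hd : d ∣ N) :
    aOf γ d = Nat.gcd d (Nat.gcd N (γ 1 0).natAbs) := by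
  rw [aOf_eq, ← Nat.gcd_assoc, Nat.gcd_eq_left hd]

/-- `(d 0; 0 1) γ = γ' (a b; 0 d/a)` -/
theorem exists_decomp (γ : SL(2, ℤ)) (d : ℕ) (hd : d ≠ 0) : ∃ γ' : SL(2, ℤ),
    !![(d : ℤ) * γ 0 0, d * γ 0 1; γ 1 0, γ 1 1] =
      (γ' : Matrix (Fin 2) (Fin 2) ℤ) * !![(aOf γ d : ℤ), bOf γ d; 0, ((d / aOf γ d : ℕ) : ℤ)] := by
  set a : ℕ := aOf γ d with ha
  set u : ℤ := Int.gcdA (d * γ 0 0) (γ 1 0) with hu
  set v : ℤ := Int.gcdB (d * γ 0 0) (γ 1 0) with hv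
  have hbez : (a : ℤ) = (d * γ 0 0) * u + γ 1 0 * v := Int.gcd_eq_gcd_ab _ _
  have hb : bOf γ d = u * (d * γ 0 1) + v * γ 1 1 := rfl
  have had : a ∣ d := by rw [ha, aOf_eq]; exact Nat.gcd_dvd_left _ _
  have ha0 : a ≠ 0 := fun h => hd (by rw [h] at had; exact Nat.eq_zero_of_zero_dvd had)
  have ha0' : (a : ℤ) ≠ 0 := by exact_mod_cast ha0
  obtain ⟨p, hp⟩ : (a : ℤ) ∣ d * γ 0 0 := Int.gcd_dvd_left _ _
  obtain ⟨r, hr⟩ : (a : ℤ) ∣ γ 1 0 := Int.gcd_dvd_right _ _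
  obtain ⟨e, he⟩ := had
  have hde : d / a = e := by rw [he]; exact Nat.mul_div_cancel_left e (Nat.pos_of_ne_zero ha0)
  have he' : (d : ℤ) = a * e := by exact_mod_cast he
  have hdet := det_eq γ
  have h1 : p * u + r * v = 1 := by
    apply mul_left_cancel₀ ha0'
    linear_combination (-1 : ℤ) * hbez + (-u) * hp + (-v) * hr
  refine ⟨⟨!![p, -v; r, u], by rw [Matrix.det_fin_two_of]; linear_combination h1⟩, ?_⟩
  rw [hde, hb]
  have c1 : p * (u * (d * γ 0 1) + v * γ 1 1) + -(v * (e : ℤ)) = d * γ 0 1 := by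
    apply mul_left_cancel₀ ha0'
    linear_combination (-(u * (d * γ 0 1) + v * γ 1 1)) * hp + v * he' + (-(d * γ 0 1)) * hbez
      + (v * d) * hdet
  have c2 : r * (u * (d * γ 0 1) + v * γ 1 1) + u * (e : ℤ) = γ 1 1 := by
    apply mul_left_cancel₀ ha0'
    linear_combination (-(u * (d * γ 0 1) + v * γ 1 1)) * hr + (-u) * he' + (-(γ 1 1)) * hbez
      - (u * d) * hdet
  ext i j
  fin_cases i <;> fin_cases j <;> simp [Matrix.mul_apply, Fin.sum_univ_two]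
  · rw [hp]; ring
  · exact c1.symm
  · rw [hr]; ring
  · exact c2.symm

theorem rep_mem_Gamma0_iff {N : ℕ} (i : Cos N) :
    rep i ∈ CongruenceSubgroup.Gamma0 N ↔ i = ((1 : SL(2, ℤ)) : Cos N) := by
  rw [rep]
  constructor
  · intro h
    rw [← QuotientGroup.out_eq' i]
    exact QuotientGroup.eq.2 (by rwa [mul_one])
  · intro h
    have h1 : ((Quotient.out i : SL(2, ℤ)) : Cos N) = ((1 : SL(2, ℤ)) : Cos N) := by
      rw [← h]; exact QuotientGroup.out_eq' i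
    have h2 := QuotientGroup.eq.1 h1
    rwa [mul_one] at h2

theorem gcd_rep_eq_iff {N : ℕ} [NeZero N] (i : Cos N) :
    Nat.gcd N ((rep i) 1 0).natAbs = N ↔ i = ((1 : SL(2, ℤ)) : Cos N) := by
  rw [← rep_mem_Gamma0_iff, CongruenceSubgroup.Gamma0_mem, ZMod.intCast_zmod_eq_zero_iff_dvd,
    Nat.gcd_eq_left_iff_dvd, Int.natCast_dvd]

namespace Coset

/-- If `diag(N,1) γ = σ diag(N,1) γ₂` with `σ` integral then `γ γ₂⁻¹ ∈ Γ₀(N)`. -/
lemma mem_Gamma0_of_eq {N : ℕ} (γ γ₂ : SL(2, ℤ)) (σ : Matrix (Fin 2) (Fin 2) ℤ)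
    (h : !![(N : ℤ) * γ 0 0, N * γ 0 1; γ 1 0, γ 1 1] =
      σ * !![(N : ℤ) * γ₂ 0 0, N * γ₂ 0 1; γ₂ 1 0, γ₂ 1 1]) :
    γ * γ₂⁻¹ ∈ CongruenceSubgroup.Gamma0 N := by
  rw [CongruenceSubgroup.Gamma0_mem, ZMod.intCast_zmod_eq_zero_iff_dvd]
  have h10 := congrFun (congrFun h 1) 0
  have h11 := congrFun (congrFun h 1) 1
  simp [Matrix.mul_apply, Fin.sum_univ_two] at h10 h11
  have hdet := det_eq γ₂
  have hentry : (γ * γ₂⁻¹) 1 0 = γ 1 0 * γ₂ 1 1 - γ 1 1 * γ₂ 1 0 := by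
    rw [Matrix.SpecialLinearGroup.coe_mul, Matrix.SpecialLinearGroup.SL2_inv_expl]
    simp [Matrix.mul_apply, Fin.sum_univ_two]
    ring
  rw [hentry, h10, h11]
  exact ⟨σ 1 0, by linear_combination (N * σ 1 0) * hdet⟩

end Coset

/-- the pair `(a, b mod N/a)` for `d = N` determines the coset. -/
theorem rep_injective {N : ℕ} [NeZero N] {i i' : Cos N} (ha : aOf (rep i) N = aOf (rep i') N)
    (hb : ((N / aOf (rep i) N : ℕ) : ℤ) ∣ bOf (rep i) N - bOf (rep i') N) : i = i' := by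
  obtain ⟨γ', h1⟩ := exists_decomp (rep i) N (NeZero.ne N)
  obtain ⟨γ₂', h2⟩ := exists_decomp (rep i') N (NeZero.ne N)
  obtain ⟨k, hk⟩ := hb
  rw [← ha] at h2
  generalize ((N / aOf (rep i) N : ℕ) : ℤ) = e at h1 h2 hk
  have h3 : !![(aOf (rep i) N : ℤ), bOf (rep i) N; 0, e] =
      !![1, k; 0, 1] * !![(aOf (rep i) N : ℤ), bOf (rep i') N; 0, e] := by
    ext a b
    fin_cases a <;> fin_cases b <;> simp [Matrix.mul_apply, Fin.sum_univ_two]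
    linear_combination hk
  have h4 : ((γ₂'⁻¹ : SL(2, ℤ)) : Matrix (Fin 2) (Fin 2) ℤ) *
      !![(N : ℤ) * (rep i') 0 0, N * (rep i') 0 1; (rep i') 1 0, (rep i') 1 1] =
      !![(aOf (rep i) N : ℤ), bOf (rep i') N; 0, e] := by
    rw [h2, ← Matrix.mul_assoc, ← Matrix.SpecialLinearGroup.coe_mul, inv_mul_cancel,
      Matrix.SpecialLinearGroup.coe_one, Matrix.one_mul]
  have h5 := mem_Gamma0_of_eq (rep i) (rep i')
    ((γ' : Matrix (Fin 2) (Fin 2) ℤ) * !![1, k; 0, 1] *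
      ((γ₂'⁻¹ : SL(2, ℤ)) : Matrix (Fin 2) (Fin 2) ℤ)) (by
    rw [Matrix.mul_assoc, h4, Matrix.mul_assoc, ← h3, h1])
  rw [rep, rep, inv_inv] at h5
  rw [← QuotientGroup.out_eq' i, ← QuotientGroup.out_eq' i']
  exact QuotientGroup.eq.2 h5

/-- right multiplication permutes the representatives up to `Γ₀(N)`. -/
theorem exists_perm_rep {N : ℕ} (γ : SL(2, ℤ)) : ∃ π : Equiv.Perm (Cos N),
    ∀ i, rep i * γ * (rep (π i))⁻¹ ∈ CongruenceSubgroup.Gamma0 N := by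
  refine ⟨MulAction.toPerm γ⁻¹, fun i => ?_⟩
  rw [rep, rep, inv_inv]
  have h1 : ((γ⁻¹ * Quotient.out i : SL(2, ℤ)) : Cos N) =
      ((Quotient.out (MulAction.toPerm γ⁻¹ i : Cos N) : SL(2, ℤ)) : Cos N) := by
    rw [QuotientGroup.out_eq']
    conv_rhs => rw [← QuotientGroup.out_eq' i]
    rfl
  have h2 := QuotientGroup.eq.1 h1
  rwa [mul_inv_rev, inv_inv] at h2

end Fermat.Agent.S28
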