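import Fermat.Agent.S28.DegDefs
import Fermat.Agent.S28.Coset

/-!
# S28, degree block, package ORD: formal Laurent series facts
-/

set_option autoImplicit false

noncomputable section

namespace Fermat.Agent.S28

open ModularCurve HahnSeries
open scoped MatrixGroups

namespace Ord

section Nat

variable {R S : Type*} [CommRing R] [CommRing S] (f : R →+* S)

theorem qExp_coeff_mul (m : ℕ) (hm : m ≠ 0) (x : LaurentSeries R) (k : ℤ) :
    (qExp R m x).coeff ((m : ℤ) * k) = x.coeff k := by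
  have : NeZero m := ⟨hm⟩
  rw [qExp_eq, qExpand_coeff_mul]

theorem qExp_coeff_of_not_dvd (m : ℕ) (hm : m ≠ 0) (x : LaurentSeries R) {k : ℤ}
    (hk : ¬ (m : ℤ) ∣ k) : (qExp R m x).coeff k = 0 := by
  have : NeZero m := ⟨hm⟩
  rw [qExp_eq, qExpand_coeff_of_not_dvd m x hk]

theorem qExp_zero (x : LaurentSeries R) : qExp R 0 x = x := by
  rw [qExp, dif_pos rfl]; rfl

theorem qExp_one (x : LaurentSeries R) : qExp R 1 x = x := by
  rw [qExp_eq, qExpand_one_apply]

theorem qExp_qExp (m n : ℕ) (hm : m ≠ 0) (hn : n ≠ 0) (x : LaurentSeries R) :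
    qExp R m (qExp R n x) = qExp R (m * n) x := by
  have : NeZero m := ⟨hm⟩
  have : NeZero n := ⟨hn⟩
  have : NeZero (m * n) := ⟨mul_ne_zero hm hn⟩
  rw [qExp_eq, qExp_eq, qExp_eq, qExpand_qExpand]

theorem qExp_injective (m : ℕ) : Function.Injective (qExp R m) := by
  rcases eq_or_ne m 0 with rfl | hm
  · intro x y h
    rwa [qExp_zero, qExp_zero] at h
  · have : NeZero m := ⟨hm⟩
    rw [qExp_eq]
    exact qExpand_injective m

theorem coeffMap_qExp (m : ℕ) (x : LaurentSeries R) :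
    coeffMap f (qExp R m x) = qExp S m (coeffMap f x) := by
  rcases eq_or_ne m 0 with rfl | hm
  · rw [qExp_zero, qExp_zero]
  · ext k
    by_cases hk : (m : ℤ) ∣ k
    · obtain ⟨c, rfl⟩ := hk
      rw [coeffMap_coeff, qExp_coeff_mul m hm, qExp_coeff_mul m hm, coeffMap_coeff]
    · rw [coeffMap_coeff, qExp_coeff_of_not_dvd m hm _ hk, qExp_coeff_of_not_dvd m hm _ hk,
        map_zero]

theorem coeffMap_twist (ω : Rˣ) (x : LaurentSeries R) :
    coeffMap f (twist ω x) = twist (Units.map (f : R →* S) ω) (coeffMap f x) := by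
  ext k
  rw [coeffMap_coeff, twist_coeff, twist_coeff, coeffMap_coeff, map_mul, ← map_zpow]
  rfl

theorem coeffMap_ofPowerSeries (u : PowerSeries R) :
    coeffMap f (HahnSeries.ofPowerSeries ℤ R u) = HahnSeries.ofPowerSeries ℤ S (u.map f) := by
  ext k
  rw [coeffMap_coeff]
  rcases le_or_gt 0 k with hk | hk
  · lift k to ℕ using hk
    rw [HahnSeries.ofPowerSeries_apply_coeff, HahnSeries.ofPowerSeries_apply_coeff,
      PowerSeries.coeff_map]
  · rw [ofPowerSeries_coeff_of_neg _ hk, ofPowerSeries_coeff_of_neg _ hk, map_zero]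

theorem map_map_int (u : PowerSeries ℤ) :
    (u.map (Int.castRingHom R)).map f = u.map (Int.castRingHom S) := by
  ext n
  simp

theorem coeffMap_deltaS : coeffMap f (deltaS R) = deltaS S := by
  rw [deltaS, deltaS, map_mul, coeffMap_single, map_one, coeffMap_ofPowerSeries, map_map_int]

theorem coeffMap_deltaInvS : coeffMap f (deltaInvS R) = deltaInvS S := by
  rw [deltaInvS, deltaInvS, map_mul, coeffMap_single, map_one, coeffMap_ofPowerSeries,
    map_map_int]

theorem map_omOf (ζ : Rˣ) (N : ℕ) (γ : SL(2, ℤ)) (d : ℕ) :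
    Units.map (f : R →* S) (omOf R ζ N γ d) = omOf S (Units.map (f : R →* S) ζ) N γ d := by
  rw [omOf, omOf, map_zpow]

theorem coeffMap_cX (ζ : Rˣ) (N : ℕ) (γ : SL(2, ℤ)) (d : ℕ) :
    coeffMap f (cX R ζ N γ d) = cX S (Units.map (f : R →* S) ζ) N γ d := by
  rw [cX, cX, coeffMap_qExp, coeffMap_twist, coeffMap_jqModC, map_omOf]

theorem coeffMap_cY (ζ : Rˣ) (N : ℕ) (γ : SL(2, ℤ)) (d : ℕ) :
    coeffMap f (cY R ζ N γ d) = cY S (Units.map (f : R →* S) ζ) N γ d := by
  rw [cY, cY, map_mul, map_mul, map_pow, map_natCast, coeffMap_qExp, coeffMap_twist,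
    coeffMap_deltaS, map_omOf, coeffMap_qExp, coeffMap_deltaInvS]

theorem coeffMap_gX (d : ℕ) : coeffMap f (gX R d) = gX S d := by
  rw [gX, gX, coeffMap_qExp, coeffMap_jqModC]

theorem coeffMap_gY (d : ℕ) : coeffMap f (gY R d) = gY S d := by
  rw [gY, gY, map_mul, map_mul, map_pow, map_natCast, coeffMap_qExp, coeffMap_deltaS,
    coeffMap_deltaInvS]

theorem algebraMap_eq_C (r : R) : algebraMap R (LaurentSeries R) r = HahnSeries.C r := by
  have h1 : algebraMap R (PowerSeries R) r = PowerSeries.C r := by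
    simp
  rw [HahnSeries.algebraMap_apply', h1, HahnSeries.ofPowerSeries_C]

theorem coeffMap_algebraMap' (r : R) :
    coeffMap f (algebraMap R (LaurentSeries R) r) = algebraMap S (LaurentSeries S) (f r) := by
  rw [algebraMap_eq_C, algebraMap_eq_C, HahnSeries.C_apply, HahnSeries.C_apply, coeffMap_single]

theorem coeffMap_aeval {σ : Type*} (g : σ → LaurentSeries R) (g' : σ → LaurentSeries S)
    (h : ∀ x, coeffMap f (g x) = g' x) (U : MvPolynomial σ R) :
    coeffMap f (MvPolynomial.aeval g U) = MvPolynomial.aeval g' (MvPolynomial.map f U) := by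
  induction U using MvPolynomial.induction_on with
  | C a =>
    rw [MvPolynomial.map_C, MvPolynomial.aeval_C, MvPolynomial.aeval_C, coeffMap_algebraMap']
  | add p q hp hq => rw [map_add, map_add, map_add, map_add, hp, hq]
  | mul_X p x hp =>
    rw [map_mul, map_mul, map_mul, map_mul, hp, MvPolynomial.map_X, MvPolynomial.aeval_X,
      MvPolynomial.aeval_X, h]

end Nat

end Ord

open _root_.Fermat.Agent.S28.Ord

theorem coeffMap_cgen {R S : Type*} [CommRing R] [CommRing S] (f : R →+* S) (ζ : Rˣ) (N : ℕ)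
    (γ : SL(2, ℤ)) (x : Gen N) :
    coeffMap f (cgen R ζ N γ x) = cgen S (Units.map (f : R →* S) ζ) N γ x := by
  rw [cgen, cgen]
  split_ifs
  · exact coeffMap_cY f ζ N γ _
  · exact coeffMap_cX f ζ N γ _

theorem coeffMap_ev {R S : Type*} [CommRing R] [CommRing S] (f : R →+* S) (ζ : Rˣ) (N : ℕ)
    (γ : SL(2, ℤ)) (U : MvPolynomial (Gen N) R) :
    coeffMap f (ev R ζ N γ U) = ev S (Units.map (f : R →* S) ζ) N γ (MvPolynomial.map f U) :=
  coeffMap_aeval f _ _ (coeffMap_cgen f ζ N γ) U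

theorem coeffMap_gen {R S : Type*} [CommRing R] [CommRing S] (f : R →+* S) (N : ℕ) (x : Gen N) :
    coeffMap f (gen R N x) = gen S N x := by
  rw [gen, gen]
  split_ifs
  · exact coeffMap_gY f _
  · exact coeffMap_gX f _

theorem coeffMap_ev0 {R S : Type*} [CommRing R] [CommRing S] (f : R →+* S) (N : ℕ)
    (U : MvPolynomial (Gen N) R) :
    coeffMap f (ev0 R N U) = ev0 S N (MvPolynomial.map f U) :=
  coeffMap_aeval f _ _ (coeffMap_gen f N) U

theorem coeffMap_Jt {R S : Type*} [CommRing R] [CommRing S] (f : R →+* S) (N : ℕ) :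
    coeffMap f (Jt R N) = Jt S N := by
  rw [Jt, Jt, coeffMap_qExp, coeffMap_jqModC]

namespace Ord

theorem twist_one {R : Type*} [CommRing R] (x : LaurentSeries R) : twist (1 : Rˣ) x = x := by
  ext k
  simp

theorem aOf_of_mem_Gamma0 {N : ℕ} {γ : SL(2, ℤ)} (hγ : γ ∈ CongruenceSubgroup.Gamma0 N) {d : ℕ}
    (hd : d ∣ N) : aOf γ d = d := by
  rw [aOf_eq]
  apply Nat.gcd_eq_left
  rw [CongruenceSubgroup.Gamma0_mem, ZMod.intCast_zmod_eq_zero_iff_dvd] at hγ
  exact hd.trans (Int.natCast_dvd.mp hγ)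

theorem mOf_of_mem_Gamma0 {N : ℕ} {γ : SL(2, ℤ)} (hγ : γ ∈ CongruenceSubgroup.Gamma0 N) {d : ℕ}
    (hd : d ∣ N) : mOf N γ d = N * d := by
  rw [mOf, aOf_of_mem_Gamma0 hγ hd, sq, mul_assoc, Nat.mul_div_cancel' hd, mul_comm]

theorem omOf_of_mem_Gamma0 {R : Type*} [CommRing R] (ζ : Rˣ) {N : ℕ} (hζ : ζ ^ N = 1)
    {γ : SL(2, ℤ)} (hγ : γ ∈ CongruenceSubgroup.Gamma0 N) {d : ℕ}
    (hd : d ∣ N) : omOf R ζ N γ d = 1 := by
  rw [omOf, aOf_of_mem_Gamma0 hγ hd, Nat.div_mul_cancel hd, zpow_mul, zpow_natCast, hζ, one_zpow]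

end Ord

/-- at the trivial coset the conjugates are the standard generators (in `t = q^(1/N)`). -/
theorem cgen_of_mem_Gamma0 {R : Type*} [CommRing R] (ζ : Rˣ) {N : ℕ} [NeZero N] (hζ : ζ ^ N = 1)
    {γ : SL(2, ℤ)} (hγ : γ ∈ CongruenceSubgroup.Gamma0 N) (x : Gen N) :
    cgen R ζ N γ x = qExp R N (gen R N x) := by
  have hd : (x.2 : ℕ) ∣ N := Nat.dvd_of_mem_divisors x.2.2
  have hN : N ≠ 0 := NeZero.ne N
  have hd0 : (x.2 : ℕ) ≠ 0 := fun h => hN (by simpa [h] using hd)
  rw [cgen, gen]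
  split_ifs
  · rw [cY, gY, mOf_of_mem_Gamma0 hγ hd, omOf_of_mem_Gamma0 ζ hζ hγ hd, twist_one,
      aOf_of_mem_Gamma0 hγ hd, map_mul, map_mul, map_pow, map_natCast, qExp_qExp N _ hN hd0]
  · rw [cX, gX, mOf_of_mem_Gamma0 hγ hd, omOf_of_mem_Gamma0 ζ hζ hγ hd, twist_one,
      qExp_qExp N _ hN hd0]

theorem ev_of_mem_Gamma0 {R : Type*} [CommRing R] (ζ : Rˣ) {N : ℕ} [NeZero N] (hζ : ζ ^ N = 1)
    {γ : SL(2, ℤ)} (hγ : γ ∈ CongruenceSubgroup.Gamma0 N) (U : MvPolynomial (Gen N) R) :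
    ev R ζ N γ U = qExp R N (ev0 R N U) := by
  rw [ev, ev0]
  induction U using MvPolynomial.induction_on with
  | C a =>
    have : NeZero N := inferInstance
    rw [MvPolynomial.aeval_C, MvPolynomial.aeval_C, algebraMap_eq_C, qExp_eq, qExpand_C]
  | add p q hp hq => rw [map_add, map_add, map_add, hp, hq]
  | mul_X p x hp =>
    rw [map_mul, map_mul, map_mul, hp, MvPolynomial.aeval_X,
      MvPolynomial.aeval_X, cgen_of_mem_Gamma0 ζ hζ hγ]

theorem cX_one {R : Type*} [CommRing R] (ζ : Rˣ) {N : ℕ} [NeZero N] (hζ : ζ ^ N = 1)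
    (γ : SL(2, ℤ)) : cX R ζ N γ 1 = Jt R N := by
  have ha : aOf γ 1 = 1 := by rw [aOf_eq, Nat.gcd_one_left]
  rw [cX, Jt, mOf, omOf, ha, Nat.div_one, one_pow, one_mul, mul_one, zpow_mul, zpow_natCast, hζ,
    one_zpow, twist_one]

namespace Ord

theorem coeff_order_ne_zero' {R : Type*} [Zero R] {x : LaurentSeries R} (hx : x ≠ 0) :
    x.coeff x.order ≠ 0 := HahnSeries.coeff_order_eq_zero.not.2 hx

theorem order_eq_of {R : Type*} [Zero R] {x : LaurentSeries R} {n : ℤ} (h1 : x.coeff n ≠ 0)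
    (h2 : ∀ k < n, x.coeff k = 0) : x.order = n := by
  apply le_antisymm (HahnSeries.order_le_of_coeff_ne_zero h1)
  by_contra h
  push Not at h
  exact coeff_order_ne_zero' (HahnSeries.ne_zero_of_coeff_ne_zero h1) (h2 _ h)

theorem coeff_C_mul' {R : Type*} [CommRing R] (r : R) (x : LaurentSeries R) (g : ℤ) :
    (HahnSeries.C r * x).coeff g = r * x.coeff g := by
  rw [HahnSeries.C_apply, HahnSeries.coeff_single_zero_mul]

theorem transcendental_of_order_neg {k : Type*} [Field k] {x : LaurentSeries k}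
    (hx : x.order < 0) : Transcendental k x := by
  rw [transcendental_iff]
  intro P hP
  by_contra hP0
  have hx0 : x ≠ 0 := by
    rintro rfl
    simp at hx
  have h := congrArg (fun y => HahnSeries.coeff y ((x ^ P.natDegree).order)) hP
  simp only [HahnSeries.coeff_zero] at h
  simp only [Polynomial.aeval_eq_sum_range, Algebra.smul_def, algebraMap_eq_C] at h
  rw [HahnSeries.coeff_sum, Finset.sum_range_succ,
    Finset.sum_eq_zero, zero_add, coeff_C_mul'] at h
  · exact (mul_ne_zero (Polynomial.leadingCoeff_ne_zero.mpr hP0)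
      (coeff_order_ne_zero' (pow_ne_zero _ hx0))) h
  · intro i hi
    rw [coeff_C_mul', HahnSeries.coeff_eq_zero_of_lt_order, mul_zero]
    rw [order_pow, order_pow, nsmul_eq_mul, nsmul_eq_mul]
    have hi' : (i : ℤ) < P.natDegree := by exact_mod_cast Finset.mem_range.mp hi
    nlinarith

section Coeffs

variable (R : Type*) [CommRing R]

theorem coeff_single_mul_ofPS (n : ℤ) (u : PowerSeries ℤ) (hu : PowerSeries.constantCoeff u = 1) :
    (HahnSeries.single n (1 : R) *
      HahnSeries.ofPowerSeries ℤ R (u.map (Int.castRingHom R))).coeff n = 1 := by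
  rw [HahnSeries.coeff_single_mul, one_mul, sub_self, show (0 : ℤ) = ((0 : ℕ) : ℤ) from rfl,
    HahnSeries.ofPowerSeries_apply_coeff, PowerSeries.coeff_map,
    PowerSeries.coeff_zero_eq_constantCoeff, hu]
  simp

theorem coeff_single_mul_ofPS_of_lt (n : ℤ) (u : PowerSeries ℤ) {k : ℤ} (hk : k < n) :
    (HahnSeries.single n (1 : R) *
      HahnSeries.ofPowerSeries ℤ R (u.map (Int.castRingHom R))).coeff k = 0 := by
  rw [HahnSeries.coeff_single_mul, one_mul]
  exact ofPowerSeries_coeff_of_neg _ (by omega)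

theorem order_single_mul_ofPS [Nontrivial R] (n : ℤ) (u : PowerSeries ℤ)
    (hu : PowerSeries.constantCoeff u = 1) :
    (HahnSeries.single n (1 : R) *
      HahnSeries.ofPowerSeries ℤ R (u.map (Int.castRingHom R))).order = n :=
  order_eq_of (by rw [coeff_single_mul_ofPS R n u hu]; exact one_ne_zero)
    (fun _ hk => coeff_single_mul_ofPS_of_lt R n u hk)

theorem order_jqModC [Nontrivial R] : (jqModC R).order = -1 :=
  order_single_mul_ofPS R (-1) jNum constantCoeff_jNum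

theorem order_deltaS [Nontrivial R] : (deltaS R).order = 1 :=
  order_single_mul_ofPS R 1 _ constantCoeff_dedekindEtaUnit

theorem order_deltaInvS [Nontrivial R] : (deltaInvS R).order = -1 :=
  order_single_mul_ofPS R (-1) _ constantCoeff_dedekindEtaUnitInv

theorem ne_zero_of_order_ne_zero {x : LaurentSeries R} (h : x.order ≠ 0) : x ≠ 0 := by
  rintro rfl
  exact h HahnSeries.order_zero

variable {R}

theorem twist_ne_zero (ω : Rˣ) {x : LaurentSeries R} (hx : x ≠ 0) : twist ω x ≠ 0 := by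
  intro h
  apply hx
  ext k
  have := congrArg (fun y => HahnSeries.coeff y k) h
  simpa using this

theorem order_twist (ω : Rˣ) (x : LaurentSeries R) : (twist ω x).order = x.order := by
  rcases eq_or_ne x 0 with rfl | hx
  · rw [map_zero]
  · apply order_eq_of
    · rw [twist_coeff]
      intro h
      exact coeff_order_ne_zero' hx ((Units.mul_right_eq_zero _).mp h)
    · intro k hk
      rw [twist_coeff, HahnSeries.coeff_eq_zero_of_lt_order hk, mul_zero]

theorem qExp_ne_zero (m : ℕ) {x : LaurentSeries R} (hx : x ≠ 0) : qExp R m x ≠ 0 := by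
  intro h
  exact hx (qExp_injective m (by rw [h, map_zero]))

theorem order_qExp (m : ℕ) (hm : m ≠ 0) (x : LaurentSeries R) :
    (qExp R m x).order = m * x.order := by
  rcases eq_or_ne x 0 with rfl | hx
  · rw [map_zero, HahnSeries.order_zero, mul_zero]
  · apply order_eq_of
    · rw [qExp_coeff_mul m hm]
      exact coeff_order_ne_zero' hx
    · intro k hk
      by_cases hd : (m : ℤ) ∣ k
      · obtain ⟨c, rfl⟩ := hd
        rw [qExp_coeff_mul m hm]
        apply HahnSeries.coeff_eq_zero_of_lt_order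
        have hm' : (0 : ℤ) < m := by exact_mod_cast Nat.pos_of_ne_zero hm
        exact lt_of_mul_lt_mul_left hk hm'.le
      · exact qExp_coeff_of_not_dvd m hm _ hd

end Coeffs

theorem aOf_ne_zero (γ : SL(2, ℤ)) {d : ℕ} (hd : d ≠ 0) : aOf γ d ≠ 0 := by
  rw [aOf_eq]
  exact Nat.gcd_ne_zero_left hd

theorem aOf_dvd (γ : SL(2, ℤ)) (d : ℕ) : aOf γ d ∣ d := by
  rw [aOf_eq]
  exact Nat.gcd_dvd_left _ _

theorem mOf_ne_zero {N : ℕ} (hN : N ≠ 0) (γ : SL(2, ℤ)) {d : ℕ} (hd : d ∣ N) :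
    mOf N γ d ≠ 0 := by
  have hd0 : d ≠ 0 := fun h => hN (by simpa [h] using hd)
  rw [mOf]
  refine mul_ne_zero (pow_ne_zero _ (aOf_ne_zero γ hd0)) ?_
  exact (Nat.div_pos (Nat.le_of_dvd (Nat.pos_of_ne_zero hN) hd) (Nat.pos_of_ne_zero hd0)).ne'

theorem natCast_eq_C {R : Type*} [CommRing R] (a : ℕ) :
    (a : LaurentSeries R) = HahnSeries.C (a : R) := (map_natCast HahnSeries.C a).symm

end Ord

theorem transcendental_jqModC (k : Type*) [Field k] : Transcendental k (jqModC k) :=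
  transcendental_of_order_neg (by rw [order_jqModC]; norm_num)

theorem transcendental_Jt (k : Type*) [Field k] (N : ℕ) [NeZero N] :
    Transcendental k (Jt k N) := by
  apply transcendental_of_order_neg
  rw [Jt, order_qExp N (NeZero.ne N), order_jqModC]
  have : (0 : ℤ) < N := by exact_mod_cast Nat.pos_of_ne_zero (NeZero.ne N)
  linarith

namespace Ord

theorem cY_aux {k : Type*} [Field k] (ζ : kˣ) {N : ℕ} [NeZero N] (hN : (N : k) ≠ 0)
    (γ : SL(2, ℤ)) {d : ℕ} (hd : d ∣ N) :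
    cY k ζ N γ d ≠ 0 ∧ (cY k ζ N γ d).order = (mOf N γ d : ℤ) - N := by
  have hN0 : N ≠ 0 := NeZero.ne N
  have ha : ((aOf γ d : ℕ) : k) ≠ 0 := by
    intro h
    obtain ⟨c, hc⟩ := (aOf_dvd γ d).trans hd
    apply hN
    rw [hc, Nat.cast_mul, h, zero_mul]
  have h1 : ((aOf γ d : ℕ) : LaurentSeries k) ^ 12 ≠ 0 := by
    apply pow_ne_zero
    rw [natCast_eq_C]
    exact (map_ne_zero_iff _ HahnSeries.C_injective).mpr ha
  have h1' : (((aOf γ d : ℕ) : LaurentSeries k) ^ 12).order = 0 := by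
    rw [order_pow, natCast_eq_C, HahnSeries.order_C, smul_zero]
  have hD : deltaS k ≠ 0 := ne_zero_of_order_ne_zero k (by rw [order_deltaS]; norm_num)
  have hD' : deltaInvS k ≠ 0 := ne_zero_of_order_ne_zero k (by rw [order_deltaInvS]; norm_num)
  have h2 : qExp k (mOf N γ d) (twist (omOf k ζ N γ d) (deltaS k)) ≠ 0 :=
    qExp_ne_zero _ (twist_ne_zero _ hD)
  have h3 : qExp k N (deltaInvS k) ≠ 0 := qExp_ne_zero _ hD'
  refine ⟨mul_ne_zero (mul_ne_zero h1 h2) h3, ?_⟩
  rw [cY, HahnSeries.order_mul (mul_ne_zero h1 h2) h3, HahnSeries.order_mul h1 h2, h1',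
    order_qExp _ (mOf_ne_zero hN0 γ hd), order_twist, order_deltaS, order_qExp _ hN0,
    order_deltaInvS]
  ring

end Ord

theorem cY_ne_zero {k : Type*} [Field k] (ζ : kˣ) {N : ℕ} [NeZero N] (hN : (N : k) ≠ 0)
    (γ : SL(2, ℤ)) {d : ℕ} (hd : d ∣ N) : cY k ζ N γ d ≠ 0 := (cY_aux ζ hN γ hd).1

theorem order_cY {k : Type*} [Field k] (ζ : kˣ) {N : ℕ} [NeZero N] (hN : (N : k) ≠ 0)
    (γ : SL(2, ℤ)) {d : ℕ} (hd : d ∣ N) :
    (cY k ζ N γ d).order = (mOf N γ d : ℤ) - N := (cY_aux ζ hN γ hd).2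

theorem ev_injective {k : Type*} [Field k] (ζ : kˣ) {N : ℕ} [NeZero N]
    (hζ : IsPrimitiveRoot ζ N) :
    Function.Injective (fun i : Cos N => ev k ζ N (rep i)) := by
  intro i i' h
  have hN : N ≠ 0 := NeZero.ne N
  have h1 : cX k ζ N (rep i) N = cX k ζ N (rep i') N := by
    have := congrArg (fun e : MvPolynomial (Gen N) k →ₐ[k] LaurentSeries k =>
      e (MvPolynomial.X (false, ⟨N, Nat.mem_divisors_self N hN⟩))) h
    simpa [ev, cgen] using this
  have hm : ∀ γ : SL(2, ℤ), mOf N γ N = aOf γ N ^ 2 := by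
    intro γ
    rw [mOf, Nat.div_self (Nat.pos_of_ne_zero hN), mul_one]
  have ho : ∀ γ : SL(2, ℤ), (cX k ζ N γ N).order = -((aOf γ N : ℤ) ^ 2) := by
    intro γ
    rw [cX, order_qExp _ (mOf_ne_zero hN γ dvd_rfl), order_twist, order_jqModC, hm]
    push_cast
    ring
  have ha : aOf (rep i) N = aOf (rep i') N := by
    have h2 := congrArg HahnSeries.order h1
    rw [ho, ho, neg_inj] at h2
    have h3 : aOf (rep i) N ^ 2 = aOf (rep i') N ^ 2 := by exact_mod_cast h2
    exact Nat.pow_left_injective (n := 2) (by norm_num) h3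
  refine rep_injective ha ?_
  rw [cX, cX, hm, hm, ha] at h1
  have h2 := congrArg (fun y => HahnSeries.coeff y (-1)) (qExp_injective _ h1)
  simp only [twist_coeff, coeff_jqModC_neg_one, mul_one] at h2
  have h3 : omOf k ζ N (rep i) N = omOf k ζ N (rep i') N := by
    have := Units.ext h2
    simpa using this
  rw [omOf, omOf, ← ha, Nat.div_self (Nat.pos_of_ne_zero hN), one_mul] at h3
  have h4 : ζ ^ ((aOf (rep i) N : ℤ) * (bOf (rep i) N - bOf (rep i') N)) = 1 := by
    rw [mul_sub, zpow_sub, h3, mul_inv_cancel]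
  rw [hζ.zpow_eq_one_iff_dvd] at h4
  have ha0 : (aOf (rep i) N : ℤ) ≠ 0 := by exact_mod_cast aOf_ne_zero (rep i) hN
  have h5 : (N : ℤ) = (aOf (rep i) N : ℤ) * ((N / aOf (rep i) N : ℕ) : ℤ) := by
    exact_mod_cast (Nat.mul_div_cancel' (aOf_dvd (rep i) N)).symm
  rw [h5] at h4
  exact (mul_dvd_mul_iff_left ha0).mp h4

end Fermat.Agent.S28
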