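import Fermat.Agent.S28.DegDefs

/-!
# S28, package LAM-Z : elementary facts on `ℤ_(ℓ)` and coefficientwise maps of Laurent series
-/

set_option autoImplicit false
set_option linter.unusedSectionVars false
open ModularCurve ModularCurve.IgusaScheme Polynomial
noncomputable section
namespace Fermat.Agent.S28

namespace LamZ

variable (ℓ : ℕ) [Fact ℓ.Prime]

/-- the integers prime to `ℓ`. -/
def primeTo : Submonoid ℤ where
  carrier := {n | ¬ (ℓ : ℤ) ∣ n}
  mul_mem' := fun {_ _} ha hb h =>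
    ((Nat.prime_iff_prime_int.mp (Fact.out : ℓ.Prime)).dvd_or_dvd h).elim ha hb
  one_mem' := fun h => (Nat.prime_iff_prime_int.mp (Fact.out : ℓ.Prime)).not_dvd_one h

theorem inv_intCast_mem {n : ℤ} (hn : ¬ (ℓ : ℤ) ∣ n) :
    ((n : ℚ)⁻¹) ∈ GaloisRep.ratLocalizedAt ℓ := by
  show ((n : ℚ)⁻¹).den.Coprime ℓ
  rw [Rat.inv_intCast_den]
  split_ifs with h
  · simp
  · rw [Nat.coprime_comm, Nat.Prime.coprime_iff_not_dvd Fact.out]
    intro h'
    exact hn (Int.natCast_dvd.mpr h')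

theorem isUnit_intCast {n : ℤ} (hn : ¬ (ℓ : ℤ) ∣ n) : IsUnit ((n : ℤ) : Zl ℓ) := by
  refine IsUnit.of_mul_eq_one ⟨(n : ℚ)⁻¹, inv_intCast_mem ℓ hn⟩ (Subtype.ext ?_)
  have : (n : ℚ) ≠ 0 := by
    intro h
    apply hn
    have : n = 0 := by exact_mod_cast h
    simp [this]
  simp [this]

theorem not_dvd_den (x : Zl ℓ) : ¬ (ℓ : ℤ) ∣ ((x : ℚ).den : ℤ) := by
  intro h
  have h' : ℓ ∣ (x : ℚ).den := by exact_mod_cast h
  exact (Fact.out : ℓ.Prime).one_lt.ne' (Nat.eq_one_of_dvd_coprimes x.2 h' dvd_rfl)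

instance isLocalization_primeTo : IsLocalization (primeTo ℓ) (Zl ℓ) := by
  rw [isLocalization_iff]
  refine ⟨fun y => ?_, fun z => ?_, fun {x y} h => ?_⟩
  · simpa using isUnit_intCast ℓ y.2
  · refine ⟨((z : ℚ).num, ⟨((z : ℚ).den : ℤ), not_dvd_den ℓ z⟩), Subtype.ext ?_⟩
    simp [Rat.mul_den_eq_num]
  · refine ⟨1, ?_⟩
    have h' := congrArg (Subtype.val) h
    simp only [eq_intCast, SubringClass.coe_intCast, Int.cast_inj] at h'
    rw [h']

end LamZ

section Z
variable (ℓ : ℕ) [Fact ℓ.Prime]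

instance : IsIntegrallyClosed (Zl ℓ) :=
  isIntegrallyClosed_of_isLocalization (Zl ℓ) (LamZ.primeTo ℓ) (by
    intro n hn
    rw [mem_nonZeroDivisors_iff_ne_zero]
    rintro rfl
    exact hn (dvd_zero _))

instance : IsNoetherianRing (Zl ℓ) :=
  IsLocalization.isNoetherianRing (LamZ.primeTo ℓ) (Zl ℓ) inferInstance

theorem LamZ.resl_natCast_self : resl ℓ (ℓ : Zl ℓ) = 0 := by
  rw [map_natCast]; simp

theorem resl_eq_zero_iff (x : Zl ℓ) : resl ℓ x = 0 ↔ ∃ y, x = (ℓ : Zl ℓ) * y := by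
  constructor
  · intro h
    have hden : IsUnit (((x : ℚ).den : ℤ) : Zl ℓ) := LamZ.isUnit_intCast ℓ (LamZ.not_dvd_den ℓ x)
    have hmul : x * (((x : ℚ).den : ℤ) : Zl ℓ) = (((x : ℚ).num : ℤ) : Zl ℓ) :=
      Subtype.ext (by simp [Rat.mul_den_eq_num])
    have h2 : (((x : ℚ).num : ℤ) : ZMod ℓ) = 0 := by
      have := congrArg (resl ℓ) hmul
      rw [map_mul, h, zero_mul, map_intCast] at this
      exact this.symm
    rw [ZMod.intCast_zmod_eq_zero_iff_dvd] at h2
    obtain ⟨k, hk⟩ := h2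
    obtain ⟨u, hu⟩ := hden
    refine ⟨(k : Zl ℓ) * ↑u⁻¹, ?_⟩
    have : x = (((x : ℚ).num : ℤ) : Zl ℓ) * ↑u⁻¹ := by
      rw [← hmul, ← hu, mul_assoc, Units.mul_inv, mul_one]
    rw [this, hk]
    push_cast
    ring
  · rintro ⟨y, rfl⟩
    rw [map_mul, LamZ.resl_natCast_self, zero_mul]

theorem resl_surjective : Function.Surjective (resl ℓ) := by
  intro a
  refine ⟨((a.val : ℕ) : Zl ℓ), ?_⟩
  rw [map_natCast]
  simp

theorem LamZ.ker_resl : RingHom.ker (resl ℓ) = Ideal.span {(ℓ : Zl ℓ)} := by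
  ext x
  rw [RingHom.mem_ker, resl_eq_zero_iff, Ideal.mem_span_singleton]
  rfl

theorem LamZ.natCast_Zl_ne_zero : (ℓ : Zl ℓ) ≠ 0 := by
  intro h
  have := congrArg Subtype.val h
  simp only [SubringClass.coe_natCast, ZeroMemClass.coe_zero, Nat.cast_eq_zero] at this
  exact (Fact.out : ℓ.Prime).ne_zero this

theorem prime_natCast_Zl : Prime (ℓ : Zl ℓ) := by
  rw [← Ideal.span_singleton_prime (LamZ.natCast_Zl_ne_zero ℓ), ← LamZ.ker_resl]
  exact RingHom.ker_isPrime _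

theorem map_resl_eq_zero_iff (p : (Zl ℓ)[X]) :
    p.map (resl ℓ) = 0 ↔ ∃ p', p = C (ℓ : Zl ℓ) * p' := by
  have : (∃ p', p = C (ℓ : Zl ℓ) * p') ↔ C (ℓ : Zl ℓ) ∣ p := Iff.rfl
  rw [this, Polynomial.C_dvd_iff_dvd_coeff, Polynomial.ext_iff]
  refine forall_congr' fun n => ?_
  rw [coeff_map, coeff_zero, resl_eq_zero_iff]
  rfl

theorem exists_pow_mul_of_ne_zero (p : (Zl ℓ)[X]) (hp : p ≠ 0) :
    ∃ (a : ℕ) (s : (Zl ℓ)[X]), s.map (resl ℓ) ≠ 0 ∧ p = C (ℓ : Zl ℓ) ^ a * s := by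
  have hnu : ¬ IsUnit (C (ℓ : Zl ℓ)) := by
    rw [Polynomial.isUnit_C]
    exact (prime_natCast_Zl ℓ).not_isUnit
  obtain ⟨a, s, hs, h⟩ := WfDvdMonoid.max_power_factor' hp hnu
  refine ⟨a, s, fun h0 => hs ?_, h⟩
  exact (map_resl_eq_zero_iff ℓ s).mp h0

theorem LamZ.natCast_mul_coeff {R : Type*} [CommRing R] (m : ℕ) (w : LaurentSeries R) (n : ℤ) :
    ((m : LaurentSeries R) * w).coeff n = (m : R) * w.coeff n := by
  have h : (m : LaurentSeries R) = HahnSeries.C (m : R) := by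
    rw [map_natCast]
  rw [h, HahnSeries.C_mul_eq_smul, HahnSeries.coeff_smul, smul_eq_mul]

theorem redI_eq_zero_iff (w : LaurentSeries (Zl ℓ)) :
    redI ℓ w = 0 ↔ ∃ w', w = (ℓ : LaurentSeries (Zl ℓ)) * w' := by
  constructor
  · intro h
    have hc : ∀ n, ∃ y, w.coeff n = (ℓ : Zl ℓ) * y := by
      intro n
      rw [← resl_eq_zero_iff]
      have := congrArg (fun z => HahnSeries.coeff z n) h
      simpa [redI] using this
    choose y hy using hc
    refine ⟨⟨y, w.isPWO_support.mono ?_⟩, ?_⟩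
    · intro n hn h0
      apply hn
      have := hy n
      rw [h0] at this
      exact (mul_eq_zero.mp this.symm).resolve_left (LamZ.natCast_Zl_ne_zero ℓ)
    · ext n
      rw [LamZ.natCast_mul_coeff, hy n]
  · rintro ⟨w', rfl⟩
    rw [map_mul, map_natCast]
    have : ((ℓ : ℕ) : LaurentSeries (ZMod ℓ)) = 0 := by
      ext n
      have := LamZ.natCast_mul_coeff (R := ZMod ℓ) ℓ 1 n
      rw [mul_one] at this
      rw [this]
      simp
    rw [this, zero_mul]

theorem incI_injective : Function.Injective (incI ℓ) := by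
  intro a b h
  ext n
  have := congrArg (fun z => HahnSeries.coeff z n) h
  simp only [incI, coeffMap_coeff] at this
  exact this

/-- clearing denominators -/
theorem exists_int_mul {ι : Type*} [Fintype ι] (a : ι → ℚ[X]) :
    ∃ (D : ℕ) (a' : ι → (Zl ℓ)[X]), D ≠ 0 ∧
      ∀ i, (a' i).map (algebraMap (Zl ℓ) ℚ) = C (D : ℚ) * a i := by
  classical
  set D : ℕ := ∏ i, ∏ n ∈ (a i).support, ((a i).coeff n).den with hD
  have hD0 : D ≠ 0 := by
    rw [hD]
    exact Finset.prod_ne_zero_iff.mpr fun i _ => Finset.prod_ne_zero_iff.mpr fun n _ =>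
      Rat.den_nz _
  have hdvd : ∀ i n, ((a i).coeff n).den ∣ D := by
    intro i n
    by_cases hn : n ∈ (a i).support
    · exact (Finset.dvd_prod_of_mem _ hn).trans
        (Finset.dvd_prod_of_mem (fun i => ∏ n ∈ (a i).support, ((a i).coeff n).den)
          (Finset.mem_univ i))
    · rw [Polynomial.notMem_support_iff.mp hn]
      simp
  have hmem : ∀ i, (↑(C (D : ℚ) * a i).coeffs : Set ℚ) ⊆ GaloisRep.ratLocalizedAt ℓ := by
    intro i c hc
    rw [Finset.mem_coe, Polynomial.mem_coeffs_iff] at hc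
    obtain ⟨n, -, rfl⟩ := hc
    rw [coeff_C_mul]
    obtain ⟨k, hk⟩ := hdvd i n
    have : (D : ℚ) * (a i).coeff n = ((k * ((a i).coeff n).num : ℤ) : ℚ) := by
      rw [hk]
      push_cast
      rw [mul_comm (((a i).coeff n).den : ℚ), mul_assoc, Rat.den_mul_eq_num]
    rw [this]
    exact intCast_mem _ _
  refine ⟨D, fun i => (C (D : ℚ) * a i).toSubring (GaloisRep.ratLocalizedAt ℓ) (hmem i), hD0,
    fun i => ?_⟩
  exact Polynomial.map_toSubring _ _ _

theorem LamZ.algebraMap_laurent_eq_single {R : Type*} [CommRing R] (c : R) :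
    algebraMap R (LaurentSeries R) c = HahnSeries.single 0 c := by
  have h1 : algebraMap R (PowerSeries R) c = PowerSeries.C c := by
    simp
  rw [HahnSeries.algebraMap_apply', h1, HahnSeries.ofPowerSeries_C]
  rfl

theorem LamZ.coeffMap_aeval {R S : Type*} [CommRing R] [CommRing S] (f : R →+* S) (p : R[X])
    (w : LaurentSeries R) : coeffMap f (aeval w p) = aeval (coeffMap f w) (p.map f) := by
  rw [aeval_def, aeval_def, hom_eval₂, eval₂_map]
  congr 1
  ext c : 1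
  simp only [RingHom.comp_apply, LamZ.algebraMap_laurent_eq_single, coeffMap_single]

theorem incI_aeval (p : (Zl ℓ)[X]) (w : LaurentSeries (Zl ℓ)) :
    incI ℓ (aeval w p) = aeval (incI ℓ w) (p.map (algebraMap (Zl ℓ) ℚ)) :=
  LamZ.coeffMap_aeval _ p w

theorem redI_aeval (p : (Zl ℓ)[X]) (w : LaurentSeries (Zl ℓ)) :
    redI ℓ (aeval w p) = aeval (redI ℓ w) (p.map (resl ℓ)) :=
  LamZ.coeffMap_aeval _ p w

theorem incI_jqModC : incI ℓ (jqModC (Zl ℓ)) = jq := by
  rw [incI, coeffMap_jqModC, jqModC_rat]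

theorem redI_jqModC : redI ℓ (jqModC (Zl ℓ)) = jqModC (ZMod ℓ) := by
  rw [redI, coeffMap_jqModC]

theorem isUnit_jqModC (R : Type*) [CommRing R] : IsUnit (jqModC R) := by
  rw [jqModC]
  refine IsUnit.mul ?_ ?_
  · refine IsUnit.of_mul_eq_one (HahnSeries.single (1 : ℤ) 1) ?_
    rw [HahnSeries.single_mul_single]
    simp
  · refine IsUnit.map _ ?_
    rw [PowerSeries.isUnit_iff_constantCoeff]
    have : PowerSeries.constantCoeff (PowerSeries.map (Int.castRingHom R) jNum) = 1 := by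
      rw [← PowerSeries.coeff_zero_eq_constantCoeff, PowerSeries.coeff_map,
        PowerSeries.coeff_zero_eq_constantCoeff, constantCoeff_jNum]
      simp
    rw [this]
    exact isUnit_one
end Z

end Fermat.Agent.S28
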