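import Mathlib
import Fermat.Prelude.Def_ModularCurve_IgusaScheme
import Fermat.Prelude.Def_ModularCurve_X0ModL

/-!
# S28, degree block: shared definitions

Formal `t = q^(1/N)`-expansions of the conjugates of `j(q^d)` and of the modular units
`H_d = d^12 Δ(q^d)/Δ(q)`, over an arbitrary commutative ring `R` with a unit `ζ`
(thought of as a primitive `N`-th root of unity).
-/

set_option autoImplicit false

noncomputable section

namespace Fermat.Agent.S28

open ModularCurve HahnSeries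
open scoped MatrixGroups

section Formal

variable {R : Type*} [CommRing R]

/-- `f(q) ↦ f(ω q)`. -/
def twistFun (ω : Rˣ) (f : LaurentSeries R) : LaurentSeries R where
  coeff n := ((ω ^ n : Rˣ) : R) * f.coeff n
  isPWO_support' := f.isPWO_support.mono (by
    intro n hn h
    exact hn (by simp [h]))

@[simp] theorem twistFun_coeff (ω : Rˣ) (f : LaurentSeries R) (n : ℤ) :
    (twistFun ω f).coeff n = ((ω ^ n : Rˣ) : R) * f.coeff n := rfl

theorem support_twistFun (ω : Rˣ) (f : LaurentSeries R) :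
    (twistFun ω f).support = f.support := by
  ext n
  simp [HahnSeries.mem_support]

/-- `f(q) ↦ f(ω q)` as a ring homomorphism. -/
def twist (ω : Rˣ) : LaurentSeries R →+* LaurentSeries R where
  toFun := twistFun ω
  map_zero' := by ext n; simp
  map_one' := by
    ext n
    rw [twistFun_coeff, HahnSeries.coeff_one]
    split_ifs with h
    · subst h; simp
    · simp
  map_add' f g := by ext n; simp [mul_add]
  map_mul' f g := by
    ext n
    rw [twistFun_coeff, HahnSeries.coeff_mul, HahnSeries.coeff_mul, Finset.mul_sum]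
    have hs : Finset.antidiagonal (twistFun ω f).isPWO_support (twistFun ω g).isPWO_support n
        = Finset.antidiagonal f.isPWO_support g.isPWO_support n := by
      ext ij
      simp only [Finset.mem_antidiagonal, support_twistFun]
    rw [hs]
    refine Finset.sum_congr rfl fun ij hij => ?_
    have h := (Finset.mem_antidiagonal.mp hij).2.2
    rw [twistFun_coeff, twistFun_coeff, ← h, zpow_add, Units.val_mul]
    ring

@[simp] theorem twist_coeff (ω : Rˣ) (f : LaurentSeries R) (n : ℤ) :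
    (twist ω f).coeff n = ((ω ^ n : Rˣ) : R) * f.coeff n := rfl

variable (R)

/-- `f(q) ↦ f(q^m)` (junk value `id` for `m = 0`), avoiding `NeZero` arguments. -/
def qExp (m : ℕ) : LaurentSeries R →+* LaurentSeries R :=
  if h : m = 0 then RingHom.id _ else @qExpand R _ m ⟨h⟩

theorem qExp_eq (m : ℕ) [NeZero m] : qExp R m = qExpand R m := by
  rw [qExp, dif_neg (NeZero.ne m)]

/-- `Δ(q) = q ∏ (1 - q^n)^24`. -/
def deltaS : LaurentSeries R :=
  HahnSeries.single (1 : ℤ) 1 *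
    HahnSeries.ofPowerSeries ℤ R (dedekindEtaUnit.map (Int.castRingHom R))

/-- `1 / Δ(q)`. -/
def deltaInvS : LaurentSeries R :=
  HahnSeries.single (-1 : ℤ) 1 *
    HahnSeries.ofPowerSeries ℤ R (dedekindEtaUnitInv.map (Int.castRingHom R))

/-- `j(q^d)`. -/
def gX (d : ℕ) : LaurentSeries R := qExp R d (jqModC R)

/-- `H_d = d^12 Δ(q^d) / Δ(q)`. -/
def gY (d : ℕ) : LaurentSeries R := (d : LaurentSeries R) ^ 12 * qExp R d (deltaS R) * deltaInvS R

end Formal

/-- labels of the generators: `(false, d) ↦ j(q^d)`, `(true, d) ↦ H_d`, `d ∣ N`. -/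
abbrev Gen (N : ℕ) : Type := Bool × ↥(N.divisors)

/-- The standard generators, as `q`-series. -/
def gen (R : Type*) [CommRing R] (N : ℕ) (x : Gen N) : LaurentSeries R :=
  if x.1 then gY R x.2 else gX R x.2

/-- `a = gcd(d A, C)` for `γ = (A B; C D)`. -/
def aOf (γ : SL(2, ℤ)) (d : ℕ) : ℕ := Int.gcd (d * γ 0 0) (γ 1 0)

/-- `b`, where `(d 0; 0 1) γ = γ' (a b; 0 d/a)`. -/
def bOf (γ : SL(2, ℤ)) (d : ℕ) : ℤ :=
  Int.gcdA (d * γ 0 0) (γ 1 0) * (d * γ 0 1) + Int.gcdB (d * γ 0 0) (γ 1 0) * γ 1 1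

section Conj

variable (R : Type*) [CommRing R] (ζ : Rˣ) (N : ℕ) (γ : SL(2, ℤ))

/-- exponent: `q((aτ+b)/d') = ω t^m`, `t = q^(1/N)`, `m = a^2 (N/d)`. -/
def mOf (d : ℕ) : ℕ := aOf γ d ^ 2 * (N / d)

/-- `ω = ζ^((N/d) a b)`. -/
def omOf (d : ℕ) : Rˣ := ζ ^ (((N / d * aOf γ d : ℕ) : ℤ) * bOf γ d)

/-- `t`-expansion of `j(d · γ τ)`. -/
def cX (d : ℕ) : LaurentSeries R := qExp R (mOf N γ d) (twist (omOf R ζ N γ d) (jqModC R))

/-- `t`-expansion of `H_d(γ τ)`. -/
def cY (d : ℕ) : LaurentSeries R :=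
  (aOf γ d : LaurentSeries R) ^ 12 * qExp R (mOf N γ d) (twist (omOf R ζ N γ d) (deltaS R)) *
    qExp R N (deltaInvS R)

/-- The conjugate generators, as `t`-series. -/
def cgen (x : Gen N) : LaurentSeries R :=
  if x.1 then cY R ζ N γ x.2 else cX R ζ N γ x.2

/-- evaluation of a polynomial in the generators at the `γ`-conjugates. -/
def ev : MvPolynomial (Gen N) R →ₐ[R] LaurentSeries R := MvPolynomial.aeval (cgen R ζ N γ)

/-- evaluation of a polynomial in the generators at the standard generators (`q`-series). -/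
def ev0 : MvPolynomial (Gen N) R →ₐ[R] LaurentSeries R := MvPolynomial.aeval (gen R N)

/-- `j` as a `t`-series. -/
def Jt : LaurentSeries R := qExp R N (jqModC R)

end Conj

/-- index set of the conjugates. -/
abbrev Cos (N : ℕ) : Type := SL(2, ℤ) ⧸ CongruenceSubgroup.Gamma0 N

instance (N : ℕ) [NeZero N] : Finite (Cos N) :=
  Subgroup.finite_quotient_of_finiteIndex

instance (N : ℕ) [NeZero N] : Fintype (Cos N) := Fintype.ofFinite _

/-- representatives of `Γ₀(N) \ SL₂(ℤ)`. -/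
def rep {N : ℕ} (i : Cos N) : SL(2, ℤ) := (Quotient.out i)⁻¹

/-- the "modular equation" property over `R`. -/
def ModEq (R : Type*) [CommRing R] (ζ : Rˣ) (N : ℕ) [NeZero N] : Prop :=
  ∀ U : MvPolynomial (Gen N) R, ∃ P : Polynomial (Polynomial R),
    P.map (Polynomial.aeval (Jt R N)).toRingHom =
      ∏ i : Cos N, (Polynomial.X - Polynomial.C (ev R ζ N (rep i) U))

/-- the `H_d` are units: the product of all conjugates is constant. -/
def UnitEq (R : Type*) [CommRing R] (ζ : Rˣ) (N : ℕ) [NeZero N] : Prop :=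
  ∀ d : ℕ, d ∣ N → ∃ c : R, ∏ i : Cos N, cY R ζ N (rep i) d = HahnSeries.C c

/-- `ℤ_(ℓ)`. -/
abbrev Zl (ℓ : ℕ) : Type := ↥(GaloisRep.ratLocalizedAt ℓ)

/-- reduction `ℤ_(ℓ) → 𝔽_ℓ`. -/
def resl (ℓ : ℕ) [Fact ℓ.Prime] : Zl ℓ →+* ZMod ℓ where
  toFun x := ((x : ℚ) : ZMod ℓ)
  map_one' := by simp
  map_zero' := by simp
  map_mul' x y := by
    have hx : ((x : ℚ).den : ZMod ℓ) ≠ 0 := by
      rw [Ne, ZMod.natCast_eq_zero_iff]
      intro h
      exact (Fact.out : ℓ.Prime).one_lt.ne' (Nat.eq_one_of_dvd_coprimes x.2 h dvd_rfl)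
    have hy : ((y : ℚ).den : ZMod ℓ) ≠ 0 := by
      rw [Ne, ZMod.natCast_eq_zero_iff]
      intro h
      exact (Fact.out : ℓ.Prime).one_lt.ne' (Nat.eq_one_of_dvd_coprimes y.2 h dvd_rfl)
    simpa using Rat.cast_mul_of_ne_zero hx hy
  map_add' x y := by
    have hx : ((x : ℚ).den : ZMod ℓ) ≠ 0 := by
      rw [Ne, ZMod.natCast_eq_zero_iff]
      intro h
      exact (Fact.out : ℓ.Prime).one_lt.ne' (Nat.eq_one_of_dvd_coprimes x.2 h dvd_rfl)
    have hy : ((y : ℚ).den : ZMod ℓ) ≠ 0 := by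
      rw [Ne, ZMod.natCast_eq_zero_iff]
      intro h
      exact (Fact.out : ℓ.Prime).one_lt.ne' (Nat.eq_one_of_dvd_coprimes y.2 h dvd_rfl)
    simpa using Rat.cast_add_of_ne_zero hx hy

/-- `ℤ_(ℓ)((q)) → ℚ((q))`. -/
def incI (ℓ : ℕ) : LaurentSeries (Zl ℓ) →+* LaurentSeries ℚ :=
  coeffMap (algebraMap (Zl ℓ) ℚ)

/-- `ℤ_(ℓ)((q)) → 𝔽_ℓ((q))`. -/
def redI (ℓ : ℕ) [Fact ℓ.Prime] : LaurentSeries (Zl ℓ) →+* LaurentSeries (ZMod ℓ) :=
  coeffMap (resl ℓ)

end Fermat.Agent.S28
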