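import Fermat.Agent.S28.DegDefs
import Fermat.Agent.S28.Ord
import Fermat.Prelude.Thm_ModularCurve_coeff_jqModC_pow_self
import Fermat.Prelude.Thm_ModularCurve_coeff_jqModC_pow_of_lt

/-!
# S28, package D-INT : integrality
-/

set_option autoImplicit false
set_option linter.style.haveILetI false

noncomputable section

namespace Fermat.Agent.S28

open ModularCurve HahnSeries
open scoped MatrixGroups

namespace Int'

theorem algebraMap_eq_C (R : Type*) [CommRing R] (a : R) :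
    algebraMap R (LaurentSeries R) a = HahnSeries.C a := by
  have h1 : algebraMap R (PowerSeries R) a = PowerSeries.C a := by simp
  rw [HahnSeries.algebraMap_apply', h1, HahnSeries.ofPowerSeries_C]

theorem coeff_algebraMap_mul {R : Type*} [CommRing R] (a : R) (x : LaurentSeries R) (n : ℤ) :
    (algebraMap R (LaurentSeries R) a * x).coeff n = a * x.coeff n := by
  rw [algebraMap_eq_C, HahnSeries.C_mul_eq_smul, HahnSeries.coeff_smul, smul_eq_mul]

/-- coefficients of powers of `j(t^N)`. -/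
theorem coeff_Jt_pow (R : Type*) [CommRing R] (N : ℕ) [NeZero N] (i : ℕ) (k : ℤ) :
    ((Jt R N) ^ i).coeff ((N : ℤ) * k) = ((jqModC R) ^ i).coeff k := by
  rw [Jt, qExp_eq, ← map_pow, qExpand_coeff_mul]

theorem coeff_Jt_pow_mem (O : Subring ℂ) (N : ℕ) (i : ℕ) (n : ℤ) :
    ((Jt ℂ N) ^ i).coeff n ∈ O := by
  rw [← coeffMap_Jt (Int.castRingHom ℂ) N, ← map_pow, coeffMap_coeff]
  exact intCast_mem O _

theorem coeff_aeval (N : ℕ) (c : Polynomial ℂ) (D : ℕ) (hD : c.natDegree < D) (n : ℤ) :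
    (Polynomial.aeval (Jt ℂ N) c).coeff n =
      ∑ i ∈ Finset.range D, c.coeff i * ((Jt ℂ N) ^ i).coeff n := by
  rw [Polynomial.aeval_eq_sum_range' hD, HahnSeries.coeff_sum]
  refine Finset.sum_congr rfl fun i _ => ?_
  rw [Algebra.smul_def, coeff_algebraMap_mul]

end Int'

/-- a polynomial in `j` with coefficients in `ℂ` whose expansion has coefficients in a subring `O`
has coefficients in `O`. -/
theorem poly_mem_of_coeff_mem (O : Subring ℂ) (N : ℕ) [NeZero N] (c : Polynomial ℂ)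
    (h : ∀ n, (Polynomial.aeval (Jt ℂ N) c).coeff n ∈ O) : ∀ n, c.coeff n ∈ O := by
  have key : ∀ (D : ℕ) (c : Polynomial ℂ), c.natDegree < D →
      (∀ n, (Polynomial.aeval (Jt ℂ N) c).coeff n ∈ O) → ∀ n, c.coeff n ∈ O := by
    intro D
    induction D with
    | zero => intro c hc; omega
    | succ D ih =>
      intro c hc h
      -- the top coefficient
      have htop : c.coeff D ∈ O := by
        have h1 := h ((N : ℤ) * (-(D : ℤ)))
        rw [Int'.coeff_aeval N c (D + 1) hc, Finset.sum_range_succ, Int'.coeff_Jt_pow,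
          coeff_jqModC_pow_self, mul_one, Finset.sum_eq_zero, zero_add] at h1
        · exact h1
        · intro i hi
          rw [Int'.coeff_Jt_pow, coeff_jqModC_pow_of_lt, mul_zero]
          have := Finset.mem_range.mp hi
          omega
      set c' : Polynomial ℂ := c - Polynomial.C (c.coeff D) * Polynomial.X ^ D with hc'
      have hdeg : c'.natDegree < D ∨ c' = 0 := by
        by_cases h0 : c' = 0
        · exact Or.inr h0
        left
        rw [Polynomial.natDegree_lt_iff_degree_lt h0, Polynomial.degree_lt_iff_coeff_zero]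
        intro m hm
        rw [hc', Polynomial.coeff_sub, Polynomial.coeff_C_mul, Polynomial.coeff_X_pow]
        rcases hm.lt_or_eq with hm' | rfl
        · rw [if_neg (by omega), mul_zero, sub_zero]
          exact Polynomial.coeff_eq_zero_of_natDegree_lt (by omega)
        · simp
      have hc'mem : ∀ n, c'.coeff n ∈ O := by
        rcases hdeg with hdeg | h0
        · apply ih c' hdeg
          intro n
          rw [hc', map_sub, map_mul, Polynomial.aeval_C, map_pow, Polynomial.aeval_X,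
            HahnSeries.coeff_sub, Int'.coeff_algebraMap_mul]
          exact O.sub_mem (h n) (O.mul_mem htop (Int'.coeff_Jt_pow_mem O N D n))
        · intro n; rw [h0]; simp
      intro n
      have : c.coeff n = c'.coeff n + (Polynomial.C (c.coeff D) * Polynomial.X ^ D).coeff n := by
        rw [hc', Polynomial.coeff_sub]; ring
      rw [this, Polynomial.coeff_C_mul, Polynomial.coeff_X_pow]
      refine O.add_mem (hc'mem n) ?_
      split_ifs
      · simpa using htop
      · simp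
  exact key (c.natDegree + 1) c (Nat.lt_succ_self _) h

namespace Int'

theorem coeffMap_injective {R S : Type*} [CommRing R] [CommRing S] (f : R →+* S)
    (hf : Function.Injective f) : Function.Injective (coeffMap f) := by
  intro x y h
  ext n
  apply hf
  rw [← coeffMap_coeff, ← coeffMap_coeff, h]

theorem coeffMap_C {R S : Type*} [CommRing R] [CommRing S] (f : R →+* S) (a : R) :
    coeffMap f (HahnSeries.C a) = HahnSeries.C (f a) :=
  coeffMap_single f 0 a

/-- naturality of `c ↦ c(j(t^N))`. -/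
theorem coeffMap_comp_aeval {R S : Type*} [CommRing R] [CommRing S] (f : R →+* S) (N : ℕ) :
    (coeffMap f).comp (Polynomial.aeval (Jt R N)).toRingHom =
      (Polynomial.aeval (Jt S N)).toRingHom.comp (Polynomial.mapRingHom f) := by
  apply Polynomial.ringHom_ext
  · intro a
    simp only [RingHom.comp_apply, AlgHom.toRingHom_eq_coe, RingHom.coe_coe, Polynomial.aeval_C,
      Polynomial.coe_mapRingHom, Polynomial.map_C, algebraMap_eq_C, coeffMap_C]
  · simp only [RingHom.comp_apply, AlgHom.toRingHom_eq_coe, RingHom.coe_coe, Polynomial.aeval_X,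
      Polynomial.coe_mapRingHom, Polynomial.map_X, coeffMap_Jt]

/-- naturality of the product of the conjugates. -/
theorem map_prod_ev {R S : Type*} [CommRing R] [CommRing S] (f : R →+* S) (ζ : Rˣ) (N : ℕ)
    [NeZero N] (U : MvPolynomial (Gen N) R) :
    (∏ i : Cos N, (Polynomial.X - Polynomial.C (ev R ζ N (rep i) U))).map (coeffMap f) =
      ∏ i : Cos N, (Polynomial.X - Polynomial.C
        (ev S (Units.map (f : R →* S) ζ) N (rep i) (MvPolynomial.map f U))) := by
  rw [Polynomial.map_prod]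
  refine Finset.prod_congr rfl fun i _ => ?_
  rw [Polynomial.map_sub, Polynomial.map_X, Polynomial.map_C, coeffMap_ev]

/-- `ModEq` passes to quotients. -/
theorem modEq_of_surjective {R S : Type*} [CommRing R] [CommRing S] (f : R →+* S)
    (hf : Function.Surjective f) (ζ : Rˣ) (N : ℕ) [NeZero N] (h : ModEq R ζ N) :
    ModEq S (Units.map (f : R →* S) ζ) N := by
  intro U
  obtain ⟨U', rfl⟩ := MvPolynomial.map_surjective f hf U
  obtain ⟨P, hP⟩ := h U'
  refine ⟨P.map (Polynomial.mapRingHom f), ?_⟩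
  rw [← map_prod_ev, ← hP, Polynomial.map_map, Polynomial.map_map, coeffMap_comp_aeval]

/-- `ModEq` descends to subrings of `ℂ` containing `ζ`. -/
theorem modEq_subring (O : Subring ℂ) (ζO : Oˣ) (N : ℕ) [NeZero N]
    (h : ModEq ℂ (Units.map (O.subtype : O →* ℂ) ζO) N) : ModEq O ζO N := by
  intro U
  obtain ⟨P, hP⟩ := h (MvPolynomial.map O.subtype U)
  rw [← map_prod_ev] at hP
  set Q := ∏ i : Cos N, (Polynomial.X - Polynomial.C (ev O ζO N (rep i) U)) with hQ
  have hcoeff : ∀ n m, (P.coeff n).coeff m ∈ O := by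
    intro n
    apply poly_mem_of_coeff_mem O N
    intro k
    have h1 := congrArg (fun p => (Polynomial.coeff p n).coeff k) hP
    simp only [Polynomial.coeff_map, AlgHom.toRingHom_eq_coe, RingHom.coe_coe,
      coeffMap_coeff] at h1
    rw [h1]
    exact (Subtype.prop _)
  have hlift : P ∈ Polynomial.lifts (Polynomial.mapRingHom O.subtype) := by
    rw [Polynomial.lifts_iff_coeff_lifts]
    intro n
    have : P.coeff n ∈ Polynomial.lifts O.subtype := by
      rw [Polynomial.lifts_iff_coeff_lifts]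
      intro m
      exact ⟨⟨_, hcoeff n m⟩, rfl⟩
    rw [Polynomial.lifts_iff_set_range] at this
    exact this
  rw [Polynomial.lifts_iff_set_range] at hlift
  obtain ⟨P', rfl⟩ := hlift
  refine ⟨P', ?_⟩
  apply Polynomial.map_injective _ (coeffMap_injective O.subtype Subtype.val_injective)
  rw [← hP, Polynomial.map_map, Polynomial.map_map, coeffMap_comp_aeval]

theorem coeffMap_cY {R S : Type*} [CommRing R] [CommRing S] (f : R →+* S) (ζ : Rˣ) (N : ℕ)
    [NeZero N] (γ : SL(2, ℤ)) {d : ℕ} (hd : d ∣ N) :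
    coeffMap f (cY R ζ N γ d) = cY S (Units.map (f : R →* S) ζ) N γ d := by
  have h := coeffMap_cgen f ζ N γ (true, ⟨d, Nat.mem_divisors.mpr ⟨hd, NeZero.ne N⟩⟩)
  simpa [cgen] using h

theorem unitEq_of_ringHom {R S : Type*} [CommRing R] [CommRing S] (f : R →+* S)
    (ζ : Rˣ) (N : ℕ) [NeZero N] (h : UnitEq R ζ N) :
    UnitEq S (Units.map (f : R →* S) ζ) N := by
  intro d hd
  obtain ⟨c, hc⟩ := h d hd
  refine ⟨f c, ?_⟩
  rw [← coeffMap_C, ← hc, map_prod]
  exact Finset.prod_congr rfl fun i _ => (coeffMap_cY f ζ N (rep i) hd).symm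

theorem unitEq_subring (O : Subring ℂ) (ζO : Oˣ) (N : ℕ) [NeZero N]
    (h : UnitEq ℂ (Units.map (O.subtype : O →* ℂ) ζO) N) : UnitEq O ζO N := by
  intro d hd
  obtain ⟨c, hc⟩ := h d hd
  have h1 : coeffMap O.subtype (∏ i : Cos N, cY O ζO N (rep i) d) = HahnSeries.C c := by
    rw [← hc, map_prod]
    exact Finset.prod_congr rfl fun i _ => coeffMap_cY O.subtype ζO N (rep i) hd
  refine ⟨(∏ i : Cos N, cY O ζO N (rep i) d).coeff 0, ?_⟩
  apply coeffMap_injective O.subtype Subtype.val_injective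
  rw [h1, coeffMap_C]
  congr 1
  have h2 := congrArg (fun x : LaurentSeries ℂ => x.coeff 0) h1
  simp only [coeffMap_coeff] at h2
  rw [h2]
  simp

end Int'

namespace Int'

/-- the ring of all algebraic integers in `ℂ`. -/
def Zb : Subring ℂ := (integralClosure ℤ ℂ).toSubring

theorem mem_Zb {x : ℂ} : x ∈ Zb ↔ IsIntegral ℤ x := Iff.rfl

theorem natCast_not_isUnit (ℓ : ℕ) (hℓ : ℓ.Prime) : ¬ IsUnit ((ℓ : ℕ) : Zb) := by
  rintro ⟨u, hu⟩
  have h1 : ((ℓ : ℕ) : Zb) * (↑u⁻¹ : Zb) = 1 := by rw [← hu]; simp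
  have h2 : (ℓ : ℂ) * ((↑u⁻¹ : Zb) : ℂ) = 1 := by
    have := congrArg (Subtype.val) h1
    simpa using this
  have hℓ0 : (ℓ : ℂ) ≠ 0 := by exact_mod_cast hℓ.ne_zero
  have h3 : ((↑u⁻¹ : Zb) : ℂ) = algebraMap ℚ ℂ (1 / (ℓ : ℚ)) := by
    rw [map_div₀, map_one, map_natCast]
    field_simp
    rw [mul_comm]; exact h2
  have h4 : IsIntegral ℤ (algebraMap ℚ ℂ (1 / (ℓ : ℚ))) := h3 ▸ (↑u⁻¹ : Zb).2
  rw [isIntegral_algebraMap_iff (algebraMap ℚ ℂ).injective] at h4
  obtain ⟨y, hy⟩ := (IsIntegrallyClosed.isIntegral_iff (R := ℤ) (K := ℚ)).mp h4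
  have hℓQ : (ℓ : ℚ) ≠ 0 := by exact_mod_cast hℓ.ne_zero
  have h5 : (y : ℚ) * ℓ = 1 := by
    have : (algebraMap ℤ ℚ y) = (y : ℚ) := rfl
    rw [← this, hy]; field_simp
  have h6 : y * (ℓ : ℤ) = 1 := by exact_mod_cast h5
  have h7 : (ℓ : ℤ) ∣ 1 := ⟨y, by rw [mul_comm]; exact h6.symm⟩
  have h8 : ℓ ∣ 1 := by exact_mod_cast h7
  exact hℓ.one_lt.ne' (Nat.dvd_one.mp h8)

theorem isAlgClosed_quot (m : Ideal Zb) [hm : m.IsMaximal] :
    letI := Ideal.Quotient.field m
    IsAlgClosed (Zb ⧸ m) := by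
  letI := Ideal.Quotient.field m
  apply IsAlgClosed.of_exists_root
  intro p hp hirr
  have hl : p ∈ Polynomial.lifts (Ideal.Quotient.mk m) := by
    rw [Polynomial.lifts_iff_coeff_lifts]
    intro n
    exact Ideal.Quotient.mk_surjective _
  obtain ⟨q, hq, hdeg, hmon⟩ := Polynomial.lifts_and_degree_eq_and_monic hl hp
  have hdeg' : (q.map Zb.subtype).degree ≠ 0 := by
    rw [hmon.degree_map, hdeg]
    exact (Polynomial.degree_pos_of_irreducible hirr).ne'
  obtain ⟨x, hx⟩ := IsAlgClosed.exists_root (q.map Zb.subtype) hdeg'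
  have hx1 : IsIntegral Zb x := by
    refine ⟨q, hmon, ?_⟩
    rw [Polynomial.IsRoot.def, Polynomial.eval_map] at hx
    exact hx
  have hx2 : IsIntegral ℤ x := by
    haveI : Algebra.IsIntegral ℤ Zb := inferInstanceAs (Algebra.IsIntegral ℤ (integralClosure ℤ ℂ))
    exact isIntegral_trans x hx1
  refine ⟨Ideal.Quotient.mk m ⟨x, hx2⟩, ?_⟩
  rw [← hq, Polynomial.eval_map, Polynomial.eval₂_hom]
  have : Polynomial.eval (⟨x, hx2⟩ : Zb) q = 0 := by
    apply Subtype.val_injective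
    rw [Polynomial.IsRoot.def, Polynomial.eval_map] at hx
    have h1 := Polynomial.hom_eval₂ q (RingHom.id Zb) Zb.subtype (⟨x, hx2⟩ : Zb)
    rw [RingHom.comp_id, Polynomial.eval₂_id] at h1
    exact h1.trans hx
  rw [this, map_zero]

end Int'

open Int' in
theorem exists_resField (N ℓ : ℕ) [NeZero N] [Fact ℓ.Prime] (hℓN : ¬ ℓ ∣ N) (ζ : ℂˣ)
    (hζ : IsPrimitiveRoot ζ N) (h1 : ModEq ℂ ζ N) (h2 : UnitEq ℂ ζ N) :
    ∃ (k : Type) (_ : Field k) (_ : CharP k ℓ) (_ : Infinite k) (ζ' : kˣ),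
      IsPrimitiveRoot ζ' N ∧ ModEq k ζ' N ∧ UnitEq k ζ' N := by
  have hℓ : ℓ.Prime := Fact.out
  have hNpos : 0 < N := Nat.pos_of_ne_zero (NeZero.ne N)
  -- `ζ` as a unit of `Zb`
  have hζi : IsIntegral ℤ (ζ : ℂ) :=
    (IsPrimitiveRoot.coe_units_iff.mpr hζ).isIntegral hNpos
  have hζi' : IsIntegral ℤ ((ζ⁻¹ : ℂˣ) : ℂ) :=
    (IsPrimitiveRoot.coe_units_iff.mpr hζ.inv).isIntegral hNpos
  let ζO : Zbˣ := ⟨⟨ζ, hζi⟩, ⟨(ζ⁻¹ : ℂˣ), hζi'⟩, by apply Subtype.ext; simp, by
    apply Subtype.ext; simp⟩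
  have hζO : Units.map (Zb.subtype : Zb →* ℂ) ζO = ζ := by
    ext; rfl
  have h1O : ModEq Zb ζO N := modEq_subring Zb ζO N (by rw [hζO]; exact h1)
  have h2O : UnitEq Zb ζO N := unitEq_subring Zb ζO N (by rw [hζO]; exact h2)
  have hζOprim : IsPrimitiveRoot ζO N := by
    have : IsPrimitiveRoot (Units.map (Zb.subtype : Zb →* ℂ) ζO) N := by rw [hζO]; exact hζ
    exact IsPrimitiveRoot.of_map_of_injective this
      (Units.map_injective (f := (Zb.subtype : Zb →* ℂ)) Subtype.val_injective)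
  -- a maximal ideal above `ℓ`
  obtain ⟨m, hm, hle⟩ := Ideal.exists_le_maximal (Ideal.span {((ℓ : ℕ) : Zb)}) (by
    rw [Ne, Ideal.span_singleton_eq_top]
    exact natCast_not_isUnit ℓ hℓ)
  letI := Ideal.Quotient.field m
  have hℓ0 : ((ℓ : ℕ) : Zb ⧸ m) = 0 := by
    have : Ideal.Quotient.mk m ((ℓ : ℕ) : Zb) = 0 :=
      Ideal.Quotient.eq_zero_iff_mem.mpr (hle (Ideal.mem_span_singleton_self _))
    simpa using this
  have hchar : CharP (Zb ⧸ m) ℓ := (CharP.charP_iff_prime_eq_zero hℓ).mpr hℓ0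
  haveI := isAlgClosed_quot m
  refine ⟨Zb ⧸ m, inferInstance, hchar, inferInstance,
    Units.map (Ideal.Quotient.mk m : Zb →* Zb ⧸ m) ζO, ?_,
    modEq_of_surjective (Ideal.Quotient.mk m) Ideal.Quotient.mk_surjective ζO N h1O,
    unitEq_of_ringHom (Ideal.Quotient.mk m) ζO N h2O⟩
  -- primitivity
  rw [← IsPrimitiveRoot.coe_units_iff]
  obtain ⟨n, rfl⟩ : ∃ n, N = n + 1 := ⟨N - 1, by omega⟩
  have hprod := (IsPrimitiveRoot.coe_units_iff.mpr hζOprim).prod_one_sub_pow_eq_order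
  have hprod' := congrArg (Ideal.Quotient.mk m) hprod
  rw [map_prod] at hprod'
  have hN0 : Ideal.Quotient.mk m ((n : Zb) + 1) ≠ 0 := by
    have : Ideal.Quotient.mk m ((n : Zb) + 1) = (((n + 1 : ℕ)) : Zb ⧸ m) := by simp
    rw [this, Ne, CharP.cast_eq_zero_iff (Zb ⧸ m) ℓ]
    exact hℓN
  refine IsPrimitiveRoot.mk_of_lt _ (Nat.succ_pos n) ?_ ?_
  · have := congrArg (fun u : Zbˣ => Ideal.Quotient.mk m (u : Zb)) hζOprim.pow_eq_one
    simpa using this
  · intro l hl0 hl hcon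
    apply hN0
    rw [← hprod']
    apply Finset.prod_eq_zero (i := l - 1) (Finset.mem_range.mpr (by omega))
    rw [Nat.sub_add_cancel hl0, map_sub, map_one, map_pow]
    have : (Ideal.Quotient.mk m) (ζO : Zb) ^ l = 1 := hcon
    rw [this, sub_self]

namespace Int'

/-- a root of a monic polynomial with integral coefficients is integral. -/
theorem isIntegral_of_root {R B : Type*} [CommRing R] [CommRing B] [Nontrivial B] [Algebra R B]
    (Q : Polynomial B) (hQ : Q.Monic) (hc : ∀ n, IsIntegral R (Q.coeff n)) (x : B)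
    (hx : Q.eval x = 0) : IsIntegral R x := by
  have hl : Q ∈ Polynomial.lifts (algebraMap (integralClosure R B) B) := by
    rw [Polynomial.lifts_iff_coeff_lifts]
    intro n
    exact ⟨⟨_, hc n⟩, rfl⟩
  obtain ⟨q, hq, _, hmon⟩ := Polynomial.lifts_and_degree_eq_and_monic hl hQ
  have h1 : IsIntegral (integralClosure R B) x := by
    refine ⟨q, hmon, ?_⟩
    rw [← Polynomial.eval_map, hq, hx]
  exact isIntegral_trans x h1

theorem algebraMap_Zl (ℓ : ℕ) (a : Zl ℓ) :
    algebraMap (Zl ℓ) (LaurentSeries ℚ) a = HahnSeries.C (a : ℚ) := by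
  rw [HahnSeries.algebraMap_apply', PowerSeries.algebraMap_apply, HahnSeries.ofPowerSeries_C]
  rfl

theorem coeffMap_jq (S : Type*) [CommRing S] (f : ℚ →+* S) : coeffMap f jq = jqModC S :=
  map_jqModC f

end Int'

open Int' in
theorem isIntegral_ev0 (N ℓ : ℕ) [NeZero N] [Fact ℓ.Prime] (hℓN : ¬ ℓ ∣ N) (ζ : ℂˣ)
    (hζ : IsPrimitiveRoot ζ N) (h1 : ModEq ℂ ζ N) (U : MvPolynomial (Gen N) (Zl ℓ)) :
    IsIntegral (Algebra.adjoin (Zl ℓ) {jq}) (incI ℓ (ev0 (Zl ℓ) N U)) := by
  have hNpos : 0 < N := Nat.pos_of_ne_zero (NeZero.ne N)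
  let O' : Subring ℂ := (integralClosure (Zl ℓ) ℂ).toSubring
  have hζi : IsIntegral (Zl ℓ) (ζ : ℂ) :=
    ((IsPrimitiveRoot.coe_units_iff.mpr hζ).isIntegral hNpos).tower_top
  have hζi' : IsIntegral (Zl ℓ) ((ζ⁻¹ : ℂˣ) : ℂ) :=
    ((IsPrimitiveRoot.coe_units_iff.mpr hζ.inv).isIntegral hNpos).tower_top
  let ζO : O'ˣ := ⟨⟨ζ, hζi⟩, ⟨(ζ⁻¹ : ℂˣ), hζi'⟩, by apply Subtype.ext; simp, by
    apply Subtype.ext; simp⟩
  have hζO : Units.map (O'.subtype : O' →* ℂ) ζO = ζ := by
    ext; rfl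
  have h1O : ModEq O' ζO N := modEq_subring O' ζO N (by rw [hζO]; exact h1)
  let g : Zl ℓ →+* O' := algebraMap (Zl ℓ) (integralClosure (Zl ℓ) ℂ)
  have hg : O'.subtype.comp g = algebraMap (Zl ℓ) ℂ := rfl
  obtain ⟨P, hP⟩ := h1O (MvPolynomial.map g U)
  -- the big ring
  let Θ : LaurentSeries ℚ →+* LaurentSeries ℂ :=
    (qExp ℂ N).comp (coeffMap (algebraMap ℚ ℂ))
  have hΘinj : Function.Injective Θ := by
    have h2 : Function.Injective (qExp ℂ N) := by rw [qExp_eq]; exact qExpand_injective N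
    exact h2.comp (coeffMap_injective _ (algebraMap ℚ ℂ).injective)
  let ψ : Algebra.adjoin (Zl ℓ) {jq} →+* LaurentSeries ℂ :=
    Θ.comp (algebraMap (Algebra.adjoin (Zl ℓ) {jq}) (LaurentSeries ℚ))
  letI : Algebra (Algebra.adjoin (Zl ℓ) {jq}) (LaurentSeries ℂ) := ψ.toAlgebra
  have hJ : IsIntegral (Algebra.adjoin (Zl ℓ) {jq}) (Jt ℂ N) := by
    have : Jt ℂ N = algebraMap (Algebra.adjoin (Zl ℓ) {jq}) (LaurentSeries ℂ)
        ⟨jq, Algebra.subset_adjoin (Set.mem_singleton _)⟩ := by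
      change Jt ℂ N = qExp ℂ N (coeffMap (algebraMap ℚ ℂ) jq)
      rw [coeffMap_jq, Jt]
    rw [this]
    exact isIntegral_algebraMap
  have hC : ∀ c : O', IsIntegral (Algebra.adjoin (Zl ℓ) {jq})
      (HahnSeries.C (c : ℂ) : LaurentSeries ℂ) := by
    intro c
    obtain ⟨p, hpm, hp0⟩ : IsIntegral (Zl ℓ) (c : ℂ) := c.2
    refine ⟨p.map (algebraMap (Zl ℓ) (Algebra.adjoin (Zl ℓ) {jq})), hpm.map _, ?_⟩
    rw [Polynomial.eval₂_map]
    have hcomp : (algebraMap (Algebra.adjoin (Zl ℓ) {jq}) (LaurentSeries ℂ)).comp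
        (algebraMap (Zl ℓ) (Algebra.adjoin (Zl ℓ) {jq})) =
        (HahnSeries.C : ℂ →+* LaurentSeries ℂ).comp (algebraMap (Zl ℓ) ℂ) := by
      ext1 a
      change qExp ℂ N (coeffMap (algebraMap ℚ ℂ) (algebraMap (Zl ℓ) (LaurentSeries ℚ) a)) = _
      rw [algebraMap_Zl, coeffMap_C, qExp_eq, qExpand_C]
      rfl
    rw [hcomp, ← Polynomial.hom_eval₂, hp0, map_zero]
  have hpoly : ∀ r : Polynomial O', IsIntegral (Algebra.adjoin (Zl ℓ) {jq})
      (coeffMap O'.subtype (Polynomial.aeval (Jt O' N) r)) := by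
    intro r
    have e : coeffMap O'.subtype (Polynomial.aeval (Jt O' N) r) =
        Polynomial.aeval (Jt ℂ N) (r.map O'.subtype) :=
      congrArg (fun f : Polynomial O' →+* LaurentSeries ℂ => f r) (coeffMap_comp_aeval O'.subtype N)
    rw [e, Polynomial.aeval_eq_sum_range]
    refine IsIntegral.sum _ fun m _ => ?_
    rw [Algebra.smul_def, algebraMap_eq_C, Polynomial.coeff_map]
    exact (hC _).mul (hJ.pow m)
  -- the polynomial
  set Q : Polynomial (LaurentSeries ℂ) :=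
    (∏ i : Cos N, (Polynomial.X - Polynomial.C (ev O' ζO N (rep i) (MvPolynomial.map g U)))).map
      (coeffMap O'.subtype) with hQ
  have hQmonic : Q.Monic :=
    (Polynomial.monic_prod_of_monic _ _ fun i _ => Polynomial.monic_X_sub_C _).map _
  have hQc : ∀ n, IsIntegral (Algebra.adjoin (Zl ℓ) {jq}) (Q.coeff n) := by
    intro n
    rw [hQ, ← hP, Polynomial.coeff_map, Polynomial.coeff_map]
    exact hpoly _
  have hroot : Q.eval (Θ (incI ℓ (ev0 (Zl ℓ) N U))) = 0 := by
    rw [hQ, map_prod_ev, Polynomial.eval_prod]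
    apply Finset.prod_eq_zero (i := ((1 : SL(2, ℤ)) : Cos N)) (Finset.mem_univ _)
    rw [Polynomial.eval_sub, Polynomial.eval_X, Polynomial.eval_C, hζO,
      ev_of_mem_Gamma0 ζ hζ.pow_eq_one ((rep_mem_Gamma0_iff _).mpr rfl), MvPolynomial.map_map, hg]
    change qExp ℂ N (coeffMap (algebraMap ℚ ℂ) (coeffMap (algebraMap (Zl ℓ) ℚ) _)) - _ = 0
    rw [coeffMap_coeffMap, coeffMap_ev0, sub_eq_zero]
    rfl
  obtain ⟨p, hpm, hp0⟩ := isIntegral_of_root Q hQmonic hQc _ hroot
  refine ⟨p, hpm, hΘinj ?_⟩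
  rw [map_zero, Polynomial.hom_eval₂]
  exact hp0

end Fermat.Agent.S28
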