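import Mathlib
import Fermat.Prelude.Thm_ModularCurve_coeff_jqModC_pow_self
import Fermat.Prelude.Thm_ModularCurve_coeff_jqModC_pow_of_lt

/-!
# S28, package LAM : general lemmas on integral elements
-/

set_option autoImplicit false
open Polynomial ModularCurve
noncomputable section
namespace Fermat.Agent.S28

namespace Lam

/-- integrality only depends on the range of the structure map. -/
lemma isIntegralElem_of_range {R S T : Type*} [CommRing R] [CommRing S] [CommRing T]
    (f : R →+* T) (g : S →+* T) (h : ∀ r, f r ∈ Set.range g) {x : T} (hx : f.IsIntegralElem x) :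
    g.IsIntegralElem x := by
  obtain ⟨P, hP, hx⟩ := hx
  have h1 : P.map f ∈ lifts g := (lifts_iff_coeff_lifts _).2 (fun n => by
    rw [coeff_map]; exact h _)
  obtain ⟨P', h2, -, h3⟩ := lifts_and_natDegree_eq_and_monic h1 (hP.map f)
  exact ⟨P', h3, by rw [eval₂_eq_eval_map, h2, ← eval₂_eq_eval_map, hx]⟩

lemma isIntegralElem_map_comp {R S T : Type*} [CommRing R] [CommRing S] [CommRing T]
    (f : R →+* S) (ι : S →+* T) {x : S} (hx : f.IsIntegralElem x) :
    (ι.comp f).IsIntegralElem (ι x) := by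
  obtain ⟨P, hP, hx⟩ := hx
  exact ⟨P, hP, by rw [← hom_eval₂, hx, map_zero]⟩

lemma isIntegralElem_of_map_comp {R S T : Type*} [CommRing R] [CommRing S] [CommRing T]
    (f : R →+* S) (ι : S →+* T) (hι : Function.Injective ι) {x : S}
    (hx : (ι.comp f).IsIntegralElem (ι x)) : f.IsIntegralElem x := by
  obtain ⟨P, hP, hx⟩ := hx
  refine ⟨P, hP, hι ?_⟩
  rw [hom_eval₂, hx, map_zero]

/-- integrality over `A₀[x]` in terms of the evaluation map. -/
lemma isIntegral_adjoin_singleton_iff {A₀ A : Type*} [CommRing A₀] [CommRing A] [Algebra A₀ A]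
    (x y : A) : IsIntegral (Algebra.adjoin A₀ {x}) y ↔
      (aeval x : A₀[X] →ₐ[A₀] A).toRingHom.IsIntegralElem y := by
  constructor
  · intro h
    refine isIntegralElem_of_range _ _ ?_ h
    intro r
    have hr : (r : A) ∈ (aeval x : A₀[X] →ₐ[A₀] A).range := by
      rw [← Algebra.adjoin_singleton_eq_range_aeval]; exact r.2
    obtain ⟨p, hp⟩ := hr
    exact ⟨p, hp⟩
  · intro h
    refine isIntegralElem_of_range _ _ ?_ h
    intro p
    have hp : aeval x p ∈ Algebra.adjoin A₀ {x} := by
      rw [Algebra.adjoin_singleton_eq_range_aeval]; exact ⟨p, rfl⟩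
    exact ⟨⟨_, hp⟩, rfl⟩

/-- (B0) if `g` is integral and `π g = w` is in the base ring, then `w` vanishes modulo `π`. -/
lemma map_eq_zero_of_isIntegralElem {R E k : Type*} [CommRing R] [CommRing E] [CommRing k]
    [IsReduced k] [Nontrivial k] (i : R →+* E) (hi : Function.Injective i) (r : R →+* k) {π w : R}
    (hπ : r π = 0) {g : E} (hg : i.IsIntegralElem g) (h : i π * g = i w) : r w = 0 := by
  obtain ⟨P, hP, hroot⟩ := hg
  have h1 : eval₂ i (i π * g) (scaleRoots P π) = 0 := by
    rw [scaleRoots_eval₂_mul, hroot, mul_zero]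
  rw [h, eval₂_hom] at h1
  have h2 : eval w (scaleRoots P π) = 0 := hi (by rw [h1, map_zero])
  have h3 : eval (r w) ((scaleRoots P π).map r) = 0 := by
    rw [eval_map, eval₂_hom, h2, map_zero]
  rw [map_scaleRoots _ _ _ (by rw [hP.leadingCoeff, map_one]; exact one_ne_zero), hπ,
    scaleRoots_zero, (hP.map r).leadingCoeff, one_smul, eval_pow, eval_X] at h3
  exact eq_zero_of_pow_eq_zero h3

lemma coeff_algebra_smul (R : Type*) [CommRing R] (c : R) (x : LaurentSeries R) (n : ℤ) :
    (@HSMul.hSMul R (LaurentSeries R) (LaurentSeries R)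
      (@instHSMul R (LaurentSeries R) Algebra.toSMul) c x).coeff n = c * x.coeff n := by
  rw [Algebra.smul_def, HahnSeries.algebraMap_apply', PowerSeries.algebraMap_eq,
    HahnSeries.ofPowerSeries_C, HahnSeries.C_mul_eq_smul, HahnSeries.coeff_smul, smul_eq_mul]

/-- `j` is transcendental over any nontrivial coefficient ring. -/
lemma aeval_jqModC_ne_zero (R : Type*) [CommRing R] {p : R[X]} (hp : p ≠ 0) :
    aeval (jqModC R) p ≠ 0 := by
  intro h
  have h1 : (aeval (jqModC R) p).coeff (-(p.natDegree : ℤ)) = p.leadingCoeff := by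
    rw [aeval_eq_sum_range, ← HahnSeries.coeff.addMonoidHom_apply, map_sum,
      Finset.sum_range_succ, Finset.sum_eq_zero, zero_add]
    · rw [HahnSeries.coeff.addMonoidHom_apply, coeff_algebra_smul,
        coeff_jqModC_pow_self, mul_one, coeff_natDegree]
    · intro i hi
      have hi' : -(p.natDegree : ℤ) < -(i : ℤ) := by
        have := Finset.mem_range.mp hi
        omega
      rw [HahnSeries.coeff.addMonoidHom_apply, coeff_algebra_smul,
        coeff_jqModC_pow_of_lt R hi', mul_zero]
  rw [h, HahnSeries.coeff_zero] at h1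
  exact hp (leadingCoeff_eq_zero.mp h1.symm)

lemma eval₂_mul_pow_eq_reflect {A₀ E : Type*} [CommRing A₀] [CommRing E] (c : A₀ →+* E) {x y : E}
    (hxy : x * y = 1) (p : A₀[X]) {K : ℕ} (hK : p.natDegree ≤ K) :
    eval₂ c x p * y ^ K = eval₂ c y (reflect K p) := by
  let _ : Invertible x := ⟨y, by rw [mul_comm]; exact hxy, hxy⟩
  have h' : eval₂ c y (reflect K p) * x ^ K = eval₂ c x p := eval₂_reflect_mul_pow c x K p hK
  rw [← h', mul_assoc, ← mul_pow, hxy, one_pow, mul_one]

/-- an element integral over `A₀[x]` becomes integral over `A₀[x⁻¹]` after multiplication by a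
power of `x⁻¹`. -/
lemma exists_pow_mul_isIntegralElem {A₀ E : Type*} [CommRing A₀] [CommRing E] [Nontrivial E]
    (c : A₀ →+* E) {x y : E} (hxy : x * y = 1) {h : E}
    (hh : (eval₂RingHom c x).IsIntegralElem h) :
    ∃ m : ℕ, (eval₂RingHom c y).IsIntegralElem (y ^ m * h) := by
  obtain ⟨P, hP, hroot⟩ := hh
  set M : ℕ := (Finset.range (P.natDegree + 1)).sup (fun i => (P.coeff i).natDegree) with hM
  refine ⟨M, ?_⟩
  set Q : E[X] := (P.map (eval₂RingHom c x)).scaleRoots (y ^ M) with hQ
  have hQm : Q.Monic := (monic_scaleRoots_iff _).mpr (hP.map _)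
  have hQr : Q.eval (y ^ M * h) = 0 := by
    rw [hQ, scaleRoots_eval_mul, eval_map, hroot, mul_zero]
  have hQl : Q ∈ lifts (eval₂RingHom c y) := by
    rw [lifts_iff_coeff_lifts]
    intro i
    rw [hQ, coeff_scaleRoots, coeff_map, hP.natDegree_map]
    rcases lt_trichotomy i P.natDegree with hi | hi | hi
    · have h1 : (P.coeff i).natDegree ≤ M * (P.natDegree - i) := by
        calc (P.coeff i).natDegree ≤ M :=
              Finset.le_sup (f := fun i => (P.coeff i).natDegree) (Finset.mem_range.mpr (by omega))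
          _ = M * 1 := (mul_one M).symm
          _ ≤ M * (P.natDegree - i) := Nat.mul_le_mul_left M (by omega)
      refine ⟨reflect (M * (P.natDegree - i)) (P.coeff i), ?_⟩
      rw [coe_eval₂RingHom, coe_eval₂RingHom, ← pow_mul, eval₂_mul_pow_eq_reflect c hxy _ h1]
    · refine ⟨1, ?_⟩
      rw [hi, hP.coeff_natDegree, map_one, map_one, Nat.sub_self, pow_zero, mul_one]
    · refine ⟨0, ?_⟩
      rw [coeff_eq_zero_of_natDegree_lt hi, map_zero, map_zero, zero_mul]
  obtain ⟨Q', h1, -, h2⟩ := lifts_and_natDegree_eq_and_monic hQl hQm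
  exact ⟨Q', h2, by rw [eval₂_eq_eval_map, h1, hQr]⟩

end Lam

end Fermat.Agent.S28
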