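import Fermat.Agent.S28.DegDefs
import Fermat.Agent.S28.Ord

/-!
# S28, degree block, package UB: the upper bound `[ℚ(gens) : ℚ(j)] ≤ [SL₂(ℤ) : Γ₀(N)]`

* `exists_rat_relation` : descent of a linear dependence over `ℂ[j]` to `ℚ[j]`;
* `span_of_indep` : `n = [SL₂(ℤ) : Γ₀(N)]` monomials in the generators which are independent
  over `ℚ[j]` span the field generated by the generators (up to denominators in `ℚ[j]`);
* `indep_rat_of_indep_mod` : independence mod `ℓ` implies independence over `ℚ`.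
-/

set_option autoImplicit false

noncomputable section

namespace Fermat.Agent.S28

open ModularCurve HahnSeries
open scoped MatrixGroups

namespace Upper

/-- apply a `ℚ`-linear functional coefficientwise. -/
def lam (l : ℂ →ₗ[ℚ] ℚ) : LaurentSeries ℂ →+ LaurentSeries ℚ where
  toFun a := a.map l
  map_zero' := by ext n; simp
  map_add' a b := by ext n; simp

@[simp] theorem lam_coeff (l : ℂ →ₗ[ℚ] ℚ) (a : LaurentSeries ℂ) (n : ℤ) :
    (lam l a).coeff n = l (a.coeff n) := rfl

theorem lam_mul (l : ℂ →ₗ[ℚ] ℚ) (a : LaurentSeries ℂ) (y : LaurentSeries ℚ) :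
    lam l (a * coeffMap (algebraMap ℚ ℂ) y) = lam l a * y := by
  ext n
  have h1 : (coeffMap (algebraMap ℚ ℂ) y).support ⊆ y.support := by
    intro k hk h
    exact hk (by simp [h])
  have h2 : (lam l a).support ⊆ a.support := by
    intro k hk h
    exact hk (by simp [h])
  rw [lam_coeff, HahnSeries.coeff_mul_right' y.isPWO_support h1,
    HahnSeries.coeff_mul_left' a.isPWO_support h2, map_sum]
  refine Finset.sum_congr rfl fun ij _ => ?_
  rw [coeffMap_coeff, lam_coeff, mul_comm, ← Algebra.smul_def, map_smul, smul_eq_mul, mul_comm]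

/-- apply a `ℚ`-linear functional to the coefficients of a polynomial. -/
def polyL (l : ℂ →ₗ[ℚ] ℚ) (p : Polynomial ℂ) : Polynomial ℚ :=
  ∑ n ∈ p.support, Polynomial.monomial n (l (p.coeff n))

theorem polyL_coeff (l : ℂ →ₗ[ℚ] ℚ) (p : Polynomial ℂ) (n : ℕ) :
    (polyL l p).coeff n = l (p.coeff n) := by
  rw [polyL, Polynomial.finsetSum_coeff]
  simp only [Polynomial.coeff_monomial]
  rw [Finset.sum_ite_eq']
  split_ifs with h
  · rfl
  · rw [Polynomial.notMem_support_iff.mp h, map_zero]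

theorem lam_aeval (l : ℂ →ₗ[ℚ] ℚ) (p : Polynomial ℂ) :
    lam l (Polynomial.aeval (jqModC ℂ) p) = Polynomial.aeval jq (polyL l p) := by
  rw [polyL, map_sum, Polynomial.aeval_def, Polynomial.eval₂_eq_sum, Polynomial.sum_def, map_sum]
  refine Finset.sum_congr rfl fun n _ => ?_
  rw [Polynomial.aeval_monomial, ← coeffMap_jqModC (algebraMap ℚ ℂ), ← map_pow,
    lam_mul, jqModC_rat]
  congr 1
  rw [algebraMap_laurentSeries_eq_single, algebraMap_laurentSeries_eq_single]
  ext k
  rw [lam_coeff, HahnSeries.coeff_single, HahnSeries.coeff_single]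
  split_ifs <;> simp

end Upper

open Upper in
/-- descent of a linear dependence from `ℂ` to `ℚ`. -/
theorem exists_rat_relation {ι : Type*} [Fintype ι] (x : ι → LaurentSeries ℚ)
    (c : ι → Polynomial ℂ) (hc : c ≠ 0)
    (h : ∑ i, Polynomial.aeval (jqModC ℂ) (c i) * coeffMap (algebraMap ℚ ℂ) (x i) = 0) :
    ∃ c' : ι → Polynomial ℚ, c' ≠ 0 ∧ ∑ i, Polynomial.aeval jq (c' i) * x i = 0 := by
  obtain ⟨i₀, hi₀⟩ : ∃ i, c i ≠ 0 := by
    by_contra hcon
    push Not at hcon
    exact hc (funext hcon)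
  obtain ⟨n₀, hn₀⟩ : ∃ n, (c i₀).coeff n ≠ 0 := by
    by_contra hcon
    push Not at hcon
    exact hi₀ (Polynomial.ext hcon)
  obtain ⟨l, hl⟩ : ∃ l : ℂ →ₗ[ℚ] ℚ, l ((c i₀).coeff n₀) ≠ 0 := by
    by_contra hcon
    push Not at hcon
    exact hn₀ ((Module.forall_dual_apply_eq_zero_iff ℚ _).mp hcon)
  refine ⟨fun i => polyL l (c i), ?_, ?_⟩
  · intro h0
    apply hl
    rw [← polyL_coeff, congrFun h0 i₀]
    simp
  · have := congrArg (lam l) h
    rw [map_sum, map_zero] at this
    rw [← this]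
    refine Finset.sum_congr rfl fun i _ => ?_
    rw [lam_mul, lam_aeval]

namespace Upper

section Abstract

variable {k K L σ : Type*} [Field k] [Field K] [Field L] [Algebra k L]
  [Algebra (Polynomial k) K] [IsFractionRing (Polynomial k) K] [Algebra (Polynomial k) L]
  [Algebra K L] [IsScalarTower (Polynomial k) K L]

/-- elements of `K[g]` are of the form `U(g) / d(J)`. -/
theorem exists_denom (J : L) (hJ : ∀ p, algebraMap (Polynomial k) L p = Polynomial.aeval J p)
    (g : σ → L) (x₀ : σ) (hx₀ : g x₀ = J) (x : L) (hx : x ∈ Algebra.adjoin K (Set.range g)) :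
    ∃ (d : Polynomial k) (U : MvPolynomial σ k), d ≠ 0 ∧
      Polynomial.aeval J d * x = MvPolynomial.aeval g U := by
  have key : ∀ a : Polynomial k,
      MvPolynomial.aeval g (Polynomial.aeval (MvPolynomial.X x₀ : MvPolynomial σ k) a) =
        Polynomial.aeval J a := by
    intro a
    rw [← Polynomial.aeval_algHom_apply, MvPolynomial.aeval_X, hx₀]
  induction hx using Algebra.adjoin_induction with
  | mem x hx =>
    obtain ⟨y, rfl⟩ := hx
    exact ⟨1, MvPolynomial.X y, one_ne_zero, by simp⟩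
  | algebraMap κ =>
    obtain ⟨⟨a, b⟩, hab⟩ := IsLocalization.surj (nonZeroDivisors (Polynomial k)) κ
    refine ⟨b, Polynomial.aeval (MvPolynomial.X x₀) a, nonZeroDivisors.ne_zero b.2, ?_⟩
    rw [key, ← hJ, ← hJ, IsScalarTower.algebraMap_apply (Polynomial k) K L,
      IsScalarTower.algebraMap_apply (Polynomial k) K L, ← map_mul, mul_comm]
    exact congrArg _ hab
  | add x y _ _ hx hy =>
    obtain ⟨d₁, U₁, h₁, e₁⟩ := hx
    obtain ⟨d₂, U₂, h₂, e₂⟩ := hy
    refine ⟨d₁ * d₂, Polynomial.aeval (MvPolynomial.X x₀) d₂ * U₁ +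
      Polynomial.aeval (MvPolynomial.X x₀) d₁ * U₂, mul_ne_zero h₁ h₂, ?_⟩
    simp only [map_add, map_mul, key, ← e₁, ← e₂]
    ring
  | mul x y _ _ hx hy =>
    obtain ⟨d₁, U₁, h₁, e₁⟩ := hx
    obtain ⟨d₂, U₂, h₂, e₂⟩ := hy
    refine ⟨d₁ * d₂, U₁ * U₂, mul_ne_zero h₁ h₂, ?_⟩
    rw [map_mul, map_mul, ← e₁, ← e₂]
    ring

/-- elements of `K[g]` are roots of nonzero polynomials of degree `≤ n`. -/
theorem exists_root_poly (J : L)
    (hJ : ∀ p, algebraMap (Polynomial k) L p = Polynomial.aeval J p)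
    (g : σ → L) (x₀ : σ) (hx₀ : g x₀ = J) (n : ℕ)
    (H : ∀ U : MvPolynomial σ k, ∃ c : Fin (n + 1) → Polynomial k, c ≠ 0 ∧
      ∑ i, Polynomial.aeval J (c i) * (MvPolynomial.aeval g U) ^ (i : ℕ) = 0)
    (x : L) (hx : x ∈ Algebra.adjoin K (Set.range g)) :
    ∃ p : Polynomial K, p ≠ 0 ∧ p.natDegree ≤ n ∧ Polynomial.aeval x p = 0 := by
  obtain ⟨d, U, hd, hU⟩ := exists_denom J hJ g x₀ hx₀ x hx
  obtain ⟨c, hc, hcU⟩ := H U
  refine ⟨∑ i : Fin (n + 1), Polynomial.monomial (i : ℕ)
    (algebraMap (Polynomial k) K (c i * d ^ (i : ℕ))), ?_, ?_, ?_⟩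
  · intro h0
    apply hc
    funext i
    have h1 := congrArg (fun p => Polynomial.coeff p (i : ℕ)) h0
    simp only [Polynomial.finsetSum_coeff, Polynomial.coeff_monomial, Polynomial.coeff_zero] at h1
    rw [Finset.sum_eq_single i] at h1
    · rw [if_pos rfl] at h1
      have h2 := (map_eq_zero_iff _ (IsFractionRing.injective (Polynomial k) K)).mp h1
      exact (mul_eq_zero.mp h2).resolve_right (pow_ne_zero _ hd)
    · intro b _ hb
      rw [if_neg (fun h => hb (Fin.ext h))]
    · intro h; exact absurd (Finset.mem_univ i) h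
  · refine Polynomial.natDegree_sum_le_of_forall_le _ _ fun i _ => ?_
    exact (Polynomial.natDegree_monomial_le _).trans (Nat.lt_succ_iff.mp i.2)
  · rw [map_sum, ← hcU]
    refine Finset.sum_congr rfl fun i _ => ?_
    rw [Polynomial.aeval_monomial, ← IsScalarTower.algebraMap_apply, hJ, map_mul, map_pow, ← hU]
    ring

variable (K) [CharZero K] [Algebra k K] [IsScalarTower k K L] [Finite σ]

include K in
theorem span_aux (J : L)
    (hJ : ∀ p, algebraMap (Polynomial k) L p = Polynomial.aeval J p)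
    (g : σ → L) (x₀ : σ) (hx₀ : g x₀ = J) (n : ℕ)
    (H : ∀ U : MvPolynomial σ k, ∃ c : Fin (n + 1) → Polynomial k, c ≠ 0 ∧
      ∑ i, Polynomial.aeval J (c i) * (MvPolynomial.aeval g U) ^ (i : ℕ) = 0)
    (M : Fin n → L) (hM : ∀ r, M r ∈ IntermediateField.adjoin k (Set.range g))
    (hind : ∀ c : Fin n → Polynomial k, ∑ r, Polynomial.aeval J (c r) * M r = 0 → c = 0)
    (f : L) (hf : f ∈ IntermediateField.adjoin k (Set.range g)) :
    ∃ (s : Polynomial k) (a : Fin n → Polynomial k), s ≠ 0 ∧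
      Polynomial.aeval J s * f = ∑ r, Polynomial.aeval J (a r) * M r := by
  have halg : ∀ x ∈ Set.range g, IsAlgebraic K x := by
    intro x hx
    obtain ⟨p, hp, _, hpx⟩ := exists_root_poly (K := K) J hJ g x₀ hx₀ n H x
      (Algebra.subset_adjoin hx)
    exact ⟨p, hp, hpx⟩
  set E : IntermediateField K L := IntermediateField.adjoin K (Set.range g) with hE
  have hEsub : E.toSubalgebra = Algebra.adjoin K (Set.range g) :=
    IntermediateField.adjoin_toSubalgebra_of_isAlgebraic halg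
  have : FiniteDimensional K E :=
    IntermediateField.finiteDimensional_adjoin fun x hx => (halg x hx).isIntegral
  obtain ⟨α, hα⟩ := Field.exists_primitive_element K E
  have hfin : Module.finrank K E ≤ n := by
    rw [← (Field.primitive_element_iff_minpoly_natDegree_eq K α).mp hα]
    have hmem : (α : L) ∈ Algebra.adjoin K (Set.range g) := by
      rw [← hEsub]; exact α.2
    obtain ⟨p, hp, hpn, hpx⟩ := exists_root_poly (K := K) J hJ g x₀ hx₀ n H (α : L) hmem
    have hpα : Polynomial.aeval α p = 0 :=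
      (Polynomial.aeval_algebraMap_eq_zero_iff L α p).mp hpx
    exact (Polynomial.natDegree_le_of_dvd (minpoly.dvd K α hpα) hp).trans hpn
  have hle : IntermediateField.adjoin k (Set.range g) ≤ E.restrictScalars k := by
    rw [IntermediateField.adjoin_le_iff]
    intro x hx
    exact IntermediateField.subset_adjoin K _ hx
  have hv : ∀ i, (Fin.cons f M : Fin (n + 1) → L) i ∈ E := by
    intro i
    refine Fin.cases ?_ (fun r => ?_) i
    · exact hle hf
    · exact hle (hM r)
  have hdep : ¬ LinearIndependent K (Fin.cons f M : Fin (n + 1) → L) := by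
    intro hli
    have hli' : LinearIndependent K (fun i => (⟨(Fin.cons f M : Fin (n + 1) → L) i, hv i⟩ : E)) := by
      apply LinearIndependent.of_comp E.val.toLinearMap
      exact hli
    have := hli'.fintype_card_le_finrank
    rw [Fintype.card_fin] at this
    omega
  rw [← LinearIndependent.iff_fractionRing (Polynomial k) K,
    Fintype.not_linearIndependent_iff] at hdep
  obtain ⟨c, hc, i, hi⟩ := hdep
  rw [Fin.sum_univ_succ] at hc
  simp only [Fin.cons_zero, Fin.cons_succ, Algebra.smul_def, hJ] at hc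
  refine ⟨c 0, fun r => - c r.succ, ?_, ?_⟩
  · intro h0
    rw [h0, map_zero, zero_mul, zero_add] at hc
    have h1 := hind _ hc
    refine Fin.cases ?_ (fun r => ?_) i hi
    · exact fun h => h h0
    · exact fun h => h (congrFun h1 r)
  · rw [eq_comm, ← sub_eq_zero, ← neg_eq_zero, ← hc]
    simp only [map_neg, neg_mul, Finset.sum_neg_distrib]
    ring

end Abstract

theorem span_abstract {k L σ : Type*} [Field k] [CharZero k] [Field L] [Algebra k L] [Finite σ]
    (J : L) (hJ : Transcendental k J)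
    (g : σ → L) (x₀ : σ) (hx₀ : g x₀ = J) (n : ℕ)
    (H : ∀ U : MvPolynomial σ k, ∃ c : Fin (n + 1) → Polynomial k, c ≠ 0 ∧
      ∑ i, Polynomial.aeval J (c i) * (MvPolynomial.aeval g U) ^ (i : ℕ) = 0)
    (M : Fin n → L) (hM : ∀ r, M r ∈ IntermediateField.adjoin k (Set.range g))
    (hind : ∀ c : Fin n → Polynomial k, ∑ r, Polynomial.aeval J (c r) * M r = 0 → c = 0)
    (f : L) (hf : f ∈ IntermediateField.adjoin k (Set.range g)) :
    ∃ (s : Polynomial k) (a : Fin n → Polynomial k), s ≠ 0 ∧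
      Polynomial.aeval J s * f = ∑ r, Polynomial.aeval J (a r) * M r := by
  let _ : Algebra (Polynomial k) L := (Polynomial.aeval J).toRingHom.toAlgebra
  have hinj : Function.Injective (algebraMap (Polynomial k) L) :=
    transcendental_iff_injective.mp hJ
  have : FaithfulSMul (Polynomial k) L := (faithfulSMul_iff_algebraMap_injective _ _).mpr hinj
  let _ : Algebra (FractionRing (Polynomial k)) L := FractionRing.liftAlgebra _ _
  have : IsScalarTower (Polynomial k) (FractionRing (Polynomial k)) L :=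
    FractionRing.isScalarTower_liftAlgebra _ _
  have : IsScalarTower k (Polynomial k) L :=
    IsScalarTower.of_algebraMap_eq (fun c => (Polynomial.aeval_C J c).symm)
  have : IsScalarTower k (FractionRing (Polynomial k)) L := inferInstance
  have : CharZero (FractionRing (Polynomial k)) := inferInstance
  exact span_aux (FractionRing (Polynomial k)) J (fun _ => rfl) g x₀ hx₀ n H M hM hind f hf

end Upper

namespace Upper

theorem aeval_Jt (N : ℕ) [NeZero N] (p : Polynomial ℂ) :
    Polynomial.aeval (Jt ℂ N) p = qExp ℂ N (Polynomial.aeval (jqModC ℂ) p) := by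
  rw [Jt, qExp_eq]
  exact Polynomial.aeval_algHom_apply (qExpandAlgHomC ℂ N) (jqModC ℂ) p

/-- every polynomial in the generators is a root of a nonzero polynomial of degree `≤ n`
over `ℚ[j]`. -/
theorem exists_relation (N : ℕ) [NeZero N] (ζ : ℂˣ) (hζ : ζ ^ N = 1) (h1 : ModEq ℂ ζ N)
    (U : MvPolynomial (Gen N) ℚ) :
    ∃ c : Fin (Fintype.card (Cos N) + 1) → Polynomial ℚ, c ≠ 0 ∧
      ∑ i, Polynomial.aeval jq (c i) * (MvPolynomial.aeval (gen ℚ N) U) ^ (i : ℕ) = 0 := by
  obtain ⟨P, hP⟩ := h1 (MvPolynomial.map (algebraMap ℚ ℂ) U)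
  set i₀ : Cos N := ((1 : SL(2, ℤ)) : Cos N) with hi₀
  have hrep : rep i₀ ∈ CongruenceSubgroup.Gamma0 N := (rep_mem_Gamma0_iff i₀).mpr rfl
  have hev := ev_of_mem_Gamma0 ζ hζ hrep (MvPolynomial.map (algebraMap ℚ ℂ) U)
  rw [← coeffMap_ev0] at hev
  set Θ : LaurentSeries ℂ := coeffMap (algebraMap ℚ ℂ) (ev0 ℚ N U) with hΘ
  set Q := P.map (Polynomial.aeval (Jt ℂ N)).toRingHom with hQ
  have hdeg : Q.natDegree = Fintype.card (Cos N) := by
    rw [hP, Polynomial.natDegree_finsetProd_X_sub_C_eq_card, Finset.card_univ]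
  have hmonic : Q.Monic := by
    rw [hP]
    exact Polynomial.monic_prod_X_sub_C _ _
  have hroot : Q.eval (qExp ℂ N Θ) = 0 := by
    rw [hP, Polynomial.eval_prod]
    apply Finset.prod_eq_zero (Finset.mem_univ i₀)
    rw [hev]
    simp
  rw [Polynomial.eval_eq_sum_range, hdeg, Finset.sum_range] at hroot
  have hsum : ∑ i : Fin (Fintype.card (Cos N) + 1),
      Polynomial.aeval (jqModC ℂ) (P.coeff i) *
        coeffMap (algebraMap ℚ ℂ) ((ev0 ℚ N U) ^ (i : ℕ)) = 0 := by
    have hinj : Function.Injective (qExp ℂ N) := by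
      rw [qExp_eq]
      exact qExpand_injective N
    apply hinj
    rw [map_zero, ← hroot, map_sum]
    refine Finset.sum_congr rfl fun i _ => ?_
    rw [map_mul, ← aeval_Jt, map_pow, map_pow, hQ, Polynomial.coeff_map]
    rfl
  refine exists_rat_relation (fun i : Fin (Fintype.card (Cos N) + 1) => (ev0 ℚ N U) ^ (i : ℕ))
    (fun i => P.coeff i) ?_ hsum
  intro h0
  have h2 : P.coeff (Fintype.card (Cos N)) = 0 := congrFun h0 (Fin.last _)
  have h3 : Q.coeff (Fintype.card (Cos N)) = 1 := by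
    rw [← hdeg]
    exact hmonic
  rw [hQ, Polynomial.coeff_map, h2, map_zero] at h3
  exact zero_ne_one h3

end Upper

open Upper in
theorem span_of_indep (N : ℕ) [NeZero N] (ζ : ℂˣ) (hζ : ζ ^ N = 1) (h1 : ModEq ℂ ζ N)
    (m : Fin (Fintype.card (Cos N)) → (Gen N →₀ ℕ))
    (hm : ∀ c : Fin (Fintype.card (Cos N)) → Polynomial ℚ,
      ∑ r, Polynomial.aeval jq (c r) * ev0 ℚ N (MvPolynomial.monomial (m r) 1) = 0 → c = 0)
    (f : LaurentSeries ℚ) (hf : f ∈ IntermediateField.adjoin ℚ (Set.range (gen ℚ N))) :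
    ∃ (s : Polynomial ℚ) (a : Fin (Fintype.card (Cos N)) → Polynomial ℚ), s ≠ 0 ∧
      Polynomial.aeval jq s * f =
        ∑ r, Polynomial.aeval jq (a r) * ev0 ℚ N (MvPolynomial.monomial (m r) 1) := by
  have hx₀ : gen ℚ N (false, ⟨1, Nat.one_mem_divisors.mpr (NeZero.ne N)⟩) = jq := by
    simp only [gen, gX, Bool.false_eq_true, if_false]
    rw [qExp_eq, qExpand_one_apply, jqModC_rat]
  refine span_abstract jq (transcendental_jqModC ℚ) (gen ℚ N) _ hx₀ (Fintype.card (Cos N))
    (exists_relation N ζ hζ h1) (fun r => ev0 ℚ N (MvPolynomial.monomial (m r) 1)) ?_ hm f hf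
  intro r
  apply IntermediateField.algebra_adjoin_le_adjoin ℚ (Set.range (gen ℚ N))
  rw [Algebra.adjoin_range_eq_range_aeval]
  exact ⟨_, rfl⟩

namespace Upper

/-- evaluation of an integral polynomial at `j`. -/
def evZ (R : Type*) [CommRing R] (p : Polynomial ℤ) : LaurentSeries R :=
  Polynomial.eval₂ (Int.castRingHom (LaurentSeries R)) (jqModC R) p

theorem coeffMap_evZ {R S : Type*} [CommRing R] [CommRing S] (f : R →+* S) (p : Polynomial ℤ) :
    coeffMap f (evZ R p) = evZ S p := by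
  rw [evZ, Polynomial.hom_eval₂, coeffMap_jqModC,
    RingHom.ext_int ((coeffMap f).comp (Int.castRingHom (LaurentSeries R)))
      (Int.castRingHom (LaurentSeries S))]
  rfl

theorem aeval_map_intCast (K : Type*) [Field K] (p : Polynomial ℤ) :
    Polynomial.aeval (jqModC K) (p.map (Int.castRingHom K)) = evZ K p := by
  rw [Polynomial.aeval_def, Polynomial.eval₂_map,
    RingHom.ext_int ((algebraMap K (LaurentSeries K)).comp (Int.castRingHom K))
      (Int.castRingHom (LaurentSeries K))]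
  rfl

theorem incI_injective (ℓ : ℕ) : Function.Injective (incI ℓ) := by
  intro a b hab
  refine HahnSeries.ext (funext fun n => ?_)
  have := congrArg (fun s => HahnSeries.coeff s n) hab
  simp only [incI, coeffMap_coeff] at this
  exact Subtype.ext this

theorem step (ℓ : ℕ) [Fact ℓ.Prime] {ι : Type*} [Fintype ι]
    (b : ι → LaurentSeries (Zl ℓ))
    (h : ∀ c : ι → Polynomial (ZMod ℓ),
      ∑ r, Polynomial.aeval (jqModC (ZMod ℓ)) (c r) * redI ℓ (b r) = 0 → c = 0)
    (c : ι → Polynomial ℤ) (hc : ∑ r, evZ ℚ (c r) * incI ℓ (b r) = 0) :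
    ∃ c' : ι → Polynomial ℤ, (∀ r, c r = Polynomial.C (ℓ : ℤ) * c' r) ∧
      ∑ r, evZ ℚ (c' r) * incI ℓ (b r) = 0 := by
  have h1 : ∑ r, evZ (Zl ℓ) (c r) * b r = 0 := by
    apply incI_injective ℓ
    rw [map_sum, map_zero, ← hc]
    refine Finset.sum_congr rfl fun r _ => ?_
    rw [map_mul, incI, coeffMap_evZ]
  have h2 : ∑ r, Polynomial.aeval (jqModC (ZMod ℓ)) ((c r).map (Int.castRingHom (ZMod ℓ))) *
      redI ℓ (b r) = 0 := by
    have := congrArg (redI ℓ) h1
    rw [map_sum, map_zero] at this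
    rw [← this]
    refine Finset.sum_congr rfl fun r _ => ?_
    rw [map_mul, aeval_map_intCast, redI, coeffMap_evZ]
  have h3 := h _ h2
  have h4 : ∀ r, Polynomial.C (ℓ : ℤ) ∣ c r := by
    intro r
    rw [Polynomial.C_dvd_iff_dvd_coeff]
    intro n
    have := congrArg (fun p => Polynomial.coeff p n) (congrFun h3 r)
    simp only [Polynomial.coeff_map, Pi.zero_apply, Polynomial.coeff_zero, eq_intCast] at this
    exact (ZMod.intCast_zmod_eq_zero_iff_dvd _ _).mp this
  choose c' hc' using h4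
  refine ⟨c', hc', ?_⟩
  have hℓ : ((ℓ : ℤ) : LaurentSeries ℚ) ≠ 0 := by
    have h0 : (ℓ : ℤ) ≠ 0 := by exact_mod_cast (Fact.out : ℓ.Prime).ne_zero
    have := algebraRat.charZero (LaurentSeries ℚ)
    exact Int.cast_ne_zero.mpr h0
  apply mul_left_cancel₀ hℓ
  rw [mul_zero, ← hc, Finset.mul_sum]
  refine Finset.sum_congr rfl fun r _ => ?_
  rw [hc' r, evZ, evZ, Polynomial.eval₂_mul, Polynomial.eval₂_C, mul_assoc]
  rfl

theorem pow_dvd (ℓ : ℕ) [Fact ℓ.Prime] {ι : Type*} [Fintype ι]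
    (b : ι → LaurentSeries (Zl ℓ))
    (h : ∀ c : ι → Polynomial (ZMod ℓ),
      ∑ r, Polynomial.aeval (jqModC (ZMod ℓ)) (c r) * redI ℓ (b r) = 0 → c = 0) (k : ℕ) :
    ∀ (c : ι → Polynomial ℤ) (_ : ∑ r, evZ ℚ (c r) * incI ℓ (b r) = 0) (r : ι) (n : ℕ),
      (ℓ : ℤ) ^ k ∣ (c r).coeff n := by
  induction k with
  | zero => intro c _ r n; simp
  | succ k ih =>
    intro c hc r n
    obtain ⟨c', h1, h2⟩ := step ℓ b h c hc
    rw [h1 r, Polynomial.coeff_C_mul, pow_succ, mul_comm]
    exact mul_dvd_mul_left _ (ih c' h2 r n)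

theorem int_zero (ℓ : ℕ) [Fact ℓ.Prime] {ι : Type*} [Fintype ι]
    (b : ι → LaurentSeries (Zl ℓ))
    (h : ∀ c : ι → Polynomial (ZMod ℓ),
      ∑ r, Polynomial.aeval (jqModC (ZMod ℓ)) (c r) * redI ℓ (b r) = 0 → c = 0)
    (c : ι → Polynomial ℤ) (hc : ∑ r, evZ ℚ (c r) * incI ℓ (b r) = 0) : c = 0 := by
  funext r
  ext n
  simp only [Pi.zero_apply, Polynomial.coeff_zero]
  by_contra hne
  have h1 := pow_dvd ℓ b h ((c r).coeff n).natAbs c hc r n
  have h2 := Int.natAbs_dvd_natAbs.mpr h1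
  have h3 := Nat.le_of_dvd (Int.natAbs_pos.mpr hne) h2
  rw [Int.natAbs_pow, Int.natAbs_natCast] at h3
  exact absurd h3 (not_le.mpr (Nat.lt_pow_self (Fact.out : ℓ.Prime).one_lt))

/-- common denominator of a finite family of rational polynomials. -/
theorem exists_int_multiple {ι : Type*} [Fintype ι] (c : ι → Polynomial ℚ) :
    ∃ (D : ℤ) (c' : ι → Polynomial ℤ), D ≠ 0 ∧
      ∀ r, (c' r).map (Int.castRingHom ℚ) = Polynomial.C (D : ℚ) * c r := by
  classical
  obtain ⟨D, hD⟩ := IsLocalization.exist_integer_multiples (nonZeroDivisors ℤ)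
    (Finset.univ.sigma fun r : ι => (c r).support) (fun x : (Σ _ : ι, ℕ) => (c x.1).coeff x.2)
  have h1 : ∀ r, Polynomial.C ((D : ℤ) : ℚ) * c r ∈ Polynomial.lifts (Int.castRingHom ℚ) := by
    intro r
    rw [Polynomial.lifts_iff_coeff_lifts]
    intro n
    rw [Polynomial.coeff_C_mul]
    by_cases hn : n ∈ (c r).support
    · obtain ⟨z, hz⟩ := hD ⟨r, n⟩ (by simp only [Finset.mem_sigma, Finset.mem_univ, true_and]; exact hn)
      refine ⟨z, ?_⟩
      have h0 : (Int.castRingHom ℚ) z = algebraMap ℤ ℚ z := rfl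
      rw [h0, hz]
      simp [Algebra.smul_def]
    · rw [Polynomial.notMem_support_iff.mp hn]
      exact ⟨0, by simp⟩
  choose c' hc' using h1
  exact ⟨D, c', nonZeroDivisors.ne_zero D.2, hc'⟩

end Upper

open Upper in
/-- independence mod `ℓ` implies independence over `ℚ`. -/
theorem indep_rat_of_indep_mod (ℓ : ℕ) [Fact ℓ.Prime] {ι : Type*} [Fintype ι]
    (b : ι → LaurentSeries (Zl ℓ))
    (h : ∀ c : ι → Polynomial (ZMod ℓ),
      ∑ r, Polynomial.aeval (jqModC (ZMod ℓ)) (c r) * redI ℓ (b r) = 0 → c = 0)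
    (c : ι → Polynomial ℚ) (hc : ∑ r, Polynomial.aeval jq (c r) * incI ℓ (b r) = 0) : c = 0 := by
  obtain ⟨D, c', hD, hc'⟩ := exists_int_multiple c
  have h1 : ∑ r, evZ ℚ (c' r) * incI ℓ (b r) = 0 := by
    have : ∑ r, evZ ℚ (c' r) * incI ℓ (b r) =
        algebraMap ℚ (LaurentSeries ℚ) (D : ℚ) * ∑ r, Polynomial.aeval jq (c r) * incI ℓ (b r) := by
      rw [Finset.mul_sum]
      refine Finset.sum_congr rfl fun r _ => ?_
      rw [← aeval_map_intCast, hc' r, map_mul, Polynomial.aeval_C, jqModC_rat, mul_assoc]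
    rw [this, hc, mul_zero]
  have h2 := int_zero ℓ b h c' h1
  funext r
  have h3 := hc' r
  rw [h2] at h3
  simp only [Pi.zero_apply, Polynomial.map_zero] at h3
  have hD' : Polynomial.C (D : ℚ) ≠ 0 := by
    rw [Ne, Polynomial.C_eq_zero]
    exact_mod_cast hD
  exact (mul_eq_zero.mp h3.symm).resolve_left hD'

end Fermat.Agent.S28
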