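import Mathlib

/-!
# S28, package D-GCD: the gcd-square matrix is invertible (in the form needed)
-/

set_option autoImplicit false

namespace Fermat.Agent.S28

namespace GcdMatrix

open Finset

/-- Jordan's totient `J₂`, written as a sum over pairs with given lcm. -/
def J (g : ℕ) : ℤ :=
  ∑ p ∈ (g.divisors ×ˢ g.divisors).filter (fun p => Nat.lcm p.1 p.2 = g),
    ((Nat.totient p.1 : ℤ) * (Nat.totient p.2 : ℤ))

lemma J_pos {g : ℕ} (hg : g ≠ 0) : 0 < J g := by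
  unfold J
  have hmem : (g, g) ∈ (g.divisors ×ˢ g.divisors).filter (fun p => Nat.lcm p.1 p.2 = g) := by
    simp [hg]
  refine lt_of_lt_of_le ?_ (Finset.single_le_sum (f := fun p : ℕ × ℕ =>
    ((Nat.totient p.1 : ℤ) * (Nat.totient p.2 : ℤ))) (fun p _ => by positivity) hmem)
  have : 0 < Nat.totient g := Nat.totient_pos.2 (Nat.pos_of_ne_zero hg)
  positivity

lemma filter_eq {m g : ℕ} (hm : m ≠ 0) (hg : g ∣ m) :
    (m.divisors ×ˢ m.divisors).filter (fun p => Nat.lcm p.1 p.2 = g) =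
      (g.divisors ×ˢ g.divisors).filter (fun p => Nat.lcm p.1 p.2 = g) := by
  have hg0 : g ≠ 0 := fun h => hm (by rw [h] at hg; exact Nat.eq_zero_of_zero_dvd hg)
  ext ⟨a, b⟩
  simp only [mem_filter, mem_product, Nat.mem_divisors]
  constructor
  · rintro ⟨-, h⟩
    exact ⟨⟨⟨h ▸ Nat.dvd_lcm_left a b, hg0⟩, ⟨h ▸ Nat.dvd_lcm_right a b, hg0⟩⟩, h⟩
  · rintro ⟨⟨⟨ha, -⟩, ⟨hb, -⟩⟩, h⟩
    exact ⟨⟨⟨ha.trans hg, hm⟩, ⟨hb.trans hg, hm⟩⟩, h⟩

lemma sum_J {m : ℕ} (hm : m ≠ 0) : ∑ g ∈ m.divisors, J g = (m : ℤ) ^ 2 := by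
  have h1 : ∑ g ∈ m.divisors, J g = ∑ g ∈ m.divisors,
      ∑ p ∈ (m.divisors ×ˢ m.divisors).filter (fun p => Nat.lcm p.1 p.2 = g),
        ((Nat.totient p.1 : ℤ) * (Nat.totient p.2 : ℤ)) := by
    refine Finset.sum_congr rfl fun g hg => ?_
    rw [filter_eq hm (Nat.dvd_of_mem_divisors hg)]
    rfl
  rw [h1, Finset.sum_fiberwise_of_maps_to (fun p hp => by
    simp only [mem_product, Nat.mem_divisors] at hp
    exact Nat.mem_divisors.2 ⟨Nat.lcm_dvd hp.1.1 hp.2.1, hm⟩), Finset.sum_product]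
  simp only [← Finset.mul_sum, ← Finset.sum_mul]
  have h2 : ∑ i ∈ m.divisors, (Nat.totient i : ℤ) = m := by
    exact_mod_cast Nat.sum_totient m
  rw [h2]
  ring

lemma gcd_sq (d e : ℕ) (hd : d ≠ 0) :
    ((Nat.gcd d e : ℤ)) ^ 2 = ∑ f ∈ d.divisors, if f ∣ e then J f else 0 := by
  have hg : Nat.gcd d e ≠ 0 := Nat.gcd_ne_zero_left hd
  rw [← sum_J hg, ← Finset.sum_filter]
  refine Finset.sum_congr ?_ fun _ _ => rfl
  ext f
  simp only [Nat.mem_divisors, mem_filter, Nat.dvd_gcd_iff]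
  tauto

lemma key {I : Type*} (δ : I → ℕ) (S : Finset I) (d : ℕ) (hd : d ≠ 0) :
    ∑ i ∈ S, ((Nat.gcd d (δ i) : ℤ)) ^ 2 =
      ∑ f ∈ d.divisors, J f * ((S.filter (fun i => f ∣ δ i)).card : ℤ) := by
  simp_rw [gcd_sq d _ hd]
  rw [Finset.sum_comm]
  refine Finset.sum_congr rfl fun f _ => ?_
  rw [← Finset.sum_filter, Finset.sum_const, nsmul_eq_mul, mul_comm]

lemma eq_zero_of_sums (N : ℕ) (hN : N ≠ 0) (X : ℕ → ℤ)
    (h : ∀ d, d ∣ N → ∑ f ∈ d.divisors, J f * X f = 0) : ∀ d, d ∣ N → X d = 0 := by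
  intro d
  induction d using Nat.strong_induction_on with
  | _ d ih =>
    intro hd
    have hd0 : d ≠ 0 := fun h0 => hN (by rw [h0] at hd; exact Nat.eq_zero_of_zero_dvd hd)
    have h1 := h d hd
    rw [← Nat.cons_self_properDivisors hd0, Finset.sum_cons, add_comm] at h1
    have h2 : ∑ f ∈ d.properDivisors, J f * X f = 0 := by
      refine Finset.sum_eq_zero fun f hf => ?_
      rw [Nat.mem_properDivisors] at hf
      rw [ih f hf.2 (hf.1.trans hd), mul_zero]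
    rw [h2, zero_add] at h1
    exact (mul_eq_zero.1 h1).resolve_left (J_pos hd0).ne'

end GcdMatrix

open GcdMatrix

theorem eq_univ_of_gcd_sums (N : ℕ) (hN : N ≠ 0) {I : Type*} [Fintype I] [DecidableEq I]
    (δ : I → ℕ) (hδ : ∀ i, δ i ∣ N) (C : Finset I) (i₀ : I) (h₀ : i₀ ∈ C) (hi₀ : δ i₀ = N)
    (huniq : ∀ i, δ i = N → i = i₀)
    (hall : ∀ d, d ∣ N → ∑ i, ((Nat.gcd d (δ i) : ℤ)) ^ 2 = Fintype.card I * d)
    (hC : ∀ d, d ∣ N → ∑ i ∈ C, ((Nat.gcd d (δ i) : ℤ)) ^ 2 = C.card * d) :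
    C = Finset.univ := by
  classical
  have hne : ∀ d, d ∣ N → d ≠ 0 := fun d hd h0 =>
    hN (by rw [h0] at hd; exact Nat.eq_zero_of_zero_dvd hd)
  let X : ℕ → ℤ := fun f => (Fintype.card I : ℤ) * ((C.filter (fun i => f ∣ δ i)).card : ℤ) -
    (C.card : ℤ) * (((Finset.univ : Finset I).filter (fun i => f ∣ δ i)).card : ℤ)
  have hX : ∀ d, d ∣ N → ∑ f ∈ d.divisors, J f * X f = 0 := by
    intro d hd
    have h1 := hall d hd
    have h2 := hC d hd
    rw [key δ _ d (hne d hd)] at h1 h2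
    have h3 : ∑ f ∈ d.divisors, J f * X f =
        (Fintype.card I : ℤ) * ∑ f ∈ d.divisors, J f * ((C.filter (fun i => f ∣ δ i)).card : ℤ) -
        (C.card : ℤ) * ∑ f ∈ d.divisors,
          J f * (((Finset.univ : Finset I).filter (fun i => f ∣ δ i)).card : ℤ) := by
      rw [Finset.mul_sum, Finset.mul_sum, ← Finset.sum_sub_distrib]
      refine Finset.sum_congr rfl fun f _ => ?_
      simp only [X]
      ring
    rw [h3, h1, h2]
    ring
  have hXN := eq_zero_of_sums N hN X hX N dvd_rfl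
  have hiff : ∀ i, N ∣ δ i ↔ i = i₀ := fun i =>
    ⟨fun h => huniq i (Nat.dvd_antisymm (hδ i) h), fun h => by rw [h, hi₀]⟩
  have hA : (Finset.univ : Finset I).filter (fun i => N ∣ δ i) = {i₀} := by
    ext i; simp [hiff]
  have hB : C.filter (fun i => N ∣ δ i) = {i₀} := by
    ext i
    simp only [Finset.mem_filter, hiff, Finset.mem_singleton]
    exact ⟨fun h => h.2, fun h => ⟨h ▸ h₀, h⟩⟩
  simp only [X, hA, hB, Finset.card_singleton, Nat.cast_one, mul_one] at hXN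
  apply Finset.eq_univ_of_card
  have : (Fintype.card I : ℤ) = C.card := by linarith
  exact_mod_cast this.symm

end Fermat.Agent.S28
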