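import Fermat.Agent.S28.Irr
import Fermat.Agent.S28.GcdMatrix
import Fermat.Agent.S28.Ord

/-!
# S28, degree block: the lower bound in characteristic `ℓ`
-/

set_option autoImplicit false

noncomputable section

namespace Fermat.Agent.S28

open ModularCurve HahnSeries
open scoped MatrixGroups

namespace DegL

theorem order_prod {k ι : Type*} [Field k] (s : Finset ι) (f : ι → LaurentSeries k)
    (hf : ∀ i ∈ s, f i ≠ 0) : (∏ i ∈ s, f i).order = ∑ i ∈ s, (f i).order := by
  classical
  induction s using Finset.induction_on with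
  | empty => simp
  | insert a s ha ih =>
    rw [Finset.prod_insert ha, Finset.sum_insert ha,
      HahnSeries.order_mul (hf a (Finset.mem_insert_self a s))
        (Finset.prod_ne_zero_iff.mpr fun i hi => hf i (Finset.mem_insert_of_mem hi)),
      ih fun i hi => hf i (Finset.mem_insert_of_mem hi)]

theorem qExp_algebraMap {k : Type*} [Field k] (N : ℕ) (c : k) :
    qExp k N (algebraMap k (LaurentSeries k) c) = algebraMap k (LaurentSeries k) c := by
  rw [algebraMap_laurentSeries_eq_single]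
  by_cases h : N = 0
  · simp [qExp, h]
  · have : NeZero N := ⟨h⟩
    rw [qExp_eq, qExpand_single, mul_zero]

theorem qExp_aeval {k : Type*} [Field k] (N : ℕ) (x : LaurentSeries k) (c : Polynomial k) :
    qExp k N (Polynomial.aeval x c) = Polynomial.aeval (qExp k N x) c := by
  rw [Polynomial.aeval_def, Polynomial.aeval_def, Polynomial.hom_eval₂]
  congr 1
  ext c
  simp [qExp_algebraMap]

/-- from "the product of the `cY` over `s` is constant" to the gcd-sum identity. -/
theorem gcd_sum_of_prod_const {k : Type*} [Field k] (ζ : kˣ) {N : ℕ} [NeZero N] (hN : (N : k) ≠ 0)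
    (s : Finset (Cos N)) {d : ℕ} (hd : d ∣ N) (c : k)
    (h : ∏ i ∈ s, cY k ζ N (rep i) d = HahnSeries.C c) :
    ∑ i ∈ s, ((Nat.gcd d (Nat.gcd N ((rep i) 1 0).natAbs) : ℤ)) ^ 2 = s.card * d := by
  have h1 := order_prod s (fun i => cY k ζ N (rep i) d) (fun i _ => cY_ne_zero ζ hN (rep i) hd)
  rw [h, HahnSeries.order_C] at h1
  simp only [order_cY ζ hN _ hd, mOf] at h1
  obtain ⟨e, rfl⟩ := hd
  have hd0 : d ≠ 0 := fun h0 => NeZero.ne (d * e) (by simp [h0])
  have he0 : e ≠ 0 := fun h0 => NeZero.ne (d * e) (by simp [h0])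
  have hde : d * e / d = e := Nat.mul_div_cancel_left e (Nat.pos_of_ne_zero hd0)
  rw [hde, Finset.sum_sub_distrib] at h1
  simp only [Finset.sum_const, nsmul_eq_mul] at h1
  have h2 : ∀ i : Cos (d * e), aOf (rep i) d
      = Nat.gcd d (Nat.gcd (d * e) ((rep i) 1 0).natAbs) :=
    fun i => aOf_eq_of_dvd (rep i) (Dvd.intro e rfl)
  have h3 : (∑ i ∈ s, ((Nat.gcd d (Nat.gcd (d * e) ((rep i) 1 0).natAbs) : ℤ)) ^ 2) * e
      = s.card * d * e := by
    rw [Finset.sum_mul]
    have : ∑ x ∈ s, ((aOf (rep x) d ^ 2 * e : ℕ) : ℤ) = s.card * ((d * e : ℕ) : ℤ) := by linarith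
    rw [mul_assoc, ← Nat.cast_mul (α := ℤ) d e, ← this]
    refine Finset.sum_congr rfl fun i _ => ?_
    rw [h2 i]
    push_cast
    ring
  exact mul_right_cancel₀ (by exact_mod_cast he0) h3

end DegL

open DegL in
theorem degL {k : Type*} [Field k] [Infinite k] (ζ : kˣ) {N : ℕ} [NeZero N]
    (hζ : IsPrimitiveRoot ζ N) (hN : (N : k) ≠ 0) (h1 : ModEq k ζ N) (h2 : UnitEq k ζ N) :
    ∃ m : Fin (Fintype.card (Cos N)) → (Gen N →₀ ℕ),
      ∀ c : Fin (Fintype.card (Cos N)) → Polynomial k,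
        ∑ r, Polynomial.aeval (jqModC k) (c r) * ev0 k N (MvPolynomial.monomial (m r) 1) = 0 →
          c = 0 := by
  classical
  set i₀ : Cos N := ((1 : SL(2, ℤ)) : Cos N) with hi₀
  obtain ⟨C, hC0, hunit, m, hm⟩ := irr_abstract (Jt k N) (transcendental_Jt k N)
    (fun i : Cos N => ev k ζ N (rep i)) (ev_injective ζ hζ) i₀ h1
  have hevY : ∀ (i : Cos N) (d : ℕ) (hd : d ∈ N.divisors),
      ev k ζ N (rep i) (MvPolynomial.X (true, ⟨d, hd⟩)) = cY k ζ N (rep i) d := by
    intro i d hd
    simp [ev, cgen]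
  have hCu : C = Finset.univ := by
    refine eq_univ_of_gcd_sums N (NeZero.ne N)
      (fun i : Cos N => Nat.gcd N ((rep i) 1 0).natAbs) (fun i => Nat.gcd_dvd_left _ _) C i₀ hC0
      ((gcd_rep_eq_iff i₀).mpr rfl) (fun i hi => (gcd_rep_eq_iff i).mp hi) ?_ ?_
    · intro d hd
      obtain ⟨c, hc⟩ := h2 d hd
      have := gcd_sum_of_prod_const ζ hN Finset.univ hd c hc
      simpa using this
    · intro d hd
      obtain ⟨c, hc⟩ := h2 d hd
      have hdm : d ∈ N.divisors := Nat.mem_divisors.mpr ⟨hd, NeZero.ne N⟩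
      have hc0 : c ≠ 0 := by
        rintro rfl
        rw [map_zero, Finset.prod_eq_zero_iff] at hc
        obtain ⟨i, -, hi⟩ := hc
        exact cY_ne_zero ζ hN (rep i) hd hi
      obtain ⟨c', -, hc'⟩ := hunit (MvPolynomial.X (true, ⟨d, hdm⟩))
        ⟨c, hc0, by simp only [hevY]; rw [hc, algebraMap_laurentSeries_eq_single]; rfl⟩
      simp only [hevY] at hc'
      exact gcd_sum_of_prod_const ζ hN C hd c' (by rw [hc', algebraMap_laurentSeries_eq_single]; rfl)
  subst hCu
  have hcard : (Finset.univ : Finset (Cos N)).card = Fintype.card (Cos N) := Finset.card_univ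
  have hmem : rep i₀ ∈ CongruenceSubgroup.Gamma0 N := (rep_mem_Gamma0_iff i₀).mpr rfl
  have hζN : ζ ^ N = 1 := hζ.pow_eq_one
  refine ⟨fun r => m (Fin.cast hcard.symm r), fun c hc => ?_⟩
  have key := hm (fun r => c (Fin.cast hcard r)) ?_
  · funext r
    have := congrFun key (Fin.cast hcard.symm r)
    simpa using this
  · have h3 := congrArg (qExp k N) hc
    rw [map_zero, map_sum] at h3
    rw [← h3]
    refine (Fintype.sum_equiv (finCongr hcard) _ _ fun r => ?_)
    rw [map_mul, ev_of_mem_Gamma0 ζ hζN hmem]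
    congr 1
    rw [qExp_aeval]
    rfl
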