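import Fermat.Agent.S28.ModEqC
import Fermat.Agent.S28.DegL
import Fermat.Agent.S28.Integral
import Fermat.Agent.S28.Upper

/-!
# S28, degree block: final statement
-/

set_option autoImplicit false

noncomputable section

namespace Fermat.Agent.S28

open ModularCurve HahnSeries
open scoped MatrixGroups

namespace Degree

theorem isPrimitiveRoot_zetaC (N : ℕ) [NeZero N] : IsPrimitiveRoot (zetaC N) N := by
  rw [← IsPrimitiveRoot.coe_units_iff]
  exact Complex.isPrimitiveRoot_exp N (NeZero.ne N)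

theorem coeffMap_algebraMap' {k k' : Type*} [Field k] [Field k'] (φ : k →+* k') (c : k) :
    coeffMap φ (algebraMap k (LaurentSeries k) c) = algebraMap k' (LaurentSeries k') (φ c) := by
  rw [algebraMap_laurentSeries_eq_single, algebraMap_laurentSeries_eq_single, coeffMap_single]

theorem coeffMap_aeval {k k' : Type*} [Field k] [Field k'] (φ : k →+* k') (x : LaurentSeries k)
    (c : Polynomial k) :
    coeffMap φ (Polynomial.aeval x c) = Polynomial.aeval (coeffMap φ x) (c.map φ) := by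
  rw [Polynomial.aeval_def, Polynomial.aeval_def, Polynomial.hom_eval₂, Polynomial.eval₂_map]
  congr 1
  ext c
  simp [coeffMap_algebraMap']

theorem ev0_mem (N : ℕ) (U : MvPolynomial (Gen N) ℚ) :
    ev0 ℚ N U ∈ IntermediateField.adjoin ℚ (Set.range (gen ℚ N)) := by
  induction U using MvPolynomial.induction_on with
  | C a =>
    rw [ev0, MvPolynomial.algHom_C]
    exact IntermediateField.algebraMap_mem _ a
  | add p q hp hq =>
    rw [map_add]
    exact add_mem hp hq
  | mul_X p x hp =>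
    rw [map_mul]
    refine mul_mem hp ?_
    rw [ev0, MvPolynomial.aeval_X]
    exact IntermediateField.subset_adjoin _ _ ⟨x, rfl⟩

end Degree

open Degree

theorem degree_block (N ℓ : ℕ) [NeZero N] [Fact ℓ.Prime] (hℓN : ¬ ℓ ∣ N) :
    ∃ (F' : IntermediateField ℚ (LaurentSeries ℚ)) (n : ℕ) (b : Fin n → LaurentSeries (Zl ℓ)),
      modularFunctionFieldFull N ≤ F' ∧
      (∀ i, incI ℓ (b i) ∈ F') ∧
      (∀ i, IsIntegral (Algebra.adjoin (Zl ℓ) {jq}) (incI ℓ (b i))) ∧
      (∀ f ∈ F', ∃ (s : Polynomial ℚ) (a : Fin n → Polynomial ℚ), s ≠ 0 ∧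
        Polynomial.aeval jq s * f = ∑ i, Polynomial.aeval jq (a i) * incI ℓ (b i)) ∧
      (∀ c : Fin n → Polynomial (ZMod ℓ),
        ∑ i, Polynomial.aeval (jqModC (ZMod ℓ)) (c i) * redI ℓ (b i) = 0 → c = 0) := by
  have hζ := isPrimitiveRoot_zetaC N
  obtain ⟨k, _, _, _, ζ', hζ', h1', h2'⟩ :=
    exists_resField N ℓ hℓN (zetaC N) hζ (modEq_complex N) (unitEq_complex N)
  have hNk : (N : k) ≠ 0 := by
    rw [Ne, CharP.cast_eq_zero_iff k ℓ N]
    exact hℓN
  obtain ⟨m, hm⟩ := degL ζ' hζ' hNk h1' h2'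
  set b : Fin (Fintype.card (Cos N)) → LaurentSeries (Zl ℓ) :=
    fun r => ev0 (Zl ℓ) N (MvPolynomial.monomial (m r) 1) with hb
  have hinc : ∀ r, incI ℓ (b r) = ev0 ℚ N (MvPolynomial.monomial (m r) 1) := by
    intro r
    rw [hb, incI, coeffMap_ev0, MvPolynomial.map_monomial, map_one]
  have hred : ∀ r, redI ℓ (b r) = ev0 (ZMod ℓ) N (MvPolynomial.monomial (m r) 1) := by
    intro r
    rw [hb, redI, coeffMap_ev0, MvPolynomial.map_monomial, map_one]
  have hindep : ∀ c : Fin (Fintype.card (Cos N)) → Polynomial (ZMod ℓ),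
      ∑ i, Polynomial.aeval (jqModC (ZMod ℓ)) (c i) * redI ℓ (b i) = 0 → c = 0 := by
    intro c hc
    let φ : ZMod ℓ →+* k := ZMod.castHom dvd_rfl k
    have h := congrArg (coeffMap φ) hc
    rw [map_zero, map_sum] at h
    have h' := hm (fun r => (c r).map φ) (by
      rw [← h]
      refine Finset.sum_congr rfl fun r _ => ?_
      rw [map_mul, coeffMap_aeval, coeffMap_jqModC, hred, coeffMap_ev0, MvPolynomial.map_monomial,
        map_one φ])
    funext r
    have := congrFun h' r
    exact (Polynomial.map_eq_zero_iff φ.injective).mp this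
  refine ⟨IntermediateField.adjoin ℚ (Set.range (gen ℚ N)), Fintype.card (Cos N), b, ?_, ?_, ?_,
    ?_, hindep⟩
  · rw [modularFunctionFieldFull, IntermediateField.adjoin_le_iff]
    rintro x ⟨d, hne, hd, rfl⟩
    have hdm : d ∈ N.divisors := Nat.mem_divisors.mpr ⟨hd, NeZero.ne N⟩
    refine IntermediateField.subset_adjoin _ _ ⟨(false, ⟨d, hdm⟩), ?_⟩
    simp only [gen, Bool.false_eq_true, if_false, gX]
    rw [qExp_eq]
    rfl
  · intro i
    rw [hinc]
    exact ev0_mem N _
  · intro i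
    exact isIntegral_ev0 N ℓ hℓN (zetaC N) hζ (modEq_complex N) _
  · intro f hf
    have hmQ : ∀ c : Fin (Fintype.card (Cos N)) → Polynomial ℚ,
        ∑ r, Polynomial.aeval jq (c r) * ev0 ℚ N (MvPolynomial.monomial (m r) 1) = 0 → c = 0 := by
      intro c hc
      refine indep_rat_of_indep_mod ℓ b hindep c ?_
      simpa only [hinc] using hc
    obtain ⟨s, a, hs, ha⟩ := span_of_indep N (zetaC N) hζ.pow_eq_one (modEq_complex N) m hmQ f hf
    exact ⟨s, a, hs, by simpa only [hinc] using ha⟩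

end Fermat.Agent.S28
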