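import Mathlib

set_option autoImplicit false
open Polynomial
noncomputable section
namespace Fermat.Agent.S28

/-- LAM-N: over a normal domain, if `π g` and `s g` are integral with `π` prime not dividing `s`,
then `g` is integral. -/
theorem isIntegral_of_prime_mul {R E : Type*} [CommRing R] [IsDomain R] [IsIntegrallyClosed R]
    [Field E] [Algebra R E] [FaithfulSMul R E] {π s : R} (hπ : Prime π) (hs : ¬ π ∣ s) {g : E}
    (h1 : IsIntegral R (algebraMap R E π * g)) (h2 : IsIntegral R (algebraMap R E s * g)) :
    IsIntegral R g := by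
  have hs0 : s ≠ 0 := fun h => hs (h ▸ dvd_zero π)
  have hπ0 : π ≠ 0 := hπ.ne_zero
  set p := minpoly R (algebraMap R E π * g) with hp
  set q := minpoly R (algebraMap R E s * g) with hq
  have hpm : p.Monic := minpoly.monic h1
  have hqm : q.Monic := minpoly.monic h2
  have e1 : minpoly R (s • (algebraMap R E π * g)) = p.scaleRoots s :=
    IsIntegrallyClosed.minpoly_smul hs0 h1
  have e2 : minpoly R (π • (algebraMap R E s * g)) = q.scaleRoots π :=
    IsIntegrallyClosed.minpoly_smul hπ0 h2
  have e3 : s • (algebraMap R E π * g) = π • (algebraMap R E s * g) := by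
    simp only [Algebra.smul_def]; ring
  have e4 : p.scaleRoots s = q.scaleRoots π := by rw [← e1, ← e2, e3]
  have hdeg : p.natDegree = q.natDegree := by
    have := congrArg natDegree e4
    simpa [natDegree_scaleRoots] using this
  have hdvd : ∀ i, π ^ (p.natDegree - i) ∣ p.coeff i := by
    intro i
    have := congrArg (fun f => f.coeff i) e4
    simp only [coeff_scaleRoots] at this
    apply hπ.pow_dvd_of_dvd_mul_right _ (fun h => hs (hπ.dvd_of_dvd_pow h))
      (b := s ^ (p.natDegree - i))
    rw [this, hdeg]
    exact Dvd.intro_left _ rfl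
  choose c hc using hdvd
  set n := p.natDegree with hn
  -- the descended polynomial
  let r : R[X] := X ^ n + ∑ i ∈ Finset.range n, C (c i) * X ^ i
  have hrm : r.Monic := by
    apply monic_X_pow_add
    apply (degree_sum_le _ _).trans_lt
    apply (Finset.sup_lt_iff (WithBot.bot_lt_coe n)).mpr
    intro i hi
    exact (degree_C_mul_X_pow_le _ _).trans_lt (WithBot.coe_lt_coe.mpr (Finset.mem_range.mp hi))
  refine ⟨r, hrm, ?_⟩
  have hp0 : aeval (algebraMap R E π * g) p = 0 := minpoly.aeval _ _
  have hpe : p = X ^ n + ∑ i ∈ Finset.range n, C (p.coeff i) * X ^ i := by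
    conv_lhs => rw [hpm.as_sum]
  have key : aeval (algebraMap R E π * g) p = algebraMap R E π ^ n * aeval g r := by
    rw [hpe]
    simp only [r, map_add, map_pow, aeval_X, map_sum, map_mul, aeval_C, mul_add, Finset.mul_sum]
    congr 1
    · ring
    · apply Finset.sum_congr rfl
      intro i hi
      have hi' : i ≤ n := (Finset.mem_range.mp hi).le
      rw [hc i, map_mul, map_pow]
      have : algebraMap R E π ^ n = algebraMap R E π ^ (n - i) * algebraMap R E π ^ i := by
        rw [← pow_add, Nat.sub_add_cancel hi']
      rw [this]; ring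
  rw [hp0] at key
  have hπE : algebraMap R E π ≠ 0 := by
    rw [Ne, FaithfulSMul.algebraMap_eq_zero_iff]; exact hπ0
  have := (mul_eq_zero.mp key.symm).resolve_left (pow_ne_zero _ hπE)
  simpa [aeval_def] using this

end Fermat.Agent.S28
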