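import Mathlib
import Fermat.Prelude.Def_ModularCurve_IgusaScheme
import Fermat.Prelude.Def_ModularCurve_X0ModL

/-!
# S28, package SCH : scheme plumbing

The base change of the Igusa scheme is integral as soon as the base changes of the two charts
are domains and the base change of the middle chart is nontrivial.
-/

set_option autoImplicit false

open AlgebraicGeometry CategoryTheory CategoryTheory.Limits ModularCurve ModularCurve.IgusaScheme
open scoped TensorProduct

noncomputable section

namespace Fermat.Agent.S28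

namespace Sch

/-- A space covered by two irreducible open subsets which meet is irreducible. -/
theorem irreducibleSpace_of_two_opens {X : Type*} [TopologicalSpace X] {U V : Set X}
    (hU : IsOpen U) (hUi : IsIrreducible U) (hVi : IsIrreducible V)
    (hUV : (V ∩ U).Nonempty) (hcov : ∀ x, x ∈ U ∨ x ∈ V) : IrreducibleSpace X := by
  have hV : V ⊆ closure U :=
    (subset_closure_inter_of_isPreirreducible_of_isOpen hVi.2 hU hUV).trans
      (closure_mono Set.inter_subset_right)
  have huniv : closure U = Set.univ := by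
    refine Set.eq_univ_of_forall fun x => ?_
    rcases hcov x with h | h
    · exact subset_closure h
    · exact hV h
  have := hUi.closure
  rw [huniv] at this
  exact (irreducibleSpace_def X).2 this

/-- A scheme covered by two integral open subschemes which meet is integral. -/
theorem isIntegral_of_two_charts {Y U V : Scheme.{0}} (u : U ⟶ Y) (v : V ⟶ Y)
    [IsOpenImmersion u] [IsOpenImmersion v] [IsIntegral U] [IsIntegral V]
    (hcov : ∀ y : Y, y ∈ Set.range u ∨ y ∈ Set.range v)
    (hmeet : ∃ y : Y, y ∈ Set.range u ∧ y ∈ Set.range v) : IsIntegral Y := by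
  have : IrreducibleSpace Y := by
    refine irreducibleSpace_of_two_opens (U := Set.range u) (V := Set.range v)
      u.isOpenEmbedding.isOpen_range ?_ ?_ ?_ hcov
    · rw [← Set.image_univ]
      exact (IrreducibleSpace.isIrreducible_univ U).image _ u.continuous.continuousOn
    · rw [← Set.image_univ]
      exact (IrreducibleSpace.isIrreducible_univ V).image _ v.continuous.continuousOn
    · obtain ⟨y, h1, h2⟩ := hmeet
      exact ⟨y, h2, h1⟩
  have : IsReduced Y := by
    have : ∀ y : Y, _root_.IsReduced (Y.presheaf.stalk y) := by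
      intro y
      rcases hcov y with ⟨x, rfl⟩ | ⟨x, rfl⟩
      · exact isReduced_of_injective _
          (asIso (u.stalkMap x)).commRingCatIsoToRingEquiv.injective
      · exact isReduced_of_injective _
          (asIso (v.stalkMap x)).commRingCatIsoToRingEquiv.injective
    exact isReduced_of_isReduced_stalk Y
  exact isIntegral_of_irreducibleSpace_of_isReduced Y

section Chart

variable {X S T : Scheme.{0}} (f : X ⟶ S) (g : T ⟶ S)

/-- The base change of an open chart `c : C ⟶ X` of `X`, as an open subscheme of `X ×[S] T`. -/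
abbrev chartMap {C : Scheme.{0}} (c : C ⟶ X) :
    pullback c (pullback.fst f g) ⟶ pullback f g := pullback.snd c (pullback.fst f g)

theorem mem_range_chartMap {C : Scheme.{0}} (c : C ⟶ X) (y : ↑(pullback f g)) :
    y ∈ Set.range (chartMap f g c) ↔ pullback.fst f g y ∈ Set.range c := by
  rw [chartMap, Scheme.Pullback.range_snd]
  rfl

end Chart

/-- The base change of an affine chart is the spectrum of the tensor product. -/
def chartIso {X : Scheme.{0}} (R A K : Type) [CommRing R] [CommRing A] [CommRing K]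
    [Algebra R A] [Algebra R K] (f : X ⟶ Spec (CommRingCat.of R))
    (c : Spec (CommRingCat.of A) ⟶ X)
    (hc : c ≫ f = Spec.map (CommRingCat.ofHom (algebraMap R A))) :
    pullback c (pullback.fst f (Spec.map (CommRingCat.ofHom (algebraMap R K)))) ≅
      Spec (CommRingCat.of (A ⊗[R] K)) :=
  pullbackRightPullbackFstIso f (Spec.map (CommRingCat.ofHom (algebraMap R K))) c ≪≫
    pullback.congrHom hc rfl ≪≫ pullbackSpecIso R A K

theorem isIntegral_chart {X : Scheme.{0}} (R A K : Type) [CommRing R] [CommRing A] [CommRing K]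
    [Algebra R A] [Algebra R K] (f : X ⟶ Spec (CommRingCat.of R))
    (c : Spec (CommRingCat.of A) ⟶ X)
    (hc : c ≫ f = Spec.map (CommRingCat.ofHom (algebraMap R A)))
    (hdom : IsDomain (A ⊗[R] K)) :
    IsIntegral (pullback c (pullback.fst f (Spec.map (CommRingCat.ofHom (algebraMap R K))))) := by
  have h1 : IsDomain ↑(CommRingCat.of (A ⊗[R] K)) := hdom
  have h2 : IsIntegral (Spec (CommRingCat.of (A ⊗[R] K))) := inferInstance
  have h3 : Nonempty
      ↑(pullback c (pullback.fst f (Spec.map (CommRingCat.ofHom (algebraMap R K))))) :=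
    h2.nonempty.map (chartIso R A K f c hc).inv
  exact isIntegral_of_isOpenImmersion (chartIso R A K f c hc).hom

theorem nonempty_chart {X : Scheme.{0}} (R A K : Type) [CommRing R] [CommRing A] [CommRing K]
    [Algebra R A] [Algebra R K] (f : X ⟶ Spec (CommRingCat.of R))
    (c : Spec (CommRingCat.of A) ⟶ X)
    (hc : c ≫ f = Spec.map (CommRingCat.ofHom (algebraMap R A)))
    (hnt : Nontrivial (A ⊗[R] K)) :
    Nonempty
      ↑(pullback c (pullback.fst f (Spec.map (CommRingCat.ofHom (algebraMap R K))))) := by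
  have h2 : Nonempty ↑(Spec (CommRingCat.of (A ⊗[R] K))) :=
    inferInstanceAs (Nonempty (PrimeSpectrum (A ⊗[R] K)))
  exact h2.map (chartIso R A K f c hc).inv

end Sch

set_option maxHeartbeats 4000000 in
set_option synthInstance.maxHeartbeats 400000 in
theorem isIntegral_pullback_of
    (N : ℕ) [NeZero N] (ℓ : ℕ) [Fact ℓ.Prime]
    (K : Type) [Field K] [Algebra ↥(GaloisRep.ratLocalizedAt ℓ) K]
    (hfin : IsDomain (↥(chartAlgFin N ℓ) ⊗[↥(GaloisRep.ratLocalizedAt ℓ)] K))
    (hinf : IsDomain (↥(chartAlgInf N ℓ) ⊗[↥(GaloisRep.ratLocalizedAt ℓ)] K))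
    (hmid : Nontrivial (↥(chartAlgMid N ℓ) ⊗[↥(GaloisRep.ratLocalizedAt ℓ)] K)) :
    IsIntegral ↑(pullback (igusaTo N ℓ)
      (Spec.map (CommRingCat.ofHom (algebraMap ↥(GaloisRep.ratLocalizedAt ℓ) K)))) := by
  set g := Spec.map (CommRingCat.ofHom (algebraMap ↥(GaloisRep.ratLocalizedAt ℓ) K)) with hg
  have hU : IsIntegral (pullback (ιFin N ℓ) (pullback.fst (igusaTo N ℓ) g)) :=
    Sch.isIntegral_chart _ _ K (igusaTo N ℓ) (ιFin N ℓ) (ιFin_igusaTo N ℓ) hfin
  have hV : IsIntegral (pullback (ιInf N ℓ) (pullback.fst (igusaTo N ℓ) g)) :=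
    Sch.isIntegral_chart _ _ K (igusaTo N ℓ) (ιInf N ℓ) (ιInf_igusaTo N ℓ) hinf
  have hmidc : (fFin N ℓ ≫ ιFin N ℓ) ≫ igusaTo N ℓ =
      Spec.map (CommRingCat.ofHom (algebraMap ↥(GaloisRep.ratLocalizedAt ℓ) (chartAlgMid N ℓ))) := by
    rw [Category.assoc, ιFin_igusaTo, ← Spec.map_comp, ← CommRingCat.ofHom_comp]
    congr 2
  obtain ⟨w⟩ := Sch.nonempty_chart _ _ K (igusaTo N ℓ) (fFin N ℓ ≫ ιFin N ℓ) hmidc hmid
  refine Sch.isIntegral_of_two_charts (Sch.chartMap (igusaTo N ℓ) g (ιFin N ℓ))
    (Sch.chartMap (igusaTo N ℓ) g (ιInf N ℓ)) ?_ ?_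
  · intro y
    rw [Sch.mem_range_chartMap, Sch.mem_range_chartMap]
    exact mem_range_ιFin_or_mem_range_ιInf N ℓ _
  · refine ⟨Sch.chartMap (igusaTo N ℓ) g (fFin N ℓ ≫ ιFin N ℓ) w, ?_, ?_⟩
    · rw [Sch.mem_range_chartMap]
      obtain ⟨x, hx⟩ := (Sch.mem_range_chartMap (igusaTo N ℓ) g (fFin N ℓ ≫ ιFin N ℓ) _).1 ⟨w, rfl⟩
      exact ⟨fFin N ℓ x, by rw [← hx]; rfl⟩
    · rw [Sch.mem_range_chartMap]
      obtain ⟨x, hx⟩ := (Sch.mem_range_chartMap (igusaTo N ℓ) g (fFin N ℓ ≫ ιFin N ℓ) _).1 ⟨w, rfl⟩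
      have hx' : (fInf N ℓ ≫ ιInf N ℓ) x = (fFin N ℓ ≫ ιFin N ℓ) x := by
        rw [glue_condition]
      exact ⟨fInf N ℓ x, by rw [← hx, ← hx']; rfl⟩

end Fermat.Agent.S28
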