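import Fermat.Agent.S28.LamKer
import Fermat.Agent.S28.Scheme

/-!
# S28 : the theorem, given the output of the degree block
-/

set_option autoImplicit false
open AlgebraicGeometry CategoryTheory CategoryTheory.Limits ModularCurve ModularCurve.IgusaScheme
noncomputable section
namespace Fermat.Agent.S28

set_option maxHeartbeats 4000000 in
set_option synthInstance.maxHeartbeats 400000 in
theorem isIntegral_pullback_of_block
    (N : ℕ) [NeZero N] (ℓ : ℕ) [Fact ℓ.Prime] (D : Lam.Block N ℓ)
    (K : Type) [Field K] [CharP K ℓ] [Algebra ↥(GaloisRep.ratLocalizedAt ℓ) K] :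
    IsIntegral ↑(pullback (igusaTo N ℓ)
      (Spec.map (CommRingCat.ofHom (algebraMap ↥(GaloisRep.ratLocalizedAt ℓ) K)))) :=
  isIntegral_pullback_of N ℓ K
    (isDomain_tensor_of_ker ℓ _ _ K D.ker_rhoChart_fin)
    (isDomain_tensor_of_ker ℓ _ _ K D.ker_rhoChart_inf)
    (nontrivial_tensor_of_ringHom ℓ _ K (D.rhoChart _ subset_rfl))

end Fermat.Agent.S28
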