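import Fermat.Agent.S28.DegDefsAn
import Fermat.Agent.S28.Coset

/-!
# S28, degree block: the conjugates of the generators as functions on `ℍ`
-/

set_option autoImplicit false

noncomputable section

namespace Fermat.Agent.S28

open ModularCurve HahnSeries UpperHalfPlane ModularForm Fermat.Agent.S24 Fermat.Agent.S21
open scoped MatrixGroups Real Manifold

namespace AnConj

theorem coe_aff {a d : ℕ} (ha : 0 < a) (hd : 0 < d) (b : ℤ) (τ : ℍ) :
    ((aff a b d τ : ℍ) : ℂ) = ((a : ℂ) * τ + b) / d := by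
  rw [aff, dif_pos ⟨ha, hd⟩]

theorem aOf_pos (γ : SL(2, ℤ)) {d : ℕ} (hd : d ≠ 0) : 0 < aOf γ d := by
  rw [aOf_eq]
  exact Nat.gcd_pos_of_pos_left _ (Nat.pos_of_ne_zero hd)

theorem aOf_dvd (γ : SL(2, ℤ)) (d : ℕ) : aOf γ d ∣ d := by
  rw [aOf_eq]
  exact Nat.gcd_dvd_left _ _

theorem div_aOf_pos (γ : SL(2, ℤ)) {d : ℕ} (hd : d ≠ 0) : 0 < d / aOf γ d :=
  Nat.div_pos (Nat.le_of_dvd (Nat.pos_of_ne_zero hd) (aOf_dvd γ d)) (aOf_pos γ hd)

/-- the key identity of points and of automorphy factors. -/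
theorem exists_smul_aff (γ : SL(2, ℤ)) {d : ℕ} (hd : d ≠ 0) (τ : ℍ) : ∃ γ' : SL(2, ℤ),
    aff d 0 1 (γ • τ) = γ' • aff (aOf γ d) (bOf γ d) (d / aOf γ d) τ ∧
    denom γ' (aff (aOf γ d) (bOf γ d) (d / aOf γ d) τ) * ((d / aOf γ d : ℕ) : ℂ) = denom γ τ := by
  obtain ⟨γ', h⟩ := exists_decomp γ d hd
  have h00 := congrFun (congrFun h 0) 0
  have h01 := congrFun (congrFun h 0) 1
  have h10 := congrFun (congrFun h 1) 0
  have h11 := congrFun (congrFun h 1) 1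
  simp [Matrix.mul_apply, Fin.sum_univ_two] at h00 h01 h10 h11
  have hdpos : 0 < d := Nat.pos_of_ne_zero hd
  have ha := aOf_pos γ hd
  have hd' := div_aOf_pos γ hd
  set a := aOf γ d
  set b := bOf γ d
  set d' := d / a
  have hd'c : (d' : ℂ) ≠ 0 := by exact_mod_cast hd'.ne'
  have c00 : (d : ℂ) * (γ 0 0 : ℤ) = (γ' 0 0 : ℤ) * a := by exact_mod_cast h00
  have c01 : (d : ℂ) * (γ 0 1 : ℤ) = (γ' 0 0 : ℤ) * b + (γ' 0 1 : ℤ) * d' := by exact_mod_cast h01
  have c10 : ((γ 1 0 : ℤ) : ℂ) = (γ' 1 0 : ℤ) * a := by exact_mod_cast h10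
  have c11 : ((γ 1 1 : ℤ) : ℂ) = (γ' 1 0 : ℤ) * b + (γ' 1 1 : ℤ) * d' := by exact_mod_cast h11
  have hden : denom γ' (aff a b d' τ) * (d' : ℂ) = denom γ τ := by
    rw [ModularGroup.denom_apply, ModularGroup.denom_apply, coe_aff ha hd', c10, c11]
    field_simp
    ring
  refine ⟨γ', ?_, hden⟩
  apply UpperHalfPlane.ext
  have hden1 : denom γ τ ≠ 0 := denom_ne_zero γ τ
  have hden2 : denom γ' (aff a b d' τ) ≠ 0 := denom_ne_zero γ' _
  rw [ModularGroup.denom_apply] at hden1 hden2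
  rw [coe_aff hdpos one_pos, coe_specialLinearGroup_apply, coe_specialLinearGroup_apply]
  simp only [algebraMap_int_eq, eq_intCast, Complex.ofReal_intCast, Int.cast_zero, add_zero,
    Nat.cast_one, div_one]
  rw [mul_div_assoc', div_eq_div_iff hden1 hden2]
  rw [ModularGroup.denom_apply, ModularGroup.denom_apply] at hden
  rw [← hden, coe_aff ha hd']
  field_simp
  linear_combination ((γ' 1 0 : ℤ) * ((a : ℂ) * τ + b) + (d' : ℂ) * (γ' 1 1 : ℤ)) *
    ((τ : ℂ) * c00 + c01)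

theorem discriminant_smul (γ : SL(2, ℤ)) (τ : ℍ) :
    discriminant (γ • τ) = denom γ τ ^ 12 * discriminant τ := by
  have := IsMF.apply_smul isCF_Delta.isMF γ τ
  rw [this]
  norm_cast

theorem aff_add (a : ℕ) (ha : 0 < a) (b : ℤ) (τ : ℍ) :
    aff a b 1 τ = ModularGroup.T ^ b • aff a 0 1 τ := by
  apply UpperHalfPlane.ext
  rw [ModularGroup.coe_T_zpow_smul_eq, coe_aff ha one_pos, coe_aff ha one_pos]
  simp

end AnConj

open AnConj

theorem fX_smul (γ : SL(2, ℤ)) {d : ℕ} (hd : d ≠ 0) (τ : ℍ) :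
    fX d (γ • τ) = jfun (aff (aOf γ d) (bOf γ d) (d / aOf γ d) τ) := by
  obtain ⟨γ', h, -⟩ := exists_smul_aff γ hd τ
  rw [fX, h, jfun_smul]

theorem fY_smul (γ : SL(2, ℤ)) {d : ℕ} (hd : d ≠ 0) (τ : ℍ) :
    fY d (γ • τ) = (aOf γ d : ℂ) ^ 12 * discriminant (aff (aOf γ d) (bOf γ d) (d / aOf γ d) τ) /
      discriminant τ := by
  obtain ⟨γ', h, h2⟩ := exists_smul_aff γ hd τ
  rw [fY, h, discriminant_smul, discriminant_smul, ← h2]
  have hΔ := discriminant_ne_zero τ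
  have hden2 : denom γ' (aff (aOf γ d) (bOf γ d) (d / aOf γ d) τ) ≠ 0 := denom_ne_zero γ' _
  have hd'c : ((d / aOf γ d : ℕ) : ℂ) ≠ 0 := by exact_mod_cast (div_aOf_pos γ hd).ne'
  have hda : (d : ℂ) = (aOf γ d : ℂ) * ((d / aOf γ d : ℕ) : ℂ) := by
    exact_mod_cast (Nat.mul_div_cancel' (aOf_dvd γ d)).symm
  rw [hda]
  field_simp

theorem fY_ne_zero {d : ℕ} (hd : d ≠ 0) (τ : ℍ) : fY d τ ≠ 0 := by
  rw [fY]
  exact div_ne_zero (mul_ne_zero (pow_ne_zero _ (by exact_mod_cast hd)) (discriminant_ne_zero _))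
    (discriminant_ne_zero _)

theorem fgen_smul_of_mem_Gamma0 {N : ℕ} [NeZero N] {γ : SL(2, ℤ)}
    (hγ : γ ∈ CongruenceSubgroup.Gamma0 N) (x : Gen N) (τ : ℍ) :
    fgen N x (γ • τ) = fgen N x τ := by
  obtain ⟨t, ⟨d, hdm⟩⟩ := x
  have hdN : d ∣ N := Nat.dvd_of_mem_divisors hdm
  have hd : d ≠ 0 := fun h => NeZero.ne N (by simpa [h] using hdN)
  have hdpos := Nat.pos_of_ne_zero hd
  have ha : aOf γ d = d := by
    rw [aOf_eq]
    apply Nat.gcd_eq_left
    rw [CongruenceSubgroup.Gamma0_mem, ZMod.intCast_zmod_eq_zero_iff_dvd] at hγ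
    exact hdN.trans (Int.natCast_dvd.mp hγ)
  have hdd : d / d = 1 := Nat.div_self hdpos
  cases t
  · simp only [fgen, Bool.false_eq_true, if_false]
    rw [fX_smul γ hd, ha, hdd, aff_add d hdpos, jfun_smul, fX]
  · simp only [fgen, if_true]
    rw [fY_smul γ hd, ha, hdd, aff_add d hdpos, discriminant_smul, fY]
    have : denom ((ModularGroup.T ^ bOf γ d : SL(2, ℤ))) (aff d 0 1 τ) = 1 := by
      rw [ModularGroup.denom_apply (ModularGroup.T ^ bOf γ d), ModularGroup.coe_T_zpow]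
      simp
    rw [this]
    ring

namespace AnConj

theorem mdiff_comp_aff {f : ℍ → ℂ} (hf : MDiff f) {a d : ℕ} (ha : 0 < a) (hd : 0 < d) (b : ℤ) :
    MDiff (fun τ : ℍ => f (aff a b d τ)) := by
  rw [mdifferentiable_iff] at hf ⊢
  have hmap : ∀ z : ℂ, 0 < z.im → 0 < (((a : ℂ) * z + b) / d).im := by
    intro z hz
    have := (aff a b d ⟨z, hz⟩).im_pos
    rw [← UpperHalfPlane.coe_im, coe_aff ha hd] at this
    exact this
  have h1 : DifferentiableOn ℂ (fun z : ℂ => ((a : ℂ) * z + b) / d) {z | 0 < z.im} := by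
    fun_prop
  have h2 := hf.comp h1 (fun z hz => hmap z hz)
  refine h2.congr fun z hz => ?_
  simp only [Function.comp_apply]
  congr 1
  apply UpperHalfPlane.ext
  rw [coe_aff ha hd, ofComplex_apply_of_im_pos hz, ofComplex_apply_of_im_pos (hmap z hz)]

end AnConj

theorem mdiff_fgen_smul {N : ℕ} [NeZero N] (x : Gen N) (γ : SL(2, ℤ)) :
    MDiff (fun τ : ℍ => fgen N x (γ • τ)) := by
  obtain ⟨t, ⟨d, hdm⟩⟩ := x
  have hdN : d ∣ N := Nat.dvd_of_mem_divisors hdm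
  have hd : d ≠ 0 := fun h => NeZero.ne N (by simpa [h] using hdN)
  cases t
  · simp only [fgen, Bool.false_eq_true, if_false]
    simp only [fX_smul γ hd]
    exact mdiff_comp_aff jfun_mdiff (aOf_pos γ hd) (div_aOf_pos γ hd) _
  · simp only [fgen, if_true]
    simp only [fY_smul γ hd]
    have h1 : MDiff (fun τ : ℍ => discriminant (aff (aOf γ d) (bOf γ d) (d / aOf γ d) τ)) :=
      mdiff_comp_aff isCF_Delta.holo (aOf_pos γ hd) (div_aOf_pos γ hd) _
    have h0 : MDiff (fun _ : ℍ => ((aOf γ d : ℂ)) ^ 12) := mdifferentiable_const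
    exact (h0.mul h1).div isCF_Delta.holo discriminant_ne_zero

theorem tPar_aff {N : ℕ} [NeZero N] (γ : SL(2, ℤ)) {d : ℕ} (hd : d ∣ N) (τ : ℍ) :
    tPar 1 (aff (aOf γ d) (bOf γ d) (d / aOf γ d) τ) =
      (omOf ℂ (zetaC N) N γ d : ℂ) * tPar N τ ^ mOf N γ d := by
  have hd0 : d ≠ 0 := fun h => NeZero.ne N (by simpa [h] using hd)
  have ha := aOf_pos γ hd0
  have hd' := div_aOf_pos γ hd0
  obtain ⟨e, he⟩ := hd
  obtain ⟨d', hd'e⟩ := aOf_dvd γ d
  have hNc : (N : ℂ) ≠ 0 := by exact_mod_cast NeZero.ne N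
  rw [tPar, coe_aff ha hd', omOf, mOf, tPar, zetaC, Units.val_zpow_eq_zpow_val, Units.val_mk0,
    ← Complex.exp_int_mul, ← Complex.exp_nat_mul, ← Complex.exp_add]
  congr 1
  have hNd : N / d = e := by rw [he]; exact Nat.mul_div_cancel_left e (Nat.pos_of_ne_zero hd0)
  have hdd : d / aOf γ d = d' :=
    Nat.div_eq_of_eq_mul_right ha hd'e
  rw [hNd, hdd]
  have hd'0 : (d' : ℂ) ≠ 0 := by
    rw [hdd] at hd'
    exact_mod_cast hd'.ne'
  have hac : (aOf γ d : ℂ) ≠ 0 := by exact_mod_cast ha.ne'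
  have he0 : (e : ℂ) ≠ 0 := by
    intro h
    apply hNc
    rw [he]
    push_cast
    rw [h, mul_zero]
  have hN' : (N : ℂ) = aOf γ d * d' * e := by
    have : N = aOf γ d * d' * e := by rw [← hd'e, he]
    exact_mod_cast this
  rw [hN']
  push_cast
  field_simp
  ring

end Fermat.Agent.S28
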