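import Fermat.Agent.S28.DegDefs
import Fermat.Agent.S24.JFun

/-!
# S28, degree block: shared analytic definitions
-/

set_option autoImplicit false

noncomputable section

namespace Fermat.Agent.S28

open ModularCurve HahnSeries UpperHalfPlane ModularForm Fermat.Agent.S24
open scoped MatrixGroups Real

/-- `t = exp(2πiτ/N)`. -/
def tPar (N : ℕ) (τ : ℍ) : ℂ := Complex.exp (2 * π * Complex.I * τ / N)

/-- `f` has the `t`-expansion `s` (a Laurent series in `t = q^(1/N)` converging on all of `ℍ`). -/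
def HasTExp (N : ℕ) (f : ℍ → ℂ) (s : LaurentSeries ℂ) : Prop :=
  ∃ m : ℕ, (∀ n : ℤ, n < -(m : ℤ) → s.coeff n = 0) ∧
    ∀ τ : ℍ, HasSum (fun n : ℕ => s.coeff ((n : ℤ) - m) * tPar N τ ^ n) (tPar N τ ^ m * f τ)

/-- `τ ↦ (aτ+b)/d` (junk value `τ` unless `a, d > 0`). -/
def aff (a : ℕ) (b : ℤ) (d : ℕ) (τ : ℍ) : ℍ :=
  if h : 0 < a ∧ 0 < d then
    ⟨((a : ℂ) * τ + b) / d, by
      have h1 : (((a : ℂ) * τ + b) / d).im = a * τ.im / d := by
        have : ((a : ℂ) * τ + b) / d = (((a : ℝ) * (τ : ℂ) + (b : ℝ)) / (d : ℝ) : ℂ) := by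
          push_cast; ring
        rw [this, Complex.div_ofReal_im]
        simp
      rw [h1]
      have ha : (0 : ℝ) < a := by exact_mod_cast h.1
      have hd : (0 : ℝ) < d := by exact_mod_cast h.2
      exact div_pos (mul_pos ha τ.im_pos) hd⟩
  else τ

/-- `j(dτ)`. -/
def fX (d : ℕ) (τ : ℍ) : ℂ := jfun (aff d 0 1 τ)

/-- `H_d(τ) = d^12 Δ(dτ)/Δ(τ)`. -/
def fY (d : ℕ) (τ : ℍ) : ℂ := (d : ℂ) ^ 12 * discriminant (aff d 0 1 τ) / discriminant τ

/-- the generators as functions on `ℍ`. -/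
def fgen (N : ℕ) (x : Gen N) (τ : ℍ) : ℂ := if x.1 then fY x.2 τ else fX x.2 τ

/-- `exp(2πi/N)` as a unit. -/
def zetaC (N : ℕ) : ℂˣ := Units.mk0 (Complex.exp (2 * π * Complex.I / N)) (Complex.exp_ne_zero _)

end Fermat.Agent.S28
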