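import Mathlib

/-!
# S28, package D-IRR : an abstract irreducibility / norm argument

`irr_abstract`: pure field theory.
-/

set_option autoImplicit false

noncomputable section

namespace Fermat.Agent.S28

namespace Irr

open Polynomial

section Abstract

variable {k R κ Λ σ I : Type*} [Field k]
  [CommRing R]
  [Field κ] [Algebra R κ] [Algebra k κ]
  [Field Λ] [Algebra k Λ] [Algebra R Λ] [Algebra κ Λ] [IsScalarTower k κ Λ] [IsScalarTower R κ Λ]
  [Fintype I]
  (e : I → MvPolynomial σ k →ₐ[k] Λ)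

/-- the hypothesis: all the "characteristic polynomials" have coefficients in `R`. -/
def HasPoly (R : Type*) [CommRing R] [Algebra R Λ] (e : I → MvPolynomial σ k →ₐ[k] Λ) : Prop :=
  ∀ U : MvPolynomial σ k, ∃ P : R[X],
    P.map (algebraMap R Λ) = ∏ i, (X - C (e i U))

variable {e}

omit [Algebra R κ] [Algebra k κ] [Algebra κ Λ] [IsScalarTower k κ Λ] [IsScalarTower R κ Λ] in
theorem HasPoly.isIntegral [FaithfulSMul R Λ] (hP : HasPoly R e) (i : I) (U : MvPolynomial σ k) :
    IsIntegral R (e i U) := by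
  obtain ⟨P, hPU⟩ := hP U
  refine ⟨P, ?_, ?_⟩
  · apply Polynomial.monic_of_injective (FaithfulSMul.algebraMap_injective R Λ)
    rw [hPU]
    exact monic_prod_of_monic _ _ fun i _ => monic_X_sub_C _
  · rw [← eval_map, hPU, eval_prod]
    exact Finset.prod_eq_zero (Finset.mem_univ i) (by simp)

omit [Algebra k κ] [IsScalarTower k κ Λ] in
theorem HasPoly.aeval_eq_zero (hP : HasPoly R e) (i : I) (U : MvPolynomial σ k) :
    ∃ Q : κ[X], Q.map (algebraMap κ Λ) = ∏ i, (X - C (e i U)) ∧ aeval (e i U) Q = 0 := by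
  obtain ⟨P, hPU⟩ := hP U
  have h1 : (P.map (algebraMap R κ)).map (algebraMap κ Λ) = ∏ i, (X - C (e i U)) := by
    rw [map_map, ← IsScalarTower.algebraMap_eq, hPU]
  refine ⟨P.map (algebraMap R κ), h1, ?_⟩
  rw [aeval_def, ← eval_map, h1, eval_prod]
  exact Finset.prod_eq_zero (Finset.mem_univ i) (by simp)

omit [Algebra k κ] [IsScalarTower k κ Λ] in
theorem HasPoly.isSeparable_of_injective (hP : HasPoly R e) (i : I) (U : MvPolynomial σ k)
    (hU : Function.Injective fun i => e i U) : IsSeparable κ (e i U) := by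
  obtain ⟨Q, hQ, hQ0⟩ := hP.aeval_eq_zero (κ := κ) i U
  have hsep : Q.Separable := by
    rw [← separable_map (algebraMap κ Λ), hQ]
    exact (separable_prod_X_sub_C_iff).2 hU
  exact hsep.of_dvd (minpoly.dvd κ _ hQ0)

/-- the subspace of those `U` for which `e i U` is separable over `κ`. -/
def sepSubspace (κ : Type*) [Field κ] [Algebra k κ] [Algebra κ Λ] [IsScalarTower k κ Λ]
    (f : MvPolynomial σ k →ₐ[k] Λ) : Submodule k (MvPolynomial σ k) where
  carrier := {U | IsSeparable κ (f U)}
  add_mem' {a b} ha hb := by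
    simp only [Set.mem_ofPred_eq, map_add] at *
    exact Field.isSeparable_add ha hb
  zero_mem' := by
    simp only [Set.mem_ofPred_eq, map_zero]
    simpa using isSeparable_algebraMap (F := κ) (K := Λ) 0
  smul_mem' c U hU := by
    simp only [Set.mem_ofPred_eq] at *
    rw [map_smul, Algebra.smul_def, IsScalarTower.algebraMap_apply k κ Λ]
    exact Field.isSeparable_mul (isSeparable_algebraMap _) hU

theorem HasPoly.isSeparable [Infinite k] (hP : HasPoly R e) (he : Function.Injective e) (i : I)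
    (U : MvPolynomial σ k) : IsSeparable κ (e i U) := by
  classical
  let p : Option {q : I × I // q.1 ≠ q.2} → Submodule k (MvPolynomial σ k) := fun o =>
    match o with
    | none => sepSubspace κ (e i)
    | some q => (AlgHom.equalizer (e q.1.1) (e q.1.2)).toSubmodule
  have hcov : ⋃ o, (p o : Set (MvPolynomial σ k)) = Set.univ := by
    refine Set.eq_univ_of_forall fun V => ?_
    rw [Set.mem_iUnion]
    by_cases hV : Function.Injective fun i => e i V
    · exact ⟨none, hP.isSeparable_of_injective i V hV⟩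
    · simp only [Function.Injective, not_forall] at hV
      obtain ⟨a, b, hab, hne⟩ := hV
      exact ⟨some ⟨(a, b), hne⟩, hab⟩
  obtain ⟨o, ho⟩ := Subspace.exists_eq_top_of_iUnion_eq_univ hcov
  rcases o with _ | q
  · have : U ∈ sepSubspace κ (e i) := by
      have h : p none = sepSubspace κ (e i) := rfl
      rw [← h, ho]; trivial
    exact this
  · exfalso
    apply q.2
    apply he
    ext1 s
    have : (MvPolynomial.X s : MvPolynomial σ k) ∈
        (AlgHom.equalizer (e q.1.1) (e q.1.2)).toSubmodule := by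
      have h : p (some q) = (AlgHom.equalizer (e q.1.1) (e q.1.2)).toSubmodule := rfl
      rw [← h, ho]; trivial
    exact this

/-- the field generated over `κ` by the values of `f`. -/
def fieldE (κ : Type*) [Field κ] [Algebra κ Λ] (f : MvPolynomial σ k →ₐ[k] Λ) :
    IntermediateField κ Λ :=
  IntermediateField.adjoin κ (Set.range fun s : σ => f (MvPolynomial.X s))

variable (κ) in
theorem mem_fieldE (f : MvPolynomial σ k →ₐ[k] Λ) (U : MvPolynomial σ k) : f U ∈ fieldE κ f := by
  induction U using MvPolynomial.induction_on with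
  | C a =>
    have : f (MvPolynomial.C a) = algebraMap k Λ a := f.commutes a
    rw [this, IsScalarTower.algebraMap_apply k κ Λ]
    exact (fieldE κ f).algebraMap_mem _
  | add p q hp hq => rw [map_add]; exact add_mem hp hq
  | mul_X p s hp =>
    rw [map_mul]
    exact mul_mem hp (IntermediateField.subset_adjoin κ _ ⟨s, rfl⟩)

variable (κ) in
/-- `f` with values in `fieldE κ f`. -/
def liftHom (f : MvPolynomial σ k →ₐ[k] Λ) : MvPolynomial σ k →+* fieldE κ f :=
  f.toRingHom.codRestrict (fieldE κ f) (mem_fieldE κ f)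

variable (κ) in
theorem coe_liftHom (f : MvPolynomial σ k →ₐ[k] Λ) (U : MvPolynomial σ k) :
    ((liftHom κ f U : fieldE κ f) : Λ) = f U := rfl

/-- the composite of `f` with an embedding `τ` of `fieldE κ f`. -/
def compHom (f : MvPolynomial σ k →ₐ[k] Λ) (τ : fieldE κ f →ₐ[κ] AlgebraicClosure Λ) :
    MvPolynomial σ k →ₐ[k] AlgebraicClosure Λ :=
  { τ.toRingHom.comp (liftHom κ f) with
    commutes' := fun c => by
      have h1 : liftHom κ f (algebraMap k (MvPolynomial σ k) c) =
          algebraMap κ (fieldE κ f) (algebraMap k κ c) := by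
        apply Subtype.ext
        rw [coe_liftHom, AlgHom.commutes, IsScalarTower.algebraMap_apply k κ Λ]
        rfl
      show τ (liftHom κ f (algebraMap k (MvPolynomial σ k) c)) = _
      rw [h1, AlgHom.commutes, IsScalarTower.algebraMap_apply k Λ (AlgebraicClosure Λ),
        IsScalarTower.algebraMap_apply k κ Λ, ← IsScalarTower.algebraMap_apply κ Λ] }

theorem compHom_apply (f : MvPolynomial σ k →ₐ[k] Λ) (τ : fieldE κ f →ₐ[κ] AlgebraicClosure Λ)
    (U : MvPolynomial σ k) : compHom f τ U = τ (liftHom κ f U) := rfl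

/-- `e i` with values in the algebraic closure. -/
def bigHom (f : MvPolynomial σ k →ₐ[k] Λ) : MvPolynomial σ k →ₐ[k] AlgebraicClosure Λ :=
  (IsScalarTower.toAlgHom k Λ (AlgebraicClosure Λ)).comp f

theorem bigHom_apply (f : MvPolynomial σ k →ₐ[k] Λ) (U : MvPolynomial σ k) :
    bigHom f U = algebraMap Λ (AlgebraicClosure Λ) (f U) := rfl

theorem bigHom_injective : Function.Injective (bigHom (k := k) (σ := σ) (Λ := Λ)) := by
  intro f g h
  ext1 s
  have := congrArg (fun F => F (MvPolynomial.X s)) h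
  exact (algebraMap Λ (AlgebraicClosure Λ)).injective this

theorem HasPoly.exists_apply_eq (hP : HasPoly R e) (i₀ : I)
    (τ : fieldE κ (e i₀) →ₐ[κ] AlgebraicClosure Λ) (U : MvPolynomial σ k) :
    ∃ i, compHom (e i₀) τ U = bigHom (e i) U := by
  obtain ⟨Q, hQ, hQ0⟩ := hP.aeval_eq_zero (κ := κ) i₀ U
  have h1 : aeval (liftHom κ (e i₀) U) Q = 0 := by
    apply Subtype.ext
    have := (aeval_algebraMap_apply Λ (liftHom κ (e i₀) U) Q)
    rw [IntermediateField.algebraMap_apply, coe_liftHom] at this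
    rw [IntermediateField.algebraMap_apply] at this
    rw [← this, hQ0]
    rfl
  have h2 : aeval (compHom (e i₀) τ U) Q = 0 := by
    rw [compHom_apply, aeval_algHom_apply, h1, map_zero]
  have h3 : (Q.map (algebraMap κ (AlgebraicClosure Λ))) =
      ∏ i, (X - C (bigHom (e i) U)) := by
    rw [IsScalarTower.algebraMap_eq κ Λ (AlgebraicClosure Λ), ← map_map, hQ, Polynomial.map_prod]
    simp [bigHom_apply]
  rw [aeval_def, ← eval_map, h3, eval_prod, Finset.prod_eq_zero_iff] at h2
  obtain ⟨i, -, hi⟩ := h2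
  refine ⟨i, ?_⟩
  simpa [sub_eq_zero] using hi

theorem HasPoly.exists_eq [Infinite k] (hP : HasPoly R e) (i₀ : I)
    (τ : fieldE κ (e i₀) →ₐ[κ] AlgebraicClosure Λ) :
    ∃ i, compHom (e i₀) τ = bigHom (e i) := by
  let p : I → Submodule k (MvPolynomial σ k) := fun i =>
    (AlgHom.equalizer (compHom (e i₀) τ) (bigHom (e i))).toSubmodule
  have hcov : ⋃ i, (p i : Set (MvPolynomial σ k)) = Set.univ := by
    refine Set.eq_univ_of_forall fun V => ?_
    rw [Set.mem_iUnion]
    exact hP.exists_apply_eq i₀ τ V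
  obtain ⟨i, hi⟩ := Subspace.exists_eq_top_of_iUnion_eq_univ hcov
  refine ⟨i, ?_⟩
  ext1 s
  have : (MvPolynomial.X s : MvPolynomial σ k) ∈ p i := by rw [hi]; trivial
  exact this

omit [Algebra k κ] [IsScalarTower k κ Λ] in
theorem HasPoly.finiteDimensional [Finite σ] [FaithfulSMul R Λ] (hP : HasPoly R e) (i₀ : I) :
    FiniteDimensional κ (fieldE κ (e i₀)) := by
  refine IntermediateField.finiteDimensional_adjoin ?_
  rintro x ⟨s, rfl⟩
  exact (hP.isIntegral i₀ _).tower_top

theorem HasPoly.isSeparable_fieldE [Infinite k] (hP : HasPoly R e) (he : Function.Injective e)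
    (i₀ : I) : Algebra.IsSeparable κ (fieldE κ (e i₀)) := by
  refine (IntermediateField.isSeparable_adjoin_iff_isSeparable κ Λ).2 ?_
  rintro x ⟨s, rfl⟩
  exact hP.isSeparable he i₀ _

/-- the index attached to an embedding. -/
def HasPoly.idx [Infinite k] (hP : HasPoly R e) (i₀ : I)
    (τ : fieldE κ (e i₀) →ₐ[κ] AlgebraicClosure Λ) : I := (hP.exists_eq i₀ τ).choose

theorem HasPoly.idx_spec [Infinite k] (hP : HasPoly R e) (i₀ : I)
    (τ : fieldE κ (e i₀) →ₐ[κ] AlgebraicClosure Λ) :
    compHom (e i₀) τ = bigHom (e (hP.idx i₀ τ)) := (hP.exists_eq i₀ τ).choose_spec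

theorem HasPoly.idx_injective [Infinite k] (hP : HasPoly R e) (i₀ : I) :
    Function.Injective (hP.idx (κ := κ) i₀) := by
  intro τ τ' h
  have h1 : compHom (e i₀) τ = compHom (e i₀) τ' := by
    rw [hP.idx_spec, hP.idx_spec, h]
  refine IntermediateField.adjoin_algHom_ext κ ?_
  rintro x ⟨s, rfl⟩
  exact congrArg (fun F => F (MvPolynomial.X s)) h1

/-- the inclusion embedding. -/
def inclHom (f : MvPolynomial σ k →ₐ[k] Λ) : fieldE κ f →ₐ[κ] AlgebraicClosure Λ :=
  (IsScalarTower.toAlgHom κ Λ (AlgebraicClosure Λ)).comp (fieldE κ f).val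

theorem HasPoly.idx_inclHom [Infinite k] (hP : HasPoly R e) (he : Function.Injective e) (i₀ : I) :
    hP.idx (κ := κ) i₀ (inclHom (e i₀)) = i₀ := by
  have h := hP.idx_spec (κ := κ) i₀ (inclHom (e i₀))
  have h' : compHom (e i₀) (inclHom (κ := κ) (e i₀)) = bigHom (e i₀) := by
    ext1 s
    rfl
  rw [h'] at h
  exact (he (bigHom_injective h)).symm

/-- the set of indices coming from embeddings. -/
def HasPoly.idxSet [Infinite k] [DecidableEq I] (hP : HasPoly R e) (i₀ : I)
    [FiniteDimensional κ (fieldE κ (e i₀))] : Finset I :=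
  Finset.univ.image (hP.idx (κ := κ) i₀)

theorem HasPoly.mem_idxSet [Infinite k] [DecidableEq I] (hP : HasPoly R e)
    (he : Function.Injective e) (i₀ : I) [FiniteDimensional κ (fieldE κ (e i₀))] :
    i₀ ∈ hP.idxSet (κ := κ) i₀ :=
  Finset.mem_image.2 ⟨inclHom (e i₀), Finset.mem_univ _, hP.idx_inclHom he i₀⟩

theorem HasPoly.card_idxSet [Infinite k] [DecidableEq I] (hP : HasPoly R e) (i₀ : I)
    [FiniteDimensional κ (fieldE κ (e i₀))] [Algebra.IsSeparable κ (fieldE κ (e i₀))] :
    (hP.idxSet (κ := κ) i₀).card = Module.finrank κ (fieldE κ (e i₀)) := by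
  rw [HasPoly.idxSet, Finset.card_image_of_injective _ (hP.idx_injective i₀), Finset.card_univ,
    AlgHom.card]

theorem HasPoly.prod_idxSet [Infinite k] [DecidableEq I] (hP : HasPoly R e) (i₀ : I)
    [FiniteDimensional κ (fieldE κ (e i₀))] [Algebra.IsSeparable κ (fieldE κ (e i₀))]
    (Y : MvPolynomial σ k) :
    ∏ i ∈ hP.idxSet (κ := κ) i₀, e i Y =
      algebraMap κ Λ (Algebra.norm κ (liftHom κ (e i₀) Y)) := by
  apply (algebraMap Λ (AlgebraicClosure Λ)).injective
  rw [← IsScalarTower.algebraMap_apply κ Λ (AlgebraicClosure Λ),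
    Algebra.norm_eq_prod_embeddings κ (AlgebraicClosure Λ), map_prod, HasPoly.idxSet,
    Finset.prod_image (fun a _ b _ h => hP.idx_injective i₀ h)]
  refine Finset.prod_congr rfl fun τ _ => ?_
  rw [← bigHom_apply, ← hP.idx_spec, compHom_apply]

theorem HasPoly.unit_lemma [DecidableEq I] [IsDomain R] [IsIntegrallyClosed R]
    [IsFractionRing R κ] [FaithfulSMul R Λ] [Algebra k R] [IsScalarTower k R Λ]
    (hP : HasPoly R e) (hunit : ∀ u : R, IsUnit u → ∃ c : k, algebraMap k R c = u)
    (C : Finset I) (Y : MvPolynomial σ k) (a' : κ) (ha : ∏ i ∈ C, e i Y = algebraMap κ Λ a')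
    (c : k) (hc : c ≠ 0) (hprod : ∏ i, e i Y = algebraMap k Λ c) :
    ∃ c₁ : k, c₁ ≠ 0 ∧ ∏ i ∈ C, e i Y = algebraMap k Λ c₁ := by
  have hab : (∏ i ∈ C, e i Y) * ∏ i ∈ Cᶜ, e i Y = algebraMap k Λ c := by
    rw [Finset.prod_mul_prod_compl, hprod]
  have hc' : algebraMap k Λ c ≠ 0 := by
    rw [Ne, map_eq_zero]; exact hc
  have ha0 : algebraMap κ Λ a' ≠ 0 := by
    intro h
    rw [ha, h, zero_mul] at hab
    exact hc' hab.symm
  have ha'0 : a' ≠ 0 := fun h => ha0 (by rw [h, map_zero])
  have hinta : IsIntegral R a' := by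
    rw [← isIntegral_algebraMap_iff (algebraMap κ Λ).injective, ← ha]
    exact IsIntegral.prod _ fun i _ => hP.isIntegral i Y
  have hb : ∏ i ∈ Cᶜ, e i Y = algebraMap κ Λ (algebraMap k κ c / a') := by
    rw [map_div₀, ← IsScalarTower.algebraMap_apply k κ Λ, eq_div_iff ha0, ← hab, ha, mul_comm]
  have hintb : IsIntegral R (algebraMap k κ c / a') := by
    rw [← isIntegral_algebraMap_iff (algebraMap κ Λ).injective, ← hb]
    exact IsIntegral.prod _ fun i _ => hP.isIntegral i Y
  obtain ⟨r, hr⟩ := IsIntegrallyClosed.isIntegral_iff.1 hinta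
  obtain ⟨r', hr'⟩ := IsIntegrallyClosed.isIntegral_iff.1 hintb
  have hrr : r * r' = algebraMap k R c := by
    apply FaithfulSMul.algebraMap_injective R Λ
    rw [← IsScalarTower.algebraMap_apply k R Λ, ← hab, ha, hb, ← hr', ← hr, map_mul,
      IsScalarTower.algebraMap_apply R κ Λ, IsScalarTower.algebraMap_apply R κ Λ]
  have hu : IsUnit r := by
    apply isUnit_of_mul_isUnit_left (y := r')
    rw [hrr]
    exact (IsUnit.mk0 c hc).map (algebraMap k R)
  obtain ⟨c₁, hc₁⟩ := hunit r hu
  refine ⟨c₁, ?_, ?_⟩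
  · rintro rfl
    rw [map_zero] at hc₁
    rw [← hc₁, map_zero] at hr
    exact ha'0 hr.symm
  · rw [ha, ← hr, ← hc₁, ← IsScalarTower.algebraMap_apply R κ Λ,
      ← IsScalarTower.algebraMap_apply k R Λ]

theorem span_monomials (f : MvPolynomial σ k →ₐ[k] Λ)
    (halg : ∀ s, IsAlgebraic κ (f (MvPolynomial.X s))) :
    Submodule.span κ (Set.range fun m : σ →₀ ℕ => f (MvPolynomial.monomial m 1)) =
      Subalgebra.toSubmodule (fieldE κ f).toSubalgebra := by
  apply le_antisymm
  · rw [Submodule.span_le]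
    rintro x ⟨m, rfl⟩
    exact mem_fieldE κ f _
  · have h1 : (fieldE κ f).toSubalgebra =
        Algebra.adjoin κ (Set.range fun s : σ => f (MvPolynomial.X s)) := by
      refine IntermediateField.adjoin_toSubalgebra_of_isAlgebraic ?_
      rintro x ⟨s, rfl⟩
      exact halg s
    rw [h1, Algebra.adjoin_eq_span]
    apply Submodule.span_mono
    intro x hx
    induction hx using Submonoid.closure_induction with
    | mem x hx =>
      obtain ⟨s, rfl⟩ := hx
      exact ⟨Finsupp.single s 1, rfl⟩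
    | one => exact ⟨0, by simp⟩
    | mul x y _ _ hx hy =>
      obtain ⟨m, rfl⟩ := hx
      obtain ⟨m', rfl⟩ := hy
      exact ⟨m + m', by simp [← map_mul, MvPolynomial.monomial_mul]⟩

theorem exists_monomials (f : MvPolynomial σ k →ₐ[k] Λ)
    (halg : ∀ s, IsAlgebraic κ (f (MvPolynomial.X s))) [FiniteDimensional κ (fieldE κ f)]
    (n : ℕ) (hn : n = Module.finrank κ (fieldE κ f)) :
    ∃ m : Fin n → (σ →₀ ℕ),
      LinearIndependent κ fun r => f (MvPolynomial.monomial (m r) 1) := by
  obtain ⟨b, hbt, hbspan, hbli⟩ := exists_linearIndependent κ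
    (Set.range fun m : σ →₀ ℕ => f (MvPolynomial.monomial m 1))
  have hW : Submodule.span κ (Set.range ((↑) : b → Λ)) =
      Subalgebra.toSubmodule (fieldE κ f).toSubalgebra := by
    rw [Subtype.range_coe, hbspan, span_monomials f halg]
  let B := Module.Basis.span hbli
  have hfd : FiniteDimensional κ (Submodule.span κ (Set.range ((↑) : b → Λ))) := by
    rw [hW]
    exact (inferInstance : FiniteDimensional κ (fieldE κ f))
  have hfin : Finite b := Module.Finite.finite_basis B
  have hcard : Nat.card b = n := by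
    rw [← Module.finrank_eq_nat_card_basis B, hn, hW]
    rfl
  let E := Finite.equivFinOfCardEq hcard
  have hmem : ∀ r : Fin n, ∃ m : σ →₀ ℕ, f (MvPolynomial.monomial m 1) = (E.symm r : Λ) :=
    fun r => hbt (E.symm r).2
  choose m hm using hmem
  refine ⟨m, ?_⟩
  have : (fun r => f (MvPolynomial.monomial (m r) 1)) = ((↑) : b → Λ) ∘ E.symm := by
    funext r
    exact hm r
  rw [this]
  exact hbli.comp _ E.symm.injective

theorem abstract_main [Infinite k] [Finite σ] [DecidableEq I] [IsDomain R] [IsIntegrallyClosed R]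
    [IsFractionRing R κ] [FaithfulSMul R Λ] [Algebra k R] [IsScalarTower k R Λ]
    (hP : HasPoly R e) (he : Function.Injective e) (i₀ : I)
    (hunit : ∀ u : R, IsUnit u → ∃ c : k, algebraMap k R c = u) :
    ∃ C : Finset I, i₀ ∈ C ∧
      (∀ Y : MvPolynomial σ k, (∃ c : k, c ≠ 0 ∧ ∏ i, e i Y = algebraMap k Λ c) →
        ∃ c : k, c ≠ 0 ∧ ∏ i ∈ C, e i Y = algebraMap k Λ c) ∧
      ∃ m : Fin C.card → (σ →₀ ℕ), ∀ c : Fin C.card → R,
        ∑ r, algebraMap R Λ (c r) * e i₀ (MvPolynomial.monomial (m r) 1) = 0 → c = 0 := by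
  have h1 := hP.finiteDimensional (κ := κ) i₀
  have h2 := hP.isSeparable_fieldE (κ := κ) he i₀
  refine ⟨hP.idxSet (κ := κ) i₀, hP.mem_idxSet he i₀, ?_, ?_⟩
  · rintro Y ⟨c, hc, hprod⟩
    exact hP.unit_lemma hunit _ Y _ (hP.prod_idxSet i₀ Y) c hc hprod
  · obtain ⟨m, hm⟩ := exists_monomials (κ := κ) (e i₀)
      (fun s => (hP.isIntegral i₀ _).tower_top.isAlgebraic) _ (hP.card_idxSet i₀)
    refine ⟨m, fun c hc => ?_⟩
    have h3 := Fintype.linearIndependent_iff.1 hm (fun r => algebraMap R κ (c r)) (by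
      rw [← hc]
      refine Finset.sum_congr rfl fun r _ => ?_
      rw [Algebra.smul_def, ← IsScalarTower.algebraMap_apply R κ Λ])
    funext r
    exact IsFractionRing.injective R κ (by rw [h3 r, Pi.zero_apply, map_zero])

end Abstract

end Irr

open Irr in
theorem irr_abstract {k Λ σ I : Type*} [Field k] [Infinite k] [Field Λ] [Algebra k Λ] [Finite σ]
    [Fintype I] [DecidableEq I] (J : Λ) (hJ : Transcendental k J)
    (e : I → MvPolynomial σ k →ₐ[k] Λ) (he : Function.Injective e) (i₀ : I)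
    (hP : ∀ U : MvPolynomial σ k, ∃ P : Polynomial (Polynomial k),
      P.map (Polynomial.aeval J).toRingHom = ∏ i, (Polynomial.X - Polynomial.C (e i U))) :
    ∃ C : Finset I, i₀ ∈ C ∧
      (∀ Y : MvPolynomial σ k, (∃ c : k, c ≠ 0 ∧ ∏ i, e i Y = algebraMap k Λ c) →
        ∃ c : k, c ≠ 0 ∧ ∏ i ∈ C, e i Y = algebraMap k Λ c) ∧
      ∃ m : Fin C.card → (σ →₀ ℕ), ∀ c : Fin C.card → Polynomial k,
        ∑ r, Polynomial.aeval J (c r) * e i₀ (MvPolynomial.monomial (m r) 1) = 0 → c = 0 := by
  let _ : Algebra (Polynomial k) Λ := (Polynomial.aeval J).toRingHom.toAlgebra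
  have halg : ∀ p : Polynomial k, algebraMap (Polynomial k) Λ p = Polynomial.aeval J p :=
    fun _ => rfl
  have : IsScalarTower k (Polynomial k) Λ := IsScalarTower.of_algebraMap_eq fun c => by
    rw [halg, Polynomial.algebraMap_eq, Polynomial.aeval_C]
  have : FaithfulSMul (Polynomial k) Λ :=
    (faithfulSMul_iff_algebraMap_injective _ _).2 (transcendental_iff_injective.1 hJ)
  let _ : Algebra (FractionRing (Polynomial k)) Λ := FractionRing.liftAlgebra (Polynomial k) Λ
  have : IsScalarTower (Polynomial k) (FractionRing (Polynomial k)) Λ :=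
    FractionRing.isScalarTower_liftAlgebra (Polynomial k) Λ
  have : IsScalarTower k (FractionRing (Polynomial k)) Λ :=
    IsScalarTower.of_algebraMap_eq fun c => by
      rw [IsScalarTower.algebraMap_apply k (Polynomial k) (FractionRing (Polynomial k)),
        ← IsScalarTower.algebraMap_apply (Polynomial k) (FractionRing (Polynomial k)) Λ,
        ← IsScalarTower.algebraMap_apply k (Polynomial k) Λ]
  exact abstract_main (R := Polynomial k) (κ := FractionRing (Polynomial k)) (e := e) hP he i₀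
    (fun u hu => by
      obtain ⟨r, -, hr⟩ := Polynomial.isUnit_iff.1 hu
      exact ⟨r, hr⟩)

end Fermat.Agent.S28
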