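import Fermat.Agent.S28.Lambda
import Fermat.Agent.S28.LamGen

/-!
# S28, package LAM : integral elements of `F'` are `ℓ`-integral fractions
-/

set_option autoImplicit false
open ModularCurve ModularCurve.IgusaScheme Polynomial
noncomputable section
namespace Fermat.Agent.S28

namespace Lam

/-- The output of the degree block. -/
structure Block (N ℓ : ℕ) [NeZero N] [Fact ℓ.Prime] where
  F' : IntermediateField ℚ (LaurentSeries ℚ)
  n : ℕ
  b : Fin n → LaurentSeries (Zl ℓ)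
  le : modularFunctionFieldFull N ≤ F'
  mem : ∀ i, incI ℓ (b i) ∈ F'
  int : ∀ i, IsIntegral (Algebra.adjoin (Zl ℓ) {jq}) (incI ℓ (b i))
  span : ∀ f ∈ F', ∃ (s : ℚ[X]) (a : Fin n → ℚ[X]), s ≠ 0 ∧
    aeval jq s * f = ∑ i, aeval jq (a i) * incI ℓ (b i)
  indep : ∀ c : Fin n → (ZMod ℓ)[X],
    ∑ i, aeval (jqModC (ZMod ℓ)) (c i) * redI ℓ (b i) = 0 → c = 0

variable {N ℓ : ℕ} [NeZero N] [Fact ℓ.Prime] (D : Block N ℓ)

/-- `∑ rᵢ(j) bᵢ`. -/
def Block.mW (r : Fin D.n → (Zl ℓ)[X]) : LaurentSeries (Zl ℓ) :=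
  ∑ i, aeval (jqModC (Zl ℓ)) (r i) * D.b i

lemma natCast_ne_zero_E : ((ℓ : ℕ) : LaurentSeries ℚ) ≠ 0 := by
  have h0 : ((ℓ : ℕ) : ℚ) ≠ 0 := by exact_mod_cast (Fact.out : ℓ.Prime).ne_zero
  have h1 : algebraMap ℚ (LaurentSeries ℚ) ((ℓ : ℕ) : ℚ) ≠ 0 := by
    rw [Ne, map_eq_zero]; exact h0
  rwa [map_natCast] at h1

lemma redI_natCast : redI ℓ ((ℓ : ℕ) : LaurentSeries (Zl ℓ)) = 0 := by
  rw [redI_eq_zero_iff]
  exact ⟨1, (mul_one _).symm⟩

/-- (K1) -/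
lemma Block.exists_mW_eq_mul {r : Fin D.n → (Zl ℓ)[X]} (h : redI ℓ (D.mW r) = 0) :
    ∃ r', D.mW r = (ℓ : LaurentSeries (Zl ℓ)) * D.mW r' := by
  have h1 : (fun i => (r i).map (resl ℓ)) = 0 := by
    apply D.indep
    rw [← h, Block.mW, map_sum]
    refine Finset.sum_congr rfl fun i _ => ?_
    rw [map_mul, redI_aeval, redI_jqModC]
  have h2 : ∀ i, ∃ p', r i = C (ℓ : Zl ℓ) * p' := fun i =>
    (map_resl_eq_zero_iff ℓ (r i)).1 (congrFun h1 i)
  choose r' hr' using h2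
  refine ⟨r', ?_⟩
  rw [Block.mW, Block.mW, Finset.mul_sum]
  refine Finset.sum_congr rfl fun i _ => ?_
  rw [hr' i, map_mul, aeval_C, map_natCast, mul_assoc]

/-- (B1) -/
lemma Block.exists_eq_of_pow_mul (a : ℕ) : ∀ {f : LaurentSeries ℚ} (r : Fin D.n → (Zl ℓ)[X]),
    (incI ℓ).IsIntegralElem f → (ℓ : LaurentSeries ℚ) ^ a * f = incI ℓ (D.mW r) →
    ∃ r', f = incI ℓ (D.mW r') := by
  induction a with
  | zero =>
    intro f r _ h
    exact ⟨r, by rw [← h, pow_zero, one_mul]⟩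
  | succ a ih =>
    intro f r hf h
    have hl : (incI ℓ).IsIntegralElem ((ℓ : LaurentSeries ℚ) ^ a) := by
      have := (incI ℓ).isIntegralElem_map (x := ((ℓ : LaurentSeries (Zl ℓ)) ^ a))
      rwa [map_pow, map_natCast] at this
    have hg : (incI ℓ).IsIntegralElem ((ℓ : LaurentSeries ℚ) ^ a * f) := hl.mul _ hf
    have h0 : redI ℓ (D.mW r) = 0 := by
      refine map_eq_zero_of_isIntegralElem (incI ℓ) (incI_injective ℓ) (redI ℓ)
        (redI_natCast (ℓ := ℓ)) hg ?_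
      rw [map_natCast, ← h, pow_succ]
      ring
    obtain ⟨r', hr'⟩ := D.exists_mW_eq_mul h0
    refine ih r' hf ?_
    apply mul_left_cancel₀ (natCast_ne_zero_E (ℓ := ℓ))
    rw [← mul_assoc, ← pow_succ', h, hr', map_mul, map_natCast]

/-- (B) -/
lemma Block.exists_frac {f : LaurentSeries ℚ} (hf : f ∈ D.F') (hint : (incI ℓ).IsIntegralElem f) :
    ∃ (s : (Zl ℓ)[X]) (r : Fin D.n → (Zl ℓ)[X]), s.map (resl ℓ) ≠ 0 ∧
      incI ℓ (aeval (jqModC (Zl ℓ)) s) * f = incI ℓ (D.mW r) := by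
  obtain ⟨s0, a0, hs0, h0⟩ := D.span f hf
  obtain ⟨D0, a', hD0, ha'⟩ := exists_int_mul ℓ (fun o : Option (Fin D.n) => o.elim s0 a0)
  have hD0' : (D0 : ℚ) ≠ 0 := by exact_mod_cast hD0
  have hs1 : a' none ≠ 0 := by
    intro h
    have := ha' none
    rw [h, Polynomial.map_zero] at this
    exact (mul_ne_zero (C_ne_zero.mpr hD0') hs0) this.symm
  obtain ⟨a, s, hs, hsa⟩ := exists_pow_mul_of_ne_zero ℓ (a' none) hs1
  have key : incI ℓ (aeval (jqModC (Zl ℓ)) (a' none)) * f =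
      incI ℓ (D.mW (fun i => a' (some i))) := by
    rw [incI_aeval, ha' none, incI_jqModC, Block.mW, map_sum]
    simp only [Option.elim_none, map_mul, aeval_C]
    rw [mul_assoc, h0, Finset.mul_sum]
    refine Finset.sum_congr rfl fun i _ => ?_
    rw [incI_aeval, ha' (some i), incI_jqModC]
    simp only [Option.elim_some, map_mul, aeval_C]
    rw [mul_assoc]
  have hint' : (incI ℓ).IsIntegralElem (incI ℓ (aeval (jqModC (Zl ℓ)) s) * f) :=
    ((incI ℓ).isIntegralElem_map).mul _ hint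
  obtain ⟨r', hr'⟩ := D.exists_eq_of_pow_mul a (fun i => a' (some i)) hint' (by
    rw [← key, hsa, map_mul, map_mul, map_pow, aeval_C, map_natCast, map_pow, map_natCast,
      mul_assoc])
  exact ⟨s, r', hs, hr'⟩

lemma redI_aeval_ne_zero {s : (Zl ℓ)[X]} (hs : s.map (resl ℓ) ≠ 0) :
    redI ℓ (aeval (jqModC (Zl ℓ)) s) ≠ 0 := by
  rw [redI_aeval, redI_jqModC]
  exact aeval_jqModC_ne_zero _ hs

/-- integral elements of `F'` lie in `Λ`. -/
lemma Block.mem_LamRing {f : LaurentSeries ℚ} (hf : f ∈ D.F')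
    (hint : (incI ℓ).IsIntegralElem f) : f ∈ LamRing ℓ := by
  obtain ⟨s, r, hs, h⟩ := D.exists_frac hf hint
  exact ⟨_, _, redI_aeval_ne_zero hs, h⟩

/-- elements of the kernel of `ρ`. -/
lemma Block.exists_frac_of_rhoL_eq_zero {f : LaurentSeries ℚ} (hf : f ∈ D.F')
    (hint : (incI ℓ).IsIntegralElem f) (h0 : rhoL ℓ ⟨f, D.mem_LamRing hf hint⟩ = 0) :
    ∃ (s : (Zl ℓ)[X]) (r : Fin D.n → (Zl ℓ)[X]), s.map (resl ℓ) ≠ 0 ∧
      incI ℓ (aeval (jqModC (Zl ℓ)) s) * f = (ℓ : LaurentSeries ℚ) * incI ℓ (D.mW r) := by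
  obtain ⟨s, r, hs, h⟩ := D.exists_frac hf hint
  have hfr : IsFrac ℓ f (aeval (jqModC (Zl ℓ)) s) (D.mW r) := ⟨redI_aeval_ne_zero hs, h⟩
  have h1 : redI ℓ (D.mW r) = 0 :=
    (rhoL_eq_zero_iff (f := ⟨f, D.mem_LamRing hf hint⟩) hfr).1 h0
  obtain ⟨r', hr'⟩ := D.exists_mW_eq_mul h1
  exact ⟨s, r', hs, by rw [h, hr', map_mul, map_natCast]⟩

end Lam

end Fermat.Agent.S28
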