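import Fermat.Agent.S28.LamB

/-!
# S28, package LAM : the reduction maps on the charts and their kernels
-/

set_option autoImplicit false
set_option linter.unusedSectionVars false
open ModularCurve ModularCurve.IgusaScheme Polynomial
noncomputable section
namespace Fermat.Agent.S28

namespace Lam

/-- ring hom version of LAM-N. -/
lemma isIntegralElem_of_prime_mul {R E : Type*} [CommRing R] [IsDomain R] [IsIntegrallyClosed R]
    [Field E] (φ : R →+* E) (hφ : Function.Injective φ) {π s : R} (hπ : Prime π) (hs : ¬ π ∣ s)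
    {g : E} (h1 : φ.IsIntegralElem (φ π * g)) (h2 : φ.IsIntegralElem (φ s * g)) :
    φ.IsIntegralElem g := by
  let _ := φ.toAlgebra
  have : FaithfulSMul R E := (faithfulSMul_iff_algebraMap_injective R E).2 hφ
  exact isIntegral_of_prime_mul hπ hs h1 h2

variable (ℓ : ℕ) [Fact ℓ.Prime]

/-- evaluation `ℤ_(ℓ)[X] → ℚ((q))`. -/
def phi (x : LaurentSeries ℚ) : (Zl ℓ)[X] →+* LaurentSeries ℚ :=
  eval₂RingHom (algebraMap (Zl ℓ) (LaurentSeries ℚ)) x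

/-- the inverse of `j` as an `ℓ`-integral series. -/
def jWi : LaurentSeries (Zl ℓ) := ↑((isUnit_jqModC (Zl ℓ)).unit⁻¹)

lemma jW_mul_jWi : jqModC (Zl ℓ) * jWi ℓ = 1 := (isUnit_jqModC (Zl ℓ)).mul_val_inv

lemma incI_jWi : incI ℓ (jWi ℓ) = jq⁻¹ := by
  have h := congrArg (incI ℓ) (jW_mul_jWi ℓ)
  rw [map_mul, map_one, incI_jqModC] at h
  exact eq_inv_of_mul_eq_one_right h

lemma phi_incI (w : LaurentSeries (Zl ℓ)) (p : (Zl ℓ)[X]) :
    phi ℓ (incI ℓ w) p = incI ℓ (aeval w p) := by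
  rw [aeval_def, hom_eval₂, Tens.ringHom_eq ℓ ((incI ℓ).comp (algebraMap (Zl ℓ) _))
    (algebraMap (Zl ℓ) (LaurentSeries ℚ))]
  rfl

lemma phi_jq (p : (Zl ℓ)[X]) : phi ℓ jq p = incI ℓ (aeval (jqModC (Zl ℓ)) p) := by
  rw [← phi_incI, incI_jqModC]

lemma phi_jq_inv (p : (Zl ℓ)[X]) : phi ℓ jq⁻¹ p = incI ℓ (aeval (jWi ℓ) p) := by
  rw [← phi_incI, incI_jWi]

lemma phi_C_natCast (x : LaurentSeries ℚ) : phi ℓ x (C (ℓ : Zl ℓ)) = (ℓ : LaurentSeries ℚ) := by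
  rw [map_natCast C, map_natCast]

lemma phi_jq_injective : Function.Injective (phi ℓ jq) := by
  rw [injective_iff_map_eq_zero]
  intro p hp
  by_contra h
  rw [phi_jq] at hp
  exact aeval_jqModC_ne_zero _ h (incI_injective ℓ (by rw [hp, map_zero]))

lemma jq_mul_inv : jq * jq⁻¹ = 1 := mul_inv_cancel₀ jq_ne_zero

lemma phi_jq_inv_reverse (p : (Zl ℓ)[X]) :
    phi ℓ jq⁻¹ p.reverse = phi ℓ jq p * jq⁻¹ ^ p.natDegree :=
  (eval₂_mul_pow_eq_reflect _ jq_mul_inv p le_rfl).symm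

lemma phi_jq_inv_injective : Function.Injective (phi ℓ jq⁻¹) := by
  rw [injective_iff_map_eq_zero]
  intro p hp
  have h1 : phi ℓ jq p.reverse = phi ℓ jq⁻¹ p * jq ^ p.natDegree :=
    (eval₂_mul_pow_eq_reflect _ (by rw [mul_comm]; exact jq_mul_inv) p le_rfl).symm
  rw [hp, zero_mul] at h1
  exact reverse_eq_zero.mp ((injective_iff_map_eq_zero _).1 (phi_jq_injective ℓ) _ h1)

lemma prime_C_natCast : Prime (C (ℓ : Zl ℓ)) := prime_C_iff.mpr (prime_natCast_Zl ℓ)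

lemma not_C_dvd {s : (Zl ℓ)[X]} (hs : s.map (resl ℓ) ≠ 0) : ¬ C (ℓ : Zl ℓ) ∣ s := by
  rintro ⟨p', hp'⟩
  exact hs ((map_resl_eq_zero_iff ℓ s).2 ⟨p', hp'⟩)

lemma not_C_dvd_reverse {s : (Zl ℓ)[X]} (hs : ¬ C (ℓ : Zl ℓ) ∣ s) :
    ¬ C (ℓ : Zl ℓ) ∣ s.reverse := by
  intro h
  apply hs
  rw [C_dvd_iff_dvd_coeff] at h ⊢
  intro i
  have := h (revAt s.natDegree i)
  rwa [coeff_reverse, revAt_invol] at this

lemma not_C_dvd_X_pow_mul {s : (Zl ℓ)[X]} (hs : ¬ C (ℓ : Zl ℓ) ∣ s) (m : ℕ) :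
    ¬ C (ℓ : Zl ℓ) ∣ X ^ m * s := by
  intro h
  rcases (prime_C_natCast ℓ).dvd_or_dvd h with h | h
  · have h1 := (prime_C_natCast ℓ).dvd_of_dvd_pow h
    rw [C_dvd_iff_dvd_coeff] at h1
    have h2 := h1 1
    rw [coeff_X_one] at h2
    exact (prime_natCast_Zl ℓ).not_isUnit (isUnit_of_dvd_one h2)
  · exact hs h

variable {ℓ}
variable {N : ℕ} [NeZero N] (D : Block N ℓ)

lemma isIntegralElem_incI_of_phi_jq {f : LaurentSeries ℚ} (h : (phi ℓ jq).IsIntegralElem f) :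
    (incI ℓ).IsIntegralElem f :=
  isIntegralElem_of_range _ _ (fun p => ⟨_, (phi_jq ℓ p).symm⟩) h

lemma isIntegralElem_incI_of_phi_jq_inv {f : LaurentSeries ℚ}
    (h : (phi ℓ jq⁻¹).IsIntegralElem f) : (incI ℓ).IsIntegralElem f :=
  isIntegralElem_of_range _ _ (fun p => ⟨_, (phi_jq_inv ℓ p).symm⟩) h

lemma Block.isIntegralElem_b (i : Fin D.n) : (phi ℓ jq).IsIntegralElem (incI ℓ (D.b i)) :=
  (isIntegral_adjoin_singleton_iff _ _).1 (D.int i)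

lemma Block.isIntegralElem_mW (r : Fin D.n → (Zl ℓ)[X]) :
    (phi ℓ jq).IsIntegralElem (incI ℓ (D.mW r)) := by
  rw [Block.mW, map_sum]
  refine Finset.sum_induction _ (phi ℓ jq).IsIntegralElem (fun a b ha hb => ha.add _ hb)
    (phi ℓ jq).isIntegralElem_zero ?_
  intro i _
  rw [map_mul, ← phi_jq]
  exact ((phi ℓ jq).isIntegralElem_map).mul _ (D.isIntegralElem_b i)

/-- kernel of `ρ` on the finite chart. -/
theorem Block.isIntegralElem_div_fin {f : LaurentSeries ℚ} (hf : f ∈ D.F')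
    (hint : (phi ℓ jq).IsIntegralElem f) (hW : (incI ℓ).IsIntegralElem f)
    (h0 : rhoL ℓ ⟨f, D.mem_LamRing hf hW⟩ = 0) :
    (phi ℓ jq).IsIntegralElem ((ℓ : LaurentSeries ℚ)⁻¹ * f) := by
  obtain ⟨s, r, hs, h⟩ := D.exists_frac_of_rhoL_eq_zero hf hW h0
  refine isIntegralElem_of_prime_mul _ (phi_jq_injective ℓ) (prime_C_natCast ℓ) (not_C_dvd ℓ hs)
    ?_ ?_
  · rwa [phi_C_natCast, mul_inv_cancel_left₀ natCast_ne_zero_E]
  · have : phi ℓ jq s * ((ℓ : LaurentSeries ℚ)⁻¹ * f) = incI ℓ (D.mW r) := by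
      rw [phi_jq, mul_left_comm, h, inv_mul_cancel_left₀ natCast_ne_zero_E]
    rw [this]
    exact D.isIntegralElem_mW r

/-- kernel of `ρ` on the chart at infinity. -/
theorem Block.isIntegralElem_div_inf {f : LaurentSeries ℚ} (hf : f ∈ D.F')
    (hint : (phi ℓ jq⁻¹).IsIntegralElem f) (hW : (incI ℓ).IsIntegralElem f)
    (h0 : rhoL ℓ ⟨f, D.mem_LamRing hf hW⟩ = 0) :
    (phi ℓ jq⁻¹).IsIntegralElem ((ℓ : LaurentSeries ℚ)⁻¹ * f) := by
  obtain ⟨s, r, hs, h⟩ := D.exists_frac_of_rhoL_eq_zero hf hW h0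
  have h1 : phi ℓ jq s * ((ℓ : LaurentSeries ℚ)⁻¹ * f) = incI ℓ (D.mW r) := by
    rw [phi_jq, mul_left_comm, h, inv_mul_cancel_left₀ natCast_ne_zero_E]
  obtain ⟨m, hm⟩ := exists_pow_mul_isIntegralElem (algebraMap (Zl ℓ) (LaurentSeries ℚ))
    jq_mul_inv (D.isIntegralElem_mW r)
  refine isIntegralElem_of_prime_mul _ (phi_jq_inv_injective ℓ) (prime_C_natCast ℓ)
    (not_C_dvd_X_pow_mul ℓ (not_C_dvd_reverse ℓ (not_C_dvd ℓ hs)) m) ?_ ?_
  · rwa [phi_C_natCast, mul_inv_cancel_left₀ natCast_ne_zero_E]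
  · have h2 : phi ℓ jq⁻¹ (X ^ m * s.reverse) * ((ℓ : LaurentSeries ℚ)⁻¹ * f) =
        phi ℓ jq⁻¹ (X ^ s.natDegree) * (jq⁻¹ ^ m * incI ℓ (D.mW r)) := by
      have hX : phi ℓ jq⁻¹ X = jq⁻¹ := eval₂_X _ _
      rw [map_mul, phi_jq_inv_reverse, map_pow, map_pow, hX, ← h1]
      ring
    rw [h2]
    exact ((phi ℓ jq⁻¹).isIntegralElem_map).mul _ hm

end Lam

end Fermat.Agent.S28
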