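import Fermat.Agent.S28.LamChart

/-!
# S28, package LAM : the reduction maps on the charts and their kernels (final statements)
-/

set_option autoImplicit false
set_option linter.unusedSectionVars false
open ModularCurve ModularCurve.IgusaScheme Polynomial
noncomputable section
namespace Fermat.Agent.S28

namespace Lam

variable (N ℓ : ℕ) [NeZero N] [Fact ℓ.Prime]

/-- the inclusion `F → ℚ((q))`. -/
def iotaF : ↥(modularFunctionFieldFull N) →+* LaurentSeries ℚ :=
  algebraMap ↥(modularFunctionFieldFull N) (LaurentSeries ℚ)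

lemma iotaF_apply (y : ↥(modularFunctionFieldFull N)) : iotaF N y = (y : LaurentSeries ℚ) := rfl

lemma iotaF_injective : Function.Injective (iotaF N) := (iotaF N).injective

lemma iotaF_comp_aeval (x : ↥(modularFunctionFieldFull N)) :
    (iotaF N).comp (aeval x : (Zl ℓ)[X] →ₐ[Zl ℓ] ↥(modularFunctionFieldFull N)).toRingHom =
      phi ℓ (iotaF N x) := by
  refine ringHom_ext' (Tens.ringHom_eq ℓ _ _) ?_
  simp [phi]

variable {N ℓ}

lemma mem_chartAlg_singleton_iff {x y : ↥(modularFunctionFieldFull N)} :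
    y ∈ chartAlg N ℓ {x} ↔ (phi ℓ (iotaF N x)).IsIntegralElem (iotaF N y) := by
  rw [mem_chartAlg_iff, isIntegral_adjoin_singleton_iff, ← iotaF_comp_aeval]
  exact ⟨isIntegralElem_map_comp _ _, isIntegralElem_of_map_comp _ _ (iotaF_injective N)⟩

lemma iotaF_jFull : iotaF N (jFull N) = jq := rfl

lemma iotaF_jFull_inv : iotaF N (jFull N)⁻¹ = jq⁻¹ := by
  rw [map_inv₀, iotaF_jFull]

/-- elements of `ℤ_(ℓ)[j, j⁻¹]` are `ℓ`-integral series. -/
lemma iotaF_mem_range_incI {S : Set ↥(modularFunctionFieldFull N)}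
    (hS : S ⊆ {jFull N, (jFull N)⁻¹}) {y : ↥(modularFunctionFieldFull N)}
    (hy : y ∈ Algebra.adjoin (Zl ℓ) S) : iotaF N y ∈ Set.range (incI ℓ) := by
  induction hy using Algebra.adjoin_induction with
  | mem y hy =>
    rcases hS hy with rfl | rfl
    · exact ⟨_, incI_jqModC ℓ⟩
    · exact ⟨_, (incI_jWi ℓ).trans iotaF_jFull_inv.symm⟩
  | algebraMap a =>
    refine ⟨algebraMap (Zl ℓ) _ a, ?_⟩
    exact congrFun (congrArg DFunLike.coe (Tens.ringHom_eq ℓ
      ((incI ℓ).comp (algebraMap (Zl ℓ) (LaurentSeries (Zl ℓ))))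
      ((iotaF N).comp (algebraMap (Zl ℓ) ↥(modularFunctionFieldFull N))))) a
  | add y z _ _ hy hz =>
    obtain ⟨a, ha⟩ := hy
    obtain ⟨b, hb⟩ := hz
    exact ⟨a + b, by rw [map_add, map_add, ha, hb]⟩
  | mul y z _ _ hy hz =>
    obtain ⟨a, ha⟩ := hy
    obtain ⟨b, hb⟩ := hz
    exact ⟨a * b, by rw [map_mul, map_mul, ha, hb]⟩

lemma isIntegralElem_incI_of_mem_chartAlg {S : Set ↥(modularFunctionFieldFull N)}
    (hS : S ⊆ {jFull N, (jFull N)⁻¹}) {y : ↥(modularFunctionFieldFull N)}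
    (hy : y ∈ chartAlg N ℓ S) : (incI ℓ).IsIntegralElem (iotaF N y) :=
  isIntegralElem_of_range
    ((iotaF N).comp (algebraMap ↥(Algebra.adjoin (Zl ℓ) S) ↥(modularFunctionFieldFull N))) _
    (fun r => iotaF_mem_range_incI hS r.2)
    (isIntegralElem_map_comp _ (iotaF N) ((mem_chartAlg_iff N ℓ).1 hy))

variable (D : Block N ℓ)

lemma Block.iotaF_mem (y : ↥(modularFunctionFieldFull N)) : iotaF N y ∈ D.F' := D.le y.2

/-- the reduction map on a chart. -/
def Block.rhoChart (S : Set ↥(modularFunctionFieldFull N)) (hS : S ⊆ {jFull N, (jFull N)⁻¹}) :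
    ↥(chartAlg N ℓ S) →+* LaurentSeries (ZMod ℓ) :=
  (rhoL ℓ).comp (((iotaF N).comp (chartAlg N ℓ S).val.toRingHom).codRestrict (LamRing ℓ)
    (fun y => D.mem_LamRing (D.iotaF_mem y.1) (isIntegralElem_incI_of_mem_chartAlg hS y.2)))

lemma Block.rhoChart_apply (S : Set ↥(modularFunctionFieldFull N))
    (hS : S ⊆ {jFull N, (jFull N)⁻¹}) (y : ↥(chartAlg N ℓ S)) :
    D.rhoChart S hS y = rhoL ℓ ⟨iotaF N y.1,
      D.mem_LamRing (D.iotaF_mem y.1) (isIntegralElem_incI_of_mem_chartAlg hS y.2)⟩ := rfl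

lemma natCast_laurent_zmod : ((ℓ : ℕ) : LaurentSeries (ZMod ℓ)) = 0 := by
  rw [← map_natCast (redI ℓ), redI_natCast]

/-- general form of the kernel statement. -/
theorem Block.ker_rhoChart_singleton (x : ↥(modularFunctionFieldFull N))
    (hS : ({x} : Set ↥(modularFunctionFieldFull N)) ⊆ {jFull N, (jFull N)⁻¹})
    (hdiv : ∀ {f : LaurentSeries ℚ} (hf : f ∈ D.F'), (phi ℓ (iotaF N x)).IsIntegralElem f →
      ∀ (hW : (incI ℓ).IsIntegralElem f), rhoL ℓ ⟨f, D.mem_LamRing hf hW⟩ = 0 →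
      (phi ℓ (iotaF N x)).IsIntegralElem ((ℓ : LaurentSeries ℚ)⁻¹ * f)) :
    RingHom.ker (D.rhoChart {x} hS) = Ideal.span {((ℓ : ℕ) : ↥(chartAlg N ℓ {x}))} := by
  ext y
  rw [RingHom.mem_ker, Ideal.mem_span_singleton']
  constructor
  · intro hy
    rw [Block.rhoChart_apply] at hy
    have h1 := hdiv (D.iotaF_mem y.1) (mem_chartAlg_singleton_iff.1 y.2)
      (isIntegralElem_incI_of_mem_chartAlg hS y.2) hy
    have h2 : ((ℓ : ℕ) : ↥(modularFunctionFieldFull N))⁻¹ * y.1 ∈ chartAlg N ℓ {x} := by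
      rw [mem_chartAlg_singleton_iff, map_mul, map_inv₀, map_natCast]
      exact h1
    refine ⟨⟨_, h2⟩, Subtype.ext ?_⟩
    have hl : ((ℓ : ℕ) : ↥(modularFunctionFieldFull N)) ≠ 0 := by
      intro h
      apply natCast_ne_zero_E (ℓ := ℓ)
      rw [← map_natCast (iotaF N), h, map_zero]
    have hc : (((ℓ : ℕ) : ↥(chartAlg N ℓ {x})) : ↥(modularFunctionFieldFull N)) =
        ((ℓ : ℕ) : ↥(modularFunctionFieldFull N)) := map_natCast (chartAlg N ℓ {x}).val ℓ
    rw [Subalgebra.coe_mul, hc, mul_comm, mul_inv_cancel_left₀ hl]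
  · rintro ⟨a, rfl⟩
    rw [map_mul, map_natCast, natCast_laurent_zmod, mul_zero]

theorem Block.ker_rhoChart_fin :
    RingHom.ker (D.rhoChart {jFull N} (sFin_subset N)) =
      Ideal.span {((ℓ : ℕ) : ↥(chartAlgFin N ℓ))} :=
  D.ker_rhoChart_singleton (jFull N) (sFin_subset N)
    (fun hf hint hW h0 => D.isIntegralElem_div_fin hf hint hW h0)

theorem Block.ker_rhoChart_inf :
    RingHom.ker (D.rhoChart {(jFull N)⁻¹} (sInf_subset N)) =
      Ideal.span {((ℓ : ℕ) : ↥(chartAlgInf N ℓ))} :=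
  D.ker_rhoChart_singleton (jFull N)⁻¹ (sInf_subset N)
    (fun hf hint hW h0 => by
      rw [iotaF_jFull_inv] at hint ⊢
      exact D.isIntegralElem_div_inf hf hint hW h0)

end Lam

end Fermat.Agent.S28
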