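import Mathlib
import Fermat.Prelude.Def_ModularCurve_LaurentCoeff
import Fermat.Prelude.Def_GaloisRep_Flat

/-!
# S28, package T : from a reduction map with kernel `(ℓ)` to geometric integrality

If `ρ : A →+* 𝔽_ℓ((q))` has kernel `ℓ A` then `A ⊗[ℤ_(ℓ)] K` embeds into `K((q))` for every field
`K` of characteristic `ℓ`; in particular it is a domain.
-/

set_option autoImplicit false

open scoped TensorProduct
open ModularCurve

noncomputable section

namespace Fermat.Agent.S28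

namespace Tens

variable (ℓ : ℕ)

/-- a natural number prime to `ℓ` is a unit of `ℤ_(ℓ)`. -/
theorem isUnit_natCast {d : ℕ} (hd : d.Coprime ℓ) (hd0 : d ≠ 0) :
    IsUnit ((d : ℕ) : ↥(GaloisRep.ratLocalizedAt ℓ)) := by
  have hmem : ((d : ℚ)⁻¹) ∈ GaloisRep.ratLocalizedAt ℓ := by
    show ((d : ℚ)⁻¹).den.Coprime ℓ
    rw [Rat.inv_natCast_den, if_neg hd0]
    exact hd
  refine IsUnit.of_mul_eq_one ⟨(d : ℚ)⁻¹, hmem⟩ (Subtype.ext ?_)
  have : (d : ℚ) ≠ 0 := by exact_mod_cast hd0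
  simp [this]

/-- Ring homomorphisms out of `ℤ_(ℓ)` are unique. -/
theorem ringHom_eq {S : Type*} [CommRing S] (f g : ↥(GaloisRep.ratLocalizedAt ℓ) →+* S) :
    f = g := by
  ext x
  obtain ⟨r, hr⟩ := x
  have hu : IsUnit ((r.den : ℕ) : ↥(GaloisRep.ratLocalizedAt ℓ)) := isUnit_natCast ℓ hr r.den_nz
  have hmul : ((r.den : ℕ) : ↥(GaloisRep.ratLocalizedAt ℓ)) * ⟨r, hr⟩ =
      ((r.num : ℤ) : ↥(GaloisRep.ratLocalizedAt ℓ)) := by
    apply Subtype.ext
    simp [Rat.den_mul_eq_num]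
  have hf := congrArg f hmul
  have hg := congrArg g hmul
  rw [map_mul, map_natCast, map_intCast] at hf hg
  have hu' : IsUnit ((r.den : ℕ) : S) := by
    have := hu.map f
    rwa [map_natCast] at this
  exact hu'.mul_left_cancel (hf.trans hg.symm)

end Tens

section Main

variable (ℓ : ℕ) [Fact ℓ.Prime] (A : Type) [CommRing A] [Algebra ↥(GaloisRep.ratLocalizedAt ℓ) A]
  (ρ : A →+* LaurentSeries (ZMod ℓ))
  (K : Type) [Field K] [CharP K ℓ] [Algebra ↥(GaloisRep.ratLocalizedAt ℓ) K]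

namespace Tens

/-- `ρ` followed by the coefficient map `𝔽_ℓ((q)) → K((q))`, as a `ℤ_(ℓ)`-algebra map. -/
def rhoK : A →ₐ[↥(GaloisRep.ratLocalizedAt ℓ)] LaurentSeries K :=
  { (coeffMap (ZMod.castHom (dvd_refl ℓ) K)).comp ρ with
    commutes' := fun r => by
      have := ringHom_eq ℓ
        (((coeffMap (ZMod.castHom (dvd_refl ℓ) K)).comp ρ).comp
          (algebraMap ↥(GaloisRep.ratLocalizedAt ℓ) A))
        (algebraMap ↥(GaloisRep.ratLocalizedAt ℓ) (LaurentSeries K))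
      exact congrArg (fun h => h r) this }

theorem rhoK_coeff (a : A) (n : ℤ) :
    (rhoK ℓ A ρ K a).coeff n = ZMod.castHom (dvd_refl ℓ) K ((ρ a).coeff n) := rfl

/-- the constants `K → K((q))`, as a `ℤ_(ℓ)`-algebra map. -/
def constK : K →ₐ[↥(GaloisRep.ratLocalizedAt ℓ)] LaurentSeries K :=
  { algebraMap K (LaurentSeries K) with
    commutes' := fun r => by
      have := ringHom_eq ℓ
        ((algebraMap K (LaurentSeries K)).comp (algebraMap ↥(GaloisRep.ratLocalizedAt ℓ) K))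
        (algebraMap ↥(GaloisRep.ratLocalizedAt ℓ) (LaurentSeries K))
      exact congrArg (fun h => h r) this }

omit [Fact ℓ.Prime] [CharP K ℓ] in
theorem constK_apply (κ : K) : constK ℓ K κ = algebraMap K (LaurentSeries K) κ := rfl

/-- the comparison map `A ⊗ K → K((q))`. -/
def toLaurent : A ⊗[↥(GaloisRep.ratLocalizedAt ℓ)] K →ₐ[↥(GaloisRep.ratLocalizedAt ℓ)]
    LaurentSeries K :=
  Algebra.TensorProduct.productMap (rhoK ℓ A ρ K) (constK ℓ K)

theorem toLaurent_tmul_coeff (a : A) (κ : K) (n : ℤ) :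
    (toLaurent ℓ A ρ K (a ⊗ₜ κ)).coeff n =
      ZMod.castHom (dvd_refl ℓ) K ((ρ a).coeff n) * κ := by
  rw [toLaurent, Algebra.TensorProduct.productMap_apply_tmul, constK_apply,
    algebraMap_laurentSeries_eq_single, HahnSeries.coeff_mul_single_zero, rhoK_coeff]

/-- every element of `A ⊗ K` is a combination of the elements of an `𝔽_ℓ`-basis of `K`. -/
theorem exists_finsupp {ι : Type*} (b : @Module.Basis ι (ZMod ℓ) K _ _ (ZMod.algebra K ℓ).toModule)
    (x : A ⊗[↥(GaloisRep.ratLocalizedAt ℓ)] K) :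
    ∃ f : ι →₀ A, x = f.sum fun i a => a ⊗ₜ[↥(GaloisRep.ratLocalizedAt ℓ)] b i := by
  let _ := ZMod.algebra K ℓ
  induction x using TensorProduct.induction_on with
  | zero => exact ⟨0, by simp⟩
  | add x y hx hy =>
    obtain ⟨f, rfl⟩ := hx
    obtain ⟨g, rfl⟩ := hy
    refine ⟨f + g, ?_⟩
    rw [Finsupp.sum_add_index']
    · intro i; exact TensorProduct.zero_tmul _ _
    · intro i a a'; exact TensorProduct.add_tmul _ _ _
  | tmul a κ =>
    refine ⟨(b.repr κ).mapRange (fun c => ((c.val : ℕ) : A) * a) (by simp), ?_⟩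
    rw [Finsupp.sum_mapRange_index (h := fun i a => a ⊗ₜ[↥(GaloisRep.ratLocalizedAt ℓ)] b i)
      (fun i => TensorProduct.zero_tmul _ _)]
    conv_lhs => rw [← b.linearCombination_repr κ, Finsupp.linearCombination_apply, Finsupp.sum,
      TensorProduct.tmul_sum]
    refine Finset.sum_congr rfl fun i _ => ?_
    set c := b.repr κ i
    have h1 : c • b i = ((c.val : ℕ) : ↥(GaloisRep.ratLocalizedAt ℓ)) • b i := by
      rw [Algebra.smul_def, Algebra.smul_def, map_natCast]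
      congr 1
      conv_lhs => rw [← ZMod.natCast_zmod_val c]
      rw [map_natCast]
    have h2 : ((c.val : ℕ) : A) * a = ((c.val : ℕ) : ↥(GaloisRep.ratLocalizedAt ℓ)) • a := by
      rw [Algebra.smul_def, map_natCast]
    show a ⊗ₜ[↥(GaloisRep.ratLocalizedAt ℓ)] (c • b i) =
      (((c.val : ℕ) : A) * a) ⊗ₜ[↥(GaloisRep.ratLocalizedAt ℓ)] b i
    rw [h1, h2, TensorProduct.smul_tmul]

theorem toLaurent_injective (hρ : RingHom.ker ρ = Ideal.span {(ℓ : A)}) :
    Function.Injective (toLaurent ℓ A ρ K) := by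
  let _ := ZMod.algebra K ℓ
  rw [injective_iff_map_eq_zero]
  intro x hx
  let b := Module.Basis.ofVectorSpace (ZMod ℓ) K
  obtain ⟨f, rfl⟩ := exists_finsupp ℓ A K b x
  have hcoeff : ∀ n : ℤ, ∀ i ∈ f.support, (ρ (f i)).coeff n = 0 := by
    intro n
    refine linearIndependent_iff'.1 b.linearIndependent f.support
      (fun i => (ρ (f i)).coeff n) ?_
    have h := congrArg (fun y => HahnSeries.coeff y n) hx
    simp only [Finsupp.sum, map_sum, HahnSeries.coeff_sum, toLaurent_tmul_coeff,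
      HahnSeries.coeff_zero] at h
    rw [← h]
    refine Finset.sum_congr rfl fun i _ => ?_
    rw [Algebra.smul_def]
    rfl
  refine Finset.sum_eq_zero fun i hi => ?_
  have hker : f i ∈ RingHom.ker ρ := by
    rw [RingHom.mem_ker]
    ext n
    exact hcoeff n i hi
  rw [hρ, Ideal.mem_span_singleton'] at hker
  obtain ⟨a', ha'⟩ := hker
  have h2 : f i = ((ℓ : ℕ) : ↥(GaloisRep.ratLocalizedAt ℓ)) • a' := by
    rw [Algebra.smul_def, map_natCast, ← ha', mul_comm]
  have h3 : ((ℓ : ℕ) : ↥(GaloisRep.ratLocalizedAt ℓ)) • (b i) = 0 := by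
    rw [Algebra.smul_def, map_natCast, CharP.cast_eq_zero, zero_mul]
  show f i ⊗ₜ[↥(GaloisRep.ratLocalizedAt ℓ)] b i = 0
  rw [h2, TensorProduct.smul_tmul, h3, TensorProduct.tmul_zero]

end Tens

/-- **Package T.** If `ρ : A →+* 𝔽_ℓ((q))` has kernel `ℓ A`, then `A ⊗[ℤ_(ℓ)] K` is a domain for
every field `K` of characteristic `ℓ`. -/
theorem isDomain_tensor_of_ker (hρ : RingHom.ker ρ = Ideal.span {(ℓ : A)}) :
    IsDomain (A ⊗[↥(GaloisRep.ratLocalizedAt ℓ)] K) :=
  Function.Injective.isDomain (Tens.toLaurent ℓ A ρ K).toRingHom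
    (Tens.toLaurent_injective ℓ A ρ K hρ)

/-- The mere existence of a ring hom `ρ : A →+* 𝔽_ℓ((q))` makes `A ⊗[ℤ_(ℓ)] K` nontrivial. -/
theorem nontrivial_tensor_of_ringHom (ρ : A →+* LaurentSeries (ZMod ℓ)) :
    Nontrivial (A ⊗[↥(GaloisRep.ratLocalizedAt ℓ)] K) :=
  (Tens.toLaurent ℓ A ρ K).toRingHom.domain_nontrivial

end Main

end Fermat.Agent.S28
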