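import Fermat.Agent.S28.LamN
import Fermat.Agent.S28.LamZ
import Fermat.Agent.S28.Tensor

/-!
# S28, package LAM : the `q`-expansion principle for the charts

From the output of the degree block (a family `b i` of `ℓ`-integral series, integral over
`ℤ_(ℓ)[j]`, spanning a field `F' ⊇ F` over `ℚ(j)` and independent modulo `ℓ`) we construct ring
homomorphisms `chartAlg N ℓ S →+* 𝔽_ℓ((q))` with kernel `(ℓ)`.
-/

set_option autoImplicit false
open ModularCurve ModularCurve.IgusaScheme Polynomial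
noncomputable section
namespace Fermat.Agent.S28

namespace Lam

variable (ℓ : ℕ) [Fact ℓ.Prime]

/-! ### The local ring `Λ` of series with `ℓ`-integral fractions -/

/-- `f` is a fraction `w / t` of `ℓ`-integral series with `t ≠ 0` modulo `ℓ`. -/
def IsFrac (f : LaurentSeries ℚ) (t w : LaurentSeries (Zl ℓ)) : Prop :=
  redI ℓ t ≠ 0 ∧ incI ℓ t * f = incI ℓ w

variable {ℓ}

lemma IsFrac.incI_ne_zero {f : LaurentSeries ℚ} {t w : LaurentSeries (Zl ℓ)} (h : IsFrac ℓ f t w) :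
    incI ℓ t ≠ 0 := by
  intro h0
  have : t = 0 := incI_injective ℓ (by rw [h0, map_zero])
  exact h.1 (by rw [this, map_zero])

lemma IsFrac.unique {f : LaurentSeries ℚ} {t w t' w' : LaurentSeries (Zl ℓ)}
    (h : IsFrac ℓ f t w) (h' : IsFrac ℓ f t' w') :
    redI ℓ w / redI ℓ t = redI ℓ w' / redI ℓ t' := by
  have h1 : t * w' = t' * w := by
    apply incI_injective ℓ
    rw [map_mul, map_mul, ← h.2, ← h'.2]
    ring
  rw [div_eq_div_iff h.1 h'.1, ← map_mul, ← map_mul, mul_comm w t', ← h1, mul_comm]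

lemma IsFrac.add {f g : LaurentSeries ℚ} {t w t' w' : LaurentSeries (Zl ℓ)}
    (h : IsFrac ℓ f t w) (h' : IsFrac ℓ g t' w') : IsFrac ℓ (f + g) (t * t') (w * t' + w' * t) := by
  refine ⟨by rw [map_mul]; exact mul_ne_zero h.1 h'.1, ?_⟩
  rw [map_mul, map_add, map_mul, map_mul, ← h.2, ← h'.2]
  ring

lemma IsFrac.mul {f g : LaurentSeries ℚ} {t w t' w' : LaurentSeries (Zl ℓ)}
    (h : IsFrac ℓ f t w) (h' : IsFrac ℓ g t' w') : IsFrac ℓ (f * g) (t * t') (w * w') := by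
  refine ⟨by rw [map_mul]; exact mul_ne_zero h.1 h'.1, ?_⟩
  rw [map_mul, map_mul, ← h.2, ← h'.2]
  ring

lemma IsFrac.neg {f : LaurentSeries ℚ} {t w : LaurentSeries (Zl ℓ)}
    (h : IsFrac ℓ f t w) : IsFrac ℓ (-f) t (-w) :=
  ⟨h.1, by rw [map_neg, ← h.2, mul_neg]⟩

lemma isFrac_incI (w : LaurentSeries (Zl ℓ)) : IsFrac ℓ (incI ℓ w) 1 w :=
  ⟨by rw [map_one]; exact one_ne_zero, by rw [map_one, one_mul]⟩

lemma isFrac_one : IsFrac ℓ 1 1 1 :=
  ⟨by rw [map_one]; exact one_ne_zero, by rw [map_one, one_mul]⟩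

lemma isFrac_zero : IsFrac ℓ 0 1 0 :=
  ⟨by rw [map_one]; exact one_ne_zero, by rw [map_zero, mul_zero]⟩

variable (ℓ)

/-- `Λ` as a subring of `ℚ((q))`. -/
def LamRing : Subring (LaurentSeries ℚ) where
  carrier := {f | ∃ t w, IsFrac ℓ f t w}
  mul_mem' := by
    rintro f g ⟨t, w, h⟩ ⟨t', w', h'⟩
    exact ⟨_, _, h.mul h'⟩
  one_mem' := ⟨1, 1, isFrac_one⟩
  add_mem' := by
    rintro f g ⟨t, w, h⟩ ⟨t', w', h'⟩
    exact ⟨_, _, h.add h'⟩
  zero_mem' := ⟨1, 0, isFrac_zero⟩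
  neg_mem' := by
    rintro f ⟨t, w, h⟩
    exact ⟨_, _, h.neg⟩

/-- the reduction map on `Λ`, as a function. -/
def rhoFun (f : LamRing ℓ) : LaurentSeries (ZMod ℓ) :=
  redI ℓ f.2.choose_spec.choose / redI ℓ f.2.choose

variable {ℓ}

lemma rhoFun_eq {f : LamRing ℓ} {t w : LaurentSeries (Zl ℓ)} (h : IsFrac ℓ f t w) :
    rhoFun ℓ f = redI ℓ w / redI ℓ t :=
  IsFrac.unique f.2.choose_spec.choose_spec h

lemma rhoFun_one : rhoFun ℓ 1 = 1 := by
  have h : IsFrac ℓ ((1 : LamRing ℓ) : LaurentSeries ℚ) 1 1 := by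
    rw [Subring.coe_one]; exact isFrac_one
  rw [rhoFun_eq h, map_one, div_one]

lemma rhoFun_zero : rhoFun ℓ 0 = 0 := by
  have h : IsFrac ℓ ((0 : LamRing ℓ) : LaurentSeries ℚ) 1 0 := by
    rw [Subring.coe_zero]; exact isFrac_zero
  rw [rhoFun_eq h, map_zero, zero_div]

lemma rhoFun_mul (f g : LamRing ℓ) : rhoFun ℓ (f * g) = rhoFun ℓ f * rhoFun ℓ g := by
  obtain ⟨t, w, h⟩ := f.2
  obtain ⟨t', w', h'⟩ := g.2
  have hm : IsFrac ℓ ((f * g : LamRing ℓ) : LaurentSeries ℚ) (t * t') (w * w') := by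
    rw [Subring.coe_mul]; exact h.mul h'
  rw [rhoFun_eq hm, rhoFun_eq h, rhoFun_eq h', map_mul, map_mul, div_mul_div_comm]

lemma rhoFun_add (f g : LamRing ℓ) : rhoFun ℓ (f + g) = rhoFun ℓ f + rhoFun ℓ g := by
  obtain ⟨t, w, h⟩ := f.2
  obtain ⟨t', w', h'⟩ := g.2
  have hm : IsFrac ℓ ((f + g : LamRing ℓ) : LaurentSeries ℚ) (t * t') (w * t' + w' * t) := by
    rw [Subring.coe_add]; exact h.add h'
  rw [rhoFun_eq hm, rhoFun_eq h, rhoFun_eq h', map_mul, map_add, map_mul, map_mul,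
    div_add_div _ _ h.1 h'.1, mul_comm (redI ℓ t) (redI ℓ w')]

variable (ℓ)

/-- the reduction map `Λ → 𝔽_ℓ((q))`. -/
def rhoL : LamRing ℓ →+* LaurentSeries (ZMod ℓ) where
  toFun := rhoFun ℓ
  map_one' := rhoFun_one
  map_zero' := rhoFun_zero
  map_mul' := rhoFun_mul
  map_add' := rhoFun_add

variable {ℓ}

lemma rhoL_eq {f : LamRing ℓ} {t w : LaurentSeries (Zl ℓ)} (h : IsFrac ℓ f t w) :
    rhoL ℓ f = redI ℓ w / redI ℓ t := rhoFun_eq h

lemma rhoL_eq_zero_iff {f : LamRing ℓ} {t w : LaurentSeries (Zl ℓ)} (h : IsFrac ℓ f t w) :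
    rhoL ℓ f = 0 ↔ redI ℓ w = 0 := by
  rw [rhoL_eq h, div_eq_zero_iff]
  exact ⟨fun h' => h'.resolve_right h.1, Or.inl⟩

end Lam

end Fermat.Agent.S28
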