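import Fermat.Agent.S28.DegDefsAn
import Fermat.Agent.S24.JFunQ

/-!
# S28, degree block: the basic `q`-expansions (`j`, `Δ`, `1/Δ`)
-/

set_option autoImplicit false

noncomputable section

namespace Fermat.Agent.S28

open ModularCurve HahnSeries UpperHalfPlane ModularForm Fermat.Agent.S24
open scoped MatrixGroups Real Manifold

namespace TExpBase

theorem tPar_one (τ : ℍ) : tPar 1 τ = Function.Periodic.qParam 1 (τ : ℂ) := by
  simp [tPar, Function.Periodic.qParam]

theorem tPar_ne_zero (N : ℕ) (τ : ℍ) : tPar N τ ≠ 0 := Complex.exp_ne_zero _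

/-- coefficients of `q^k * (power series)`. -/
theorem coeff_single_mul_ofPowerSeries (k : ℤ) (P : PowerSeries ℂ) (n : ℕ) :
    (HahnSeries.single k (1 : ℂ) * HahnSeries.ofPowerSeries ℤ ℂ P).coeff ((n : ℤ) + k) =
      P.coeff n := by
  rw [HahnSeries.coeff_single_mul_add, one_mul, HahnSeries.ofPowerSeries_apply_coeff]

theorem coeff_single_mul_ofPowerSeries_of_lt (k : ℤ) (P : PowerSeries ℂ) {n : ℤ} (hn : n < k) :
    (HahnSeries.single k (1 : ℂ) * HahnSeries.ofPowerSeries ℤ ℂ P).coeff n = 0 := by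
  have h : n = (n - k) + k := by ring
  rw [h, HahnSeries.coeff_single_mul_add, one_mul, HahnSeries.ofPowerSeries_apply]
  refine HahnSeries.embDomain_of_notMem_range ?_
  rintro ⟨m, hm⟩
  have : (m : ℤ) = n - k := hm
  omega

end TExpBase

open TExpBase

theorem hasTExp_jfun : HasTExp 1 jfun (jqModC ℂ) := by
  refine ⟨1, fun n hn => ?_, fun τ => ?_⟩
  · exact coeff_single_mul_ofPowerSeries_of_lt _ _ (by simpa using hn)
  · have h := hasSum_jNum τ
    rw [← tPar_one] at h
    rw [pow_one]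
    refine h.congr_fun fun n => ?_
    have := coeff_single_mul_ofPowerSeries (-1) (jNum.map (Int.castRingHom ℂ)) n
    rw [jqModC]
    rw [show ((n : ℤ) - ((1 : ℕ) : ℤ)) = (n : ℤ) + (-1) by push_cast; ring, this]
    simp

theorem hasTExp_discriminant : HasTExp 1 (fun τ => discriminant τ) (deltaS ℂ) := by
  refine ⟨0, fun n hn => ?_, fun τ => ?_⟩
  · exact coeff_single_mul_ofPowerSeries_of_lt _ _ (by
      have : n < 0 := by simpa using hn
      omega)
  · have h := (hasSum_dedekindEtaUnit τ).mul_right (tPar 1 τ)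
    rw [← tPar_one, div_mul_cancel₀ _ (tPar_ne_zero 1 τ)] at h
    rw [pow_zero, one_mul]
    rw [← hasSum_nat_add_iff' 1]
    simp only [Finset.range_one, Finset.sum_singleton]
    have h0 : (deltaS ℂ).coeff (((0 : ℕ) : ℤ) - ((0 : ℕ) : ℤ)) = 0 :=
      coeff_single_mul_ofPowerSeries_of_lt _ _ (by norm_num)
    rw [h0, zero_mul, sub_zero]
    refine h.congr_fun fun n => ?_
    have := coeff_single_mul_ofPowerSeries 1 (dedekindEtaUnit.map (Int.castRingHom ℂ)) n
    rw [deltaS]
    rw [show (((n + 1 : ℕ) : ℤ) - ((0 : ℕ) : ℤ)) = (n : ℤ) + 1 by push_cast; ring, this]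
    simp [pow_succ, mul_assoc]

theorem hasTExp_discriminant_inv : HasTExp 1 (fun τ => (discriminant τ)⁻¹) (deltaInvS ℂ) := by
  refine ⟨1, fun n hn => ?_, fun τ => ?_⟩
  · exact coeff_single_mul_ofPowerSeries_of_lt _ _ (by simpa using hn)
  · have h := hasSum_dedekindEtaUnitInv τ
    rw [← tPar_one] at h
    rw [pow_one, ← div_eq_mul_inv]
    refine h.congr_fun fun n => ?_
    have := coeff_single_mul_ofPowerSeries (-1) (dedekindEtaUnitInv.map (Int.castRingHom ℂ)) n
    rw [deltaInvS]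
    rw [show ((n : ℤ) - ((1 : ℕ) : ℤ)) = (n : ℤ) + (-1) by push_cast; ring, this]
    simp

end Fermat.Agent.S28
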