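import Fermat.Agent.S28.TExp
import Fermat.Agent.S28.TExpBase

/-!
# S28, degree block: a holomorphic `SL₂(ℤ)`-invariant function with finite polar part is a
polynomial in `j`
-/

set_option autoImplicit false

noncomputable section

namespace Fermat.Agent.S28

open ModularCurve HahnSeries UpperHalfPlane ModularForm Fermat.Agent.S24 Fermat.Agent.S21
open scoped MatrixGroups Real Manifold

namespace PolyJ

theorem twist_one (s : LaurentSeries ℂ) : twist (1 : ℂˣ) s = s := by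
  ext n
  simp

theorem tPar_one_eq_pow (N : ℕ) [NeZero N] (τ : ℍ) : tPar 1 τ = tPar N τ ^ N := by
  have hN : (N : ℂ) ≠ 0 := Nat.cast_ne_zero.mpr (NeZero.ne N)
  rw [tPar, tPar, ← Complex.exp_nat_mul]
  congr 1
  field_simp
  simp

/-- the `t`-expansion of `j`. -/
theorem hasTExp_jfun_Jt (N : ℕ) [NeZero N] : HasTExp N jfun (Jt ℂ N) := by
  have h := hasTExp_jfun.comp (N := N) (NeZero.ne N) 1 id (fun τ => by
    simpa using tPar_one_eq_pow N τ)
  rw [twist_one] at h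
  exact h

theorem hasTExp_pow {N : ℕ} [NeZero N] {f : ℍ → ℂ} {s : LaurentSeries ℂ} (h : HasTExp N f s)
    (k : ℕ) : HasTExp N (fun τ => f τ ^ k) (s ^ k) := by
  induction k with
  | zero => simpa using HasTExp.const N 1
  | succ k ih => simpa [pow_succ] using ih.mul h

theorem coeff_Jt_pow_self (N : ℕ) [NeZero N] (k : ℕ) :
    (Jt ℂ N ^ k).coeff (-((N * k : ℕ) : ℤ)) = 1 := by
  rw [Jt, qExp_eq, ← map_pow, show (-((N * k : ℕ) : ℤ)) = (N : ℤ) * (-(k : ℤ)) by push_cast; ring,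
    qExpand_coeff_mul, coeff_jqModC_pow_self]

theorem coeff_Jt_pow_of_lt (N : ℕ) [NeZero N] (k : ℕ) {n : ℤ} (hn : n < -((N * k : ℕ) : ℤ)) :
    (Jt ℂ N ^ k).coeff n = 0 := by
  rw [Jt, qExp_eq, ← map_pow]
  by_cases hd : (N : ℤ) ∣ n
  · obtain ⟨m, rfl⟩ := hd
    rw [qExpand_coeff_mul]
    refine coeff_jqModC_pow_of_lt ℂ ?_
    have hN : (0 : ℤ) < N := by exact_mod_cast Nat.pos_of_ne_zero (NeZero.ne N)
    push_cast at hn
    nlinarith
  · exact qExpand_coeff_of_not_dvd N _ hd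

/-- a bounded holomorphic invariant function is constant. -/
theorem exists_const {G : ℍ → ℂ} (hol : MDiff G)
    (inv : ∀ (γ : SL(2, ℤ)) (τ : ℍ), G (γ • τ) = G τ) (hb : IsBoundedAtImInfty G) :
    ∃ c : ℂ, ∀ τ, G τ = c := by
  have hsl : ∀ γ : SL(2, ℤ), G ∣[(0 : ℤ)] γ = G := by
    intro γ
    funext τ
    rw [SL_slash_apply, inv γ τ]
    simp
  have hG : IsMF ⊤ 0 G := ⟨hol, fun γ _ => hsl γ, fun g => by rw [hsl g]; exact hb⟩
  obtain ⟨c, hc⟩ := ModularFormClass.levelOne_weight_zero_const hG.toLevelOne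
  exact ⟨c, fun τ => by
    have := congrFun hc τ
    simpa using this⟩

theorem periodic_of_inv {G : ℍ → ℂ} (inv : ∀ (γ : SL(2, ℤ)) (τ : ℍ), G (γ • τ) = G τ) (τ : ℍ) :
    G ((1 : ℝ) +ᵥ τ) = G τ := by
  rw [← inv ModularGroup.T τ, modular_T_smul]

theorem aux {N : ℕ} [NeZero N] (m : ℕ) : ∀ {G : ℍ → ℂ} (_ : MDiff G)
    (_ : ∀ (γ : SL(2, ℤ)) (τ : ℍ), G (γ • τ) = G τ) {s : LaurentSeries ℂ} (_ : HasTExp N G s)
    (_ : ∀ n : ℤ, n < -(m : ℤ) → s.coeff n = 0),
    ∃ c : Polynomial ℂ, s = Polynomial.aeval (Jt ℂ N) c ∧ ∀ τ, G τ = c.eval (jfun τ) := by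
  induction m with
  | zero =>
    intro G hol inv s hs h0
    obtain ⟨c, hc⟩ := exists_const hol inv (hs.isBoundedAtImInfty (by simpa using h0))
    have hG : G = fun _ => c := funext hc
    refine ⟨Polynomial.C c, ?_, fun τ => by simp [hc]⟩
    rw [hG] at hs
    rw [hs.unique (HasTExp.const N c), Polynomial.aeval_C, TExp.algebraMap_eq_C]
  | succ m ih =>
    intro G hol inv s hs h0
    by_cases hd : (N : ℤ) ∣ -((m + 1 : ℕ) : ℤ)
    · obtain ⟨k, hk⟩ : ∃ k : ℕ, m + 1 = N * k := by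
        have : (N : ℤ) ∣ ((m + 1 : ℕ) : ℤ) := (dvd_neg).mp hd
        exact Int.natCast_dvd_natCast.mp this
      set a : ℂ := s.coeff (-((m + 1 : ℕ) : ℤ)) with ha
      have hJ := hasTExp_pow (hasTExp_jfun_Jt N) k
      have h1 : HasTExp N (fun τ => G τ + (-a) * jfun τ ^ k)
          (s + HahnSeries.C (-a) * Jt ℂ N ^ k) := hs.add ((HasTExp.const N (-a)).mul hJ)
      have e1 : MDiff (fun τ => G τ + (-a) * jfun τ ^ k) :=
        hol.add (mdifferentiable_const.mul (jfun_mdiff.pow k))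
      have e2 : ∀ (γ : SL(2, ℤ)) (τ : ℍ),
          G (γ • τ) + (-a) * jfun (γ • τ) ^ k = G τ + (-a) * jfun τ ^ k := by
        intro γ τ
        simp only [inv, jfun_smul]
      have e3 : ∀ n : ℤ, n < -(m : ℤ) → (s + HahnSeries.C (-a) * Jt ℂ N ^ k).coeff n = 0 := by
        intro n hn
        rw [HahnSeries.coeff_add, HahnSeries.C_mul_eq_smul, HahnSeries.coeff_smul, smul_eq_mul]
        rcases lt_or_eq_of_le (show n ≤ -((m + 1 : ℕ) : ℤ) by push_cast; omega) with h | h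
        · rw [h0 n h, coeff_Jt_pow_of_lt N k (by rw [← hk]; exact h)]
          simp
        · rw [h, ← ha]
          conv_lhs => rw [hk]
          rw [coeff_Jt_pow_self]
          ring
      obtain ⟨c, hc1, hc2⟩ := ih e1 e2 h1 e3
      refine ⟨c + Polynomial.C a * Polynomial.X ^ k, ?_, fun τ => ?_⟩
      · rw [map_add, ← hc1, map_mul, map_pow, Polynomial.aeval_C, Polynomial.aeval_X,
          TExp.algebraMap_eq_C, map_neg]
        ring
      · rw [Polynomial.eval_add, ← hc2 τ]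
        simp
    · refine ih hol inv hs fun n hn => ?_
      rcases lt_or_eq_of_le (show n ≤ -((m + 1 : ℕ) : ℤ) by push_cast; omega) with h | h
      · exact h0 n h
      · rw [h]
        exact hs.coeff_eq_zero_of_periodic (periodic_of_inv inv) hd

end PolyJ

theorem exists_poly_j {N : ℕ} [NeZero N] {G : ℍ → ℂ} (hol : MDiff G)
    (inv : ∀ (γ : SL(2, ℤ)) (τ : ℍ), G (γ • τ) = G τ) {s : LaurentSeries ℂ} (hs : HasTExp N G s) :
    ∃ c : Polynomial ℂ, s = Polynomial.aeval (Jt ℂ N) c ∧ ∀ τ, G τ = c.eval (jfun τ) := by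
  obtain ⟨m, hm, -⟩ := id hs
  exact PolyJ.aux m hol inv hs hm

end Fermat.Agent.S28
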