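import Fermat.Agent.S28.TExp
import Fermat.Agent.S28.TExpBase
import Fermat.Agent.S28.PolyJ
import Fermat.Agent.S28.AnConj
import Fermat.Agent.S24.Hol

/-!
# S28, degree block: the modular equation over `ℂ`
-/

set_option autoImplicit false

noncomputable section

namespace Fermat.Agent.S28

open ModularCurve HahnSeries UpperHalfPlane ModularForm Fermat.Agent.S24 Fermat.Agent.S21
open scoped MatrixGroups Real Manifold

namespace ModEqC

open AnConj

theorem twist_one {R : Type*} [CommRing R] (f : LaurentSeries R) : twist (1 : Rˣ) f = f := by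
  ext n
  simp

theorem mOf_ne_zero {N : ℕ} [NeZero N] (γ : SL(2, ℤ)) {d : ℕ} (hd : d ∣ N) : mOf N γ d ≠ 0 := by
  have hd0 : d ≠ 0 := fun h => NeZero.ne N (by simpa [h] using hd)
  rw [mOf]
  exact Nat.mul_ne_zero (pow_ne_zero _ (aOf_pos γ hd0).ne')
    (Nat.div_pos (Nat.le_of_dvd (Nat.pos_of_ne_zero (NeZero.ne N)) hd)
      (Nat.pos_of_ne_zero hd0)).ne'

theorem tPar_one_eq (N : ℕ) [NeZero N] (τ : ℍ) : tPar 1 τ = ((1 : ℂˣ) : ℂ) * tPar N τ ^ N := by
  have hNc : (N : ℂ) ≠ 0 := by exact_mod_cast NeZero.ne N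
  rw [tPar, tPar, ← Complex.exp_nat_mul, Units.val_one, one_mul]
  congr 1
  field_simp
  simp

theorem hasTExp_discriminant_inv' (N : ℕ) [NeZero N] :
    HasTExp N (fun τ => (discriminant τ)⁻¹) (qExp ℂ N (deltaInvS ℂ)) := by
  have := HasTExp.comp (N := N) hasTExp_discriminant_inv (NeZero.ne N) 1 id (tPar_one_eq N)
  rwa [twist_one] at this

end ModEqC

open ModEqC AnConj

theorem hasTExp_fgen_smul {N : ℕ} [NeZero N] (γ : SL(2, ℤ)) (x : Gen N) :
    HasTExp N (fun τ => fgen N x (γ • τ)) (cgen ℂ (zetaC N) N γ x) := by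
  obtain ⟨t, ⟨d, hdm⟩⟩ := x
  have hdN : d ∣ N := Nat.dvd_of_mem_divisors hdm
  have hd : d ≠ 0 := fun h => NeZero.ne N (by simpa [h] using hdN)
  cases t
  · simp only [fgen, cgen, Bool.false_eq_true, if_false, fX_smul γ hd]
    exact HasTExp.comp hasTExp_jfun (mOf_ne_zero γ hdN) _ _ (tPar_aff γ hdN)
  · simp only [fgen, cgen, if_true, fY_smul γ hd]
    have h1 := HasTExp.comp hasTExp_discriminant (mOf_ne_zero γ hdN) _ _ (tPar_aff γ hdN)
    have h0 := HasTExp.const N ((aOf γ d : ℂ) ^ 12)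
    have h2 := (h0.mul h1).mul (hasTExp_discriminant_inv' N)
    rw [cY]
    have e : (HahnSeries.C ((aOf γ d : ℂ) ^ 12) : LaurentSeries ℂ) = (aOf γ d : LaurentSeries ℂ) ^ 12 := by
      rw [map_pow, map_natCast]
    rw [e] at h2
    simpa only [div_eq_mul_inv] using h2

namespace ModEqC

/-- the conjugate functions of a polynomial in the generators. -/
def Fc (N : ℕ) (U : MvPolynomial (Gen N) ℂ) (i : Cos N) (τ : ℍ) : ℂ :=
  MvPolynomial.aeval (fun x => fgen N x (rep i • τ)) U

theorem hasTExp_Fc {N : ℕ} [NeZero N] (U : MvPolynomial (Gen N) ℂ) (i : Cos N) :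
    HasTExp N (Fc N U i) (ev ℂ (zetaC N) N (rep i) U) :=
  HasTExp.aeval (fun x => hasTExp_fgen_smul (rep i) x) U

theorem mdiff_aeval {σ : Type*} {g : σ → ℍ → ℂ} (hg : ∀ x, MDiff (g x))
    (U : MvPolynomial σ ℂ) : MDiff (fun τ => MvPolynomial.aeval (fun x => g x τ) U) := by
  induction U using MvPolynomial.induction_on with
  | C a =>
    simp only [MvPolynomial.algHom_C]
    exact mdifferentiable_const
  | add p q hp hq =>
    simp only [map_add]
    exact hp.add hq
  | mul_X p x hp =>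
    simp only [map_mul, MvPolynomial.aeval_X]
    exact hp.mul (hg x)

theorem mdiff_Fc {N : ℕ} [NeZero N] (U : MvPolynomial (Gen N) ℂ) (i : Cos N) :
    MDiff (Fc N U i) :=
  mdiff_aeval (fun x => mdiff_fgen_smul x (rep i)) U

theorem Fc_smul {N : ℕ} [NeZero N] (U : MvPolynomial (Gen N) ℂ) (γ : SL(2, ℤ)) :
    ∃ pm : Equiv.Perm (Cos N), ∀ i τ, Fc N U i (γ • τ) = Fc N U (pm i) τ := by
  obtain ⟨pm, hpm⟩ := exists_perm_rep (N := N) γ
  refine ⟨pm, fun i τ => ?_⟩
  have key : ∀ x, fgen N x (rep i • γ • τ) = fgen N x (rep (pm i) • τ) := by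
    intro x
    have h : (rep i * γ * (rep (pm i))⁻¹) • rep (pm i) • τ = rep i • γ • τ := by
      rw [← mul_smul, inv_mul_cancel_right, mul_smul]
    rw [← h, fgen_smul_of_mem_Gamma0 (hpm i)]
  simp only [Fc, key]

theorem map_perm {α β : Type*} [Fintype α] (pm : Equiv.Perm α) (f : α → β) :
    Finset.univ.val.map (fun i => f (pm i)) = Finset.univ.val.map f := by
  have h1 : Finset.univ.val.map (fun i => f (pm i)) = (Finset.univ.val.map pm).map f := by
    rw [Multiset.map_map]
    rfl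
  have h2 : (Finset.univ : Finset α).val.map pm = Finset.univ.val := by
    have := congrArg Finset.val (Finset.map_univ_equiv pm)
    simpa [Finset.map_val] using this
  rw [h1, h2]

theorem mdiff_esymm {ι : Type*} [Fintype ι] {f : ι → ℍ → ℂ} (hf : ∀ i, MDiff (f i)) (n : ℕ) :
    MDiff (fun τ => (Finset.univ.val.map (fun i => f i τ)).esymm n) := by
  have key : (fun τ => (Finset.univ.val.map (fun i => f i τ)).esymm n)
      = ∑ t ∈ Finset.univ.powersetCard n, ∏ i ∈ t, f i := by
    funext τ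
    rw [Finset.esymm_map_val]
    simp
  rw [key, ← mem_Hol]
  exact Subalgebra.sum_mem _ fun t _ => Subalgebra.prod_mem _ fun i _ => hf i

end ModEqC

open ModEqC

theorem modEq_complex (N : ℕ) [NeZero N] : ModEq ℂ (zetaC N) N := by
  intro U
  have hex : ∀ n : ℕ, ∃ c : Polynomial ℂ,
      (Finset.univ.val.map (fun i : Cos N => ev ℂ (zetaC N) N (rep i) U)).esymm n
        = Polynomial.aeval (Jt ℂ N) c := by
    intro n
    obtain ⟨c, hc, -⟩ := exists_poly_j (N := N)
      (G := fun τ => (Finset.univ.val.map (fun i : Cos N => Fc N U i τ)).esymm n)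
      (mdiff_esymm (fun i => mdiff_Fc U i) n)
      (by
        intro γ τ
        obtain ⟨pm, hpm⟩ := Fc_smul U γ
        simp only [hpm]
        rw [map_perm pm (fun i => Fc N U i τ)])
      (HasTExp.esymm (fun i => hasTExp_Fc U i) n)
    exact ⟨c, hc⟩
  choose c hc using hex
  set s : Multiset (LaurentSeries ℂ) :=
    Finset.univ.val.map (fun i : Cos N => ev ℂ (zetaC N) N (rep i) U) with hs
  refine ⟨∑ j ∈ Finset.range (Multiset.card s + 1),
    (-1) ^ j * (Polynomial.C (c j) * Polynomial.X ^ (Multiset.card s - j)), ?_⟩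
  have h := Multiset.prod_X_sub_X_eq_sum_esymm s
  have h2 : (s.map fun t => Polynomial.X - Polynomial.C t).prod
      = ∏ i : Cos N, (Polynomial.X - Polynomial.C (ev ℂ (zetaC N) N (rep i) U)) := by
    rw [hs, Multiset.map_map]
    rfl
  rw [← h2, h, Polynomial.map_sum]
  refine Finset.sum_congr rfl fun j _ => ?_
  simp only [Polynomial.map_mul, Polynomial.map_pow, Polynomial.map_neg, Polynomial.map_one,
    Polynomial.map_C, Polynomial.map_X]
  rw [hc j]
  rfl

theorem unitEq_complex (N : ℕ) [NeZero N] : UnitEq ℂ (zetaC N) N := by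
  intro d hd
  have hd0 : d ≠ 0 := fun h => NeZero.ne N (by simpa [h] using hd)
  have hdm : d ∈ N.divisors := Nat.mem_divisors.mpr ⟨hd, NeZero.ne N⟩
  set x : Gen N := (true, ⟨d, hdm⟩) with hx
  have hfx : ∀ τ, fgen N x τ = fY d τ := fun τ => by simp [fgen, hx]
  have hcx : ∀ γ, cgen ℂ (zetaC N) N γ x = cY ℂ (zetaC N) N γ d := fun γ => by simp [cgen, hx]
  have hFc : ∀ i τ, Fc N (MvPolynomial.X x) i τ = fY d (rep i • τ) := fun i τ => by
    simp [Fc, hfx]
  obtain ⟨c, hc, hc2⟩ := exists_poly_j (N := N)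
      (G := fun τ => ∏ i : Cos N, Fc N (MvPolynomial.X x) i τ)
      (by
        have : (fun τ => ∏ i : Cos N, Fc N (MvPolynomial.X x) i τ)
            = ∏ i : Cos N, Fc N (MvPolynomial.X x) i := by
          funext τ; simp
        rw [this, ← mem_Hol]
        exact Subalgebra.prod_mem _ fun i _ => mdiff_Fc _ i)
      (by
        intro γ τ
        obtain ⟨pm, hpm⟩ := Fc_smul (MvPolynomial.X x) γ
        simp only [hpm]
        exact Equiv.prod_comp pm (fun i => Fc N (MvPolynomial.X x) i τ))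
      (HasTExp.prod (fun i => hasTExp_Fc (MvPolynomial.X x) i))
  have hev : ∀ i : Cos N, ev ℂ (zetaC N) N (rep i) (MvPolynomial.X x)
      = cY ℂ (zetaC N) N (rep i) d := fun i => by simp [ev, hcx]
  simp only [hev] at hc
  have hdeg : c.degree = 0 ∨ c = 0 := by
    by_contra hne
    push Not at hne
    obtain ⟨z, hz⟩ := IsAlgClosed.exists_root c hne.1
    obtain ⟨τ, rfl⟩ := jfun_surjective z
    have := hc2 τ
    rw [hz.eq_zero] at this
    simp only [hFc] at this
    rw [Finset.prod_eq_zero_iff] at this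
    obtain ⟨i, -, hi⟩ := this
    exact fY_ne_zero hd0 _ hi
  have hC : c = Polynomial.C (c.coeff 0) := by
    rcases hdeg with h | h
    · exact Polynomial.eq_C_of_degree_eq_zero h
    · simp [h]
  refine ⟨c.coeff 0, ?_⟩
  rw [hc, hC, Polynomial.aeval_C, algebraMap_laurentSeries_eq_single]
  simp

end Fermat.Agent.S28
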