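import Fermat.Agent.S28.DegDefsAn

/-!
# S28, degree block, package D-TEXP: calculus of `t`-expansions
-/

set_option autoImplicit false

noncomputable section

namespace Fermat.Agent.S28

open ModularCurve HahnSeries UpperHalfPlane ModularForm Fermat.Agent.S24
open scoped MatrixGroups Real Manifold

namespace TExp

/-- the Laurent series `t^{-m} S`. -/
def lau (m : ℕ) (S : PowerSeries ℂ) : LaurentSeries ℂ :=
  HahnSeries.single (-(m : ℤ)) 1 * HahnSeries.ofPowerSeries ℤ ℂ S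

theorem lau_coeff (m : ℕ) (S : PowerSeries ℂ) (n : ℕ) :
    (lau m S).coeff ((n : ℤ) - m) = PowerSeries.coeff n S := by
  have h : ((n : ℤ) - m) = (n : ℤ) + (-(m : ℤ)) := by ring1
  rw [lau, h, HahnSeries.coeff_single_mul_add, one_mul, HahnSeries.ofPowerSeries_apply_coeff]

theorem lau_coeff_neg (m : ℕ) (S : PowerSeries ℂ) {n : ℤ} (hn : n < -(m : ℤ)) :
    (lau m S).coeff n = 0 := by
  have h : n = (n + m) + (-(m : ℤ)) := by ring1
  rw [lau, h, HahnSeries.coeff_single_mul_add, one_mul]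
  exact ModularCurve.ofPowerSeries_coeff_of_neg _ (by omega)

theorem eq_lau {s : LaurentSeries ℂ} {m : ℕ} (h : ∀ n : ℤ, n < -(m : ℤ) → s.coeff n = 0) :
    s = lau m (PowerSeries.mk fun n => s.coeff ((n : ℤ) - m)) := by
  ext n
  by_cases hn : n < -(m : ℤ)
  · rw [h n hn, lau_coeff_neg _ _ hn]
  · obtain ⟨k, hk⟩ : ∃ k : ℕ, n = (k : ℤ) - m := ⟨(n + m).toNat, by omega⟩
    rw [hk, lau_coeff, PowerSeries.coeff_mk]

/-- `t^m f = ∑ S_n t^n` on `ℍ`. -/
def Rep (N : ℕ) (f : ℍ → ℂ) (m : ℕ) (S : PowerSeries ℂ) : Prop :=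
  ∀ τ : ℍ, HasSum (fun n : ℕ => PowerSeries.coeff n S * tPar N τ ^ n) (tPar N τ ^ m * f τ)

theorem hasTExp_iff {N : ℕ} {f : ℍ → ℂ} {s : LaurentSeries ℂ} :
    HasTExp N f s ↔ ∃ (m : ℕ) (S : PowerSeries ℂ), s = lau m S ∧ Rep N f m S := by
  constructor
  · rintro ⟨m, h1, h2⟩
    refine ⟨m, _, eq_lau h1, fun τ => ?_⟩
    simpa only [PowerSeries.coeff_mk] using h2 τ
  · rintro ⟨m, S, rfl, h⟩
    refine ⟨m, fun n hn => lau_coeff_neg _ _ hn, fun τ => ?_⟩
    simpa only [lau_coeff] using h τ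

theorem Rep.hasTExp {N : ℕ} {f : ℍ → ℂ} {m : ℕ} {S : PowerSeries ℂ} (h : Rep N f m S) :
    HasTExp N f (lau m S) := hasTExp_iff.2 ⟨m, S, rfl, h⟩

theorem lau_mul (m k : ℕ) (S T : PowerSeries ℂ) : lau m S * lau k T = lau (m + k) (S * T) := by
  have h : HahnSeries.single (-((m + k : ℕ) : ℤ)) (1 : ℂ)
      = HahnSeries.single (-(m : ℤ)) 1 * HahnSeries.single (-(k : ℤ)) 1 := by
    rw [HahnSeries.single_mul_single, one_mul, Nat.cast_add, neg_add]
  rw [lau, lau, lau, h, map_mul]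
  ring1

theorem lau_add (m : ℕ) (S T : PowerSeries ℂ) : lau m S + lau m T = lau m (S + T) := by
  rw [lau, lau, lau, map_add, mul_add]

theorem lau_X_pow (k : ℕ) : lau k (PowerSeries.X ^ k) = 1 := by
  rw [lau, HahnSeries.ofPowerSeries_X_pow, HahnSeries.single_mul_single, one_mul]
  simp

theorem lau_shift (m k : ℕ) (S : PowerSeries ℂ) : lau (m + k) (S * PowerSeries.X ^ k) = lau m S := by
  rw [← lau_mul, lau_X_pow, mul_one]

theorem lau_zero_C (c : ℂ) : lau 0 (PowerSeries.C c) = HahnSeries.C c := by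
  rw [lau, HahnSeries.ofPowerSeries_C]
  simp

theorem algebraMap_eq_C (c : ℂ) : algebraMap ℂ (LaurentSeries ℂ) c = HahnSeries.C c := by
  have h1 : algebraMap ℂ (PowerSeries ℂ) c = PowerSeries.C c := by simp
  rw [HahnSeries.algebraMap_apply', h1, HahnSeries.ofPowerSeries_C]

theorem lau_injective (m : ℕ) : Function.Injective (lau m) := by
  intro S T h
  ext n
  rw [← lau_coeff m S n, ← lau_coeff m T n, h]


theorem Rep.const (N : ℕ) (c : ℂ) : Rep N (fun _ => c) 0 (PowerSeries.C c) := by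
  intro τ
  have h := hasSum_ite_eq (0 : ℕ) c
  convert h using 1
  · funext n
    by_cases hn : n = 0
    · subst hn
      simp
    · simp [PowerSeries.coeff_C, hn]
  · simp

theorem Rep.X_pow (N k : ℕ) : Rep N (fun _ => 1) k (PowerSeries.X ^ k) := by
  intro τ
  have h := hasSum_ite_eq k (tPar N τ ^ k)
  convert h using 1
  · funext n
    by_cases hn : n = k
    · subst hn
      simp [PowerSeries.coeff_X_pow]
    · simp [PowerSeries.coeff_X_pow, hn]
  · simp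

theorem Rep.mul {N : ℕ} {f g : ℍ → ℂ} {m k : ℕ} {S T : PowerSeries ℂ} (hf : Rep N f m S)
    (hg : Rep N g k T) : Rep N (fun τ => f τ * g τ) (m + k) (S * T) := by
  intro τ
  have h1 := hf τ
  have h2 := hg τ
  have h3 := summable_norm_sum_mul_antidiagonal_of_summable_norm h1.summable.norm h2.summable.norm
  have h4 := tsum_mul_tsum_eq_tsum_sum_antidiagonal_of_summable_norm h1.summable.norm
    h2.summable.norm
  have h5 : (fun n : ℕ => PowerSeries.coeff n (S * T) * tPar N τ ^ n) = fun n : ℕ =>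
      ∑ kl ∈ Finset.HasAntidiagonal.antidiagonal n, (PowerSeries.coeff kl.1 S * tPar N τ ^ kl.1) *
        (PowerSeries.coeff kl.2 T * tPar N τ ^ kl.2) := by
    funext n
    rw [PowerSeries.coeff_mul, Finset.sum_mul]
    refine Finset.sum_congr rfl fun kl hkl => ?_
    rw [← Finset.HasAntidiagonal.mem_antidiagonal.1 hkl, _root_.pow_add]
    ring
  rw [h5]
  have h6 : tPar N τ ^ (m + k) * (f τ * g τ) = (tPar N τ ^ m * f τ) * (tPar N τ ^ k * g τ) := by
    rw [_root_.pow_add]; ring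
  rw [h6, ← h1.tsum_eq, ← h2.tsum_eq, h4]
  exact h3.of_norm.hasSum

theorem Rep.shift {N : ℕ} {f : ℍ → ℂ} {m : ℕ} {S : PowerSeries ℂ} (hf : Rep N f m S) (k : ℕ) :
    Rep N f (m + k) (S * PowerSeries.X ^ k) := by
  simpa using hf.mul (Rep.X_pow N k)

theorem Rep.add {N : ℕ} {f g : ℍ → ℂ} {m : ℕ} {S T : PowerSeries ℂ} (hf : Rep N f m S)
    (hg : Rep N g m T) : Rep N (fun τ => f τ + g τ) m (S + T) := by
  intro τ
  have h := (hf τ).add (hg τ)
  convert h using 1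
  · funext n
    rw [map_add, add_mul]
  · ring


theorem Rep.sub {N : ℕ} {f g : ℍ → ℂ} {m : ℕ} {S T : PowerSeries ℂ} (hf : Rep N f m S)
    (hg : Rep N g m T) : Rep N (fun τ => f τ - g τ) m (S - T) := by
  intro τ
  have h := (hf τ).sub (hg τ)
  have e : (fun n : ℕ => PowerSeries.coeff n (S - T) * tPar N τ ^ n) = fun n : ℕ =>
      PowerSeries.coeff n S * tPar N τ ^ n - PowerSeries.coeff n T * tPar N τ ^ n := by
    funext n
    rw [map_sub, sub_mul]
  show HasSum _ (tPar N τ ^ m * (f τ - g τ))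
  rw [e, mul_sub]
  exact h

theorem tPar_eq (N : ℕ) (τ : ℍ) : tPar N τ = Function.Periodic.qParam (N : ℝ) τ := by
  simp [tPar, Function.Periodic.qParam]

theorem tPar_ne_zero (N : ℕ) (τ : ℍ) : tPar N τ ≠ 0 := Complex.exp_ne_zero _

theorem Rep.eq_zero {N : ℕ} [NeZero N] {m : ℕ} {S : PowerSeries ℂ}
    (h : Rep N (fun _ => 0) m S) : S = 0 := by
  ext n
  have hN : (0 : ℝ) < N := by exact_mod_cast Nat.pos_of_ne_zero (NeZero.ne N)
  have han : AnalyticAt ℂ (cuspFunction (N : ℝ) (0 : ℍ → ℂ)) 0 := by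
    refine analyticAt_cuspFunction_zero hN ?_ ?_ ?_
    · intro z
      simp
    · exact mdifferentiable_const
    · exact (Filter.const_boundedAtFilter _ (0 : ℂ))
  have h1 := UpperHalfPlane.qExpansion_coeff_unique (0 : ModularForm ⊥ 0)
    (c := fun n => PowerSeries.coeff n S) hN (by rw [FunLike.coe_zero]; exact han)
    (fun τ => by
      have := h τ
      simpa [tPar_eq] using this) n
  rw [FunLike.coe_zero, qExpansion_zero] at h1
  simpa using h1

end TExp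

open TExp

theorem HasTExp.const (N : ℕ) (c : ℂ) : HasTExp N (fun _ => c) (HahnSeries.C c) := by
  rw [← lau_zero_C]
  exact (Rep.const N c).hasTExp

theorem HasTExp.add {N : ℕ} [NeZero N] {f g : ℍ → ℂ} {s u : LaurentSeries ℂ} (hf : HasTExp N f s)
    (hg : HasTExp N g u) : HasTExp N (fun τ => f τ + g τ) (s + u) := by
  obtain ⟨m, S, rfl, h1⟩ := hasTExp_iff.1 hf
  obtain ⟨k, T, rfl, h2⟩ := hasTExp_iff.1 hg
  have h3 := h1.shift k
  have h4 := h2.shift m
  rw [add_comm k m] at h4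
  have h5 := (h3.add h4).hasTExp
  rw [← lau_add, lau_shift] at h5
  rw [add_comm m k, lau_shift] at h5
  exact h5

theorem HasTExp.mul {N : ℕ} [NeZero N] {f g : ℍ → ℂ} {s u : LaurentSeries ℂ} (hf : HasTExp N f s)
    (hg : HasTExp N g u) : HasTExp N (fun τ => f τ * g τ) (s * u) := by
  obtain ⟨m, S, rfl, h1⟩ := hasTExp_iff.1 hf
  obtain ⟨k, T, rfl, h2⟩ := hasTExp_iff.1 hg
  rw [lau_mul]
  exact (h1.mul h2).hasTExp

theorem HasTExp.unique {N : ℕ} [NeZero N] {f : ℍ → ℂ} {s u : LaurentSeries ℂ} (hf : HasTExp N f s)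
    (hg : HasTExp N f u) : s = u := by
  obtain ⟨m, S, rfl, h1⟩ := hasTExp_iff.1 hf
  obtain ⟨k, T, rfl, h2⟩ := hasTExp_iff.1 hg
  have h3 := h1.shift k
  have h4 := h2.shift m
  rw [add_comm k m] at h4
  have h5 := h3.sub h4
  simp only [sub_self] at h5
  have h6 := sub_eq_zero.1 h5.eq_zero
  rw [← lau_shift m k S, h6, add_comm m k, lau_shift]

theorem HasTExp.aeval {N : ℕ} [NeZero N] {σ : Type*} {f : σ → ℍ → ℂ} {s : σ → LaurentSeries ℂ}
    (h : ∀ x, HasTExp N (f x) (s x)) (U : MvPolynomial σ ℂ) :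
    HasTExp N (fun τ => MvPolynomial.aeval (fun x => f x τ) U) (MvPolynomial.aeval s U) := by
  induction U using MvPolynomial.induction_on with
  | C c =>
    simp only [MvPolynomial.aeval_C, algebraMap_eq_C, Algebra.algebraMap_self, RingHom.id_apply]
    exact HasTExp.const N c
  | add p q hp hq =>
    simp only [map_add]
    exact hp.add hq
  | mul_X p x hp =>
    simp only [map_mul, MvPolynomial.aeval_X]
    exact hp.mul (h x)

theorem HasTExp.esymm {N : ℕ} [NeZero N] {ι : Type*} [Fintype ι] {f : ι → ℍ → ℂ}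
    {s : ι → LaurentSeries ℂ} (h : ∀ i, HasTExp N (f i) (s i)) (n : ℕ) :
    HasTExp N (fun τ => (Finset.univ.val.map (fun i => f i τ)).esymm n)
      ((Finset.univ.val.map s).esymm n) := by
  have h1 := HasTExp.aeval h (MvPolynomial.esymm ι ℂ n)
  simpa only [MvPolynomial.aeval_esymm_eq_multiset_esymm] using h1

theorem HasTExp.prod {N : ℕ} [NeZero N] {ι : Type*} [Fintype ι] {f : ι → ℍ → ℂ}
    {s : ι → LaurentSeries ℂ} (h : ∀ i, HasTExp N (f i) (s i)) :
    HasTExp N (fun τ => ∏ i, f i τ) (∏ i, s i) := by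
  have h1 := HasTExp.aeval h (∏ i, MvPolynomial.X i)
  simpa only [map_prod, MvPolynomial.aeval_X] using h1

/-- general substitution `t' = ω t^m`. -/
theorem HasTExp.comp_gen {N' N : ℕ} {f : ℍ → ℂ} {s : LaurentSeries ℂ} (hf : HasTExp N' f s)
    {m : ℕ} (hm : m ≠ 0) (ω : ℂˣ) (α : ℍ → ℍ)
    (hα : ∀ τ, tPar N' (α τ) = ω * tPar N τ ^ m) :
    HasTExp N (fun τ => f (α τ)) (qExp ℂ m (twist ω s)) := by
  obtain ⟨M, h1, h2⟩ := hf
  have : NeZero m := ⟨hm⟩
  have hm' : (0 : ℤ) < m := by exact_mod_cast Nat.pos_of_ne_zero hm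
  rw [qExp_eq]
  refine ⟨m * M, fun n hn => ?_, fun τ => ?_⟩
  · by_cases hd : (m : ℤ) ∣ n
    · obtain ⟨k, rfl⟩ := hd
      rw [qExpand_coeff_mul, twist_coeff, h1 k ?_, mul_zero]
      push_cast at hn
      nlinarith
    · exact qExpand_coeff_of_not_dvd _ _ hd
  · have h3 := h2 (α τ)
    simp only [hα] at h3
    have hinj : Function.Injective (fun n : ℕ => m * n) :=
      fun a b h => Nat.eq_of_mul_eq_mul_left (Nat.pos_of_ne_zero hm) h
    rw [← hinj.hasSum_iff]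
    · have h4 := h3.mul_left ((((ω⁻¹ : ℂˣ) : ℂ)) ^ M)
      have hω : (((ω⁻¹ : ℂˣ) : ℂ)) ^ M * (ω : ℂ) ^ M = 1 := by
        rw [← mul_pow, Units.inv_mul, one_pow]
      have e1 : ((fun n : ℕ => (qExpand ℂ m (twist ω s)).coeff ((n : ℤ) - ((m * M : ℕ) : ℤ)) *
          tPar N τ ^ n) ∘ fun n : ℕ => m * n) = fun n : ℕ => (((ω⁻¹ : ℂˣ) : ℂ)) ^ M *
            (s.coeff ((n : ℤ) - M) * ((ω : ℂ) * tPar N τ ^ m) ^ n) := by
        funext n
        have e2 : (((m * n : ℕ) : ℤ) - ((m * M : ℕ) : ℤ)) = (m : ℤ) * ((n : ℤ) - M) := by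
          push_cast; ring
        have e3 : ((ω ^ ((n : ℤ) - M) : ℂˣ) : ℂ) = (((ω⁻¹ : ℂˣ) : ℂ)) ^ M * (ω : ℂ) ^ n := by
          rw [zpow_sub, zpow_natCast, zpow_natCast, Units.val_mul, ← inv_pow, Units.val_pow_eq_pow_val,
            Units.val_pow_eq_pow_val, mul_comm]
        simp only [Function.comp_apply]
        rw [e2, qExpand_coeff_mul, twist_coeff, e3, mul_pow, ← pow_mul]
        ring
      have e4 : tPar N τ ^ (m * M) * f (α τ) = (((ω⁻¹ : ℂˣ) : ℂ)) ^ M *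
          (((ω : ℂ) * tPar N τ ^ m) ^ M * f (α τ)) := by
        rw [mul_pow, ← pow_mul, ← mul_assoc, ← mul_assoc, hω, one_mul]
      rw [e1, e4]
      exact h4
    · intro n hn
      rw [qExpand_coeff_of_not_dvd, zero_mul]
      intro hd
      apply hn
      have hd' : (m : ℤ) ∣ (n : ℤ) := by
        have := dvd_add hd (Dvd.intro (M : ℤ) rfl : (m : ℤ) ∣ (m : ℤ) * M)
        push_cast at this
        simpa using this
      obtain ⟨k, hk⟩ := Int.natCast_dvd_natCast.1 hd'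
      exact ⟨k, hk.symm⟩

/-- substitution `q = ω t^m`. -/
theorem HasTExp.comp {N : ℕ} [NeZero N] {f : ℍ → ℂ} {s : LaurentSeries ℂ} (hf : HasTExp 1 f s)
    {m : ℕ} (hm : m ≠ 0) (ω : ℂˣ) (α : ℍ → ℍ)
    (hα : ∀ τ, tPar 1 (α τ) = ω * tPar N τ ^ m) :
    HasTExp N (fun τ => f (α τ)) (qExp ℂ m (twist ω s)) :=
  hf.comp_gen hm ω α hα

/-- if there is no polar part, the function is bounded at `i∞`. -/
theorem HasTExp.isBoundedAtImInfty {N : ℕ} [NeZero N] {f : ℍ → ℂ} {s : LaurentSeries ℂ}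
    (hf : HasTExp N f s) (hs : ∀ n : ℤ, n < 0 → s.coeff n = 0) : IsBoundedAtImInfty f := by
  obtain ⟨m, -, h2⟩ := hf
  have hN : (0 : ℝ) < N := by exact_mod_cast Nat.pos_of_ne_zero (NeZero.ne N)
  refine isBoundedAtImInfty_of_hasSum_qExpansion (c := fun n : ℕ => s.coeff (n : ℤ)) hN
    fun τ => ?_
  have h3 := (hasSum_nat_add_iff' m).2 (h2 τ)
  have h4 : ∑ i ∈ Finset.range m, s.coeff ((i : ℤ) - m) * tPar N τ ^ i = 0 := by
    refine Finset.sum_eq_zero fun i hi => ?_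
    rw [hs _ (by have := Finset.mem_range.1 hi; omega), zero_mul]
  rw [h4, sub_zero] at h3
  have h5 := h3.mul_left ((tPar N τ ^ m)⁻¹)
  have ht : tPar N τ ^ m ≠ 0 := pow_ne_zero _ (tPar_ne_zero N τ)
  rw [inv_mul_cancel_left₀ ht] at h5
  have e : (fun n : ℕ => s.coeff (n : ℤ) • Function.Periodic.qParam (N : ℝ) τ ^ n) =
      fun n : ℕ => (tPar N τ ^ m)⁻¹ * (s.coeff (((n + m : ℕ) : ℤ) - m) * tPar N τ ^ (n + m)) := by
    funext n
    have e1 : (((n + m : ℕ) : ℤ) - m) = n := by push_cast; ring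
    rw [e1, _root_.pow_add, ← tPar_eq, smul_eq_mul]
    field_simp
  rw [e]
  exact h5

theorem TExp.tPar_vadd (N : ℕ) [NeZero N] (τ : ℍ) :
    tPar N ((1 : ℝ) +ᵥ τ) = (zetaC N : ℂ) * tPar N τ ^ 1 := by
  have hN : (N : ℂ) ≠ 0 := by exact_mod_cast NeZero.ne N
  rw [pow_one, tPar, tPar, zetaC, Units.val_mk0, ← Complex.exp_add]
  congr 1
  rw [UpperHalfPlane.coe_vadd]
  push_cast
  field_simp

/-- a `1`-periodic function has an expansion in `q = t^N`. -/
theorem HasTExp.coeff_eq_zero_of_periodic {N : ℕ} [NeZero N] {f : ℍ → ℂ} {s : LaurentSeries ℂ}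
    (hf : HasTExp N f s) (hper : ∀ τ : ℍ, f ((1 : ℝ) +ᵥ τ) = f τ) {n : ℤ} (hn : ¬ (N : ℤ) ∣ n) :
    s.coeff n = 0 := by
  have h1 := hf.comp_gen one_ne_zero (zetaC N) (fun τ => (1 : ℝ) +ᵥ τ) (TExp.tPar_vadd N)
  simp only [hper] at h1
  rw [qExp_eq, qExpand_one_apply] at h1
  have h2 := congrArg (fun x => x.coeff n) (h1.unique hf)
  simp only [twist_coeff] at h2
  have h3 : ((zetaC N ^ n : ℂˣ) : ℂ) ≠ 1 := by
    intro h
    apply hn
    have hp : IsPrimitiveRoot (zetaC N : ℂ) N := by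
      rw [zetaC, Units.val_mk0]
      exact Complex.isPrimitiveRoot_exp N (NeZero.ne N)
    rw [← hp.zpow_eq_one_iff_dvd]
    rw [← h]
    simp
  have h4 : (((zetaC N ^ n : ℂˣ) : ℂ) - 1) * s.coeff n = 0 := by
    rw [sub_mul, h2, one_mul, sub_self]
  exact (mul_eq_zero.1 h4).resolve_left (sub_ne_zero.2 h3)

end Fermat.Agent.S28
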